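import Mathlib

/-!
# S52 / Level5, node B-G : general lemmas on short Weierstrass curves

Addition and doubling on `y² = x³ + a₄ x + a₆` from polynomial identities.
-/

set_option autoImplicit false
open WeierstrassCurve WeierstrassCurve.Affine WeierstrassCurve.Affine.Point

namespace Fermat.Agent.S52.Level5

section AddLemmas
variable {F : Type*} [Field F] [DecidableEq F] (E : WeierstrassCurve F)
  (h₁ : E.a₁ = 0) (h₂ : E.a₂ = 0) (h₃ : E.a₃ = 0)

include h₁ h₂ h₃ in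
theorem nonsingular_of_eq (hΔ : E.Δ ≠ 0) {x y : F} (h : y ^ 2 = x ^ 3 + E.a₄ * x + E.a₆) :
    E.toAffine.Nonsingular x y := by
  rw [← equation_iff_nonsingular_of_Δ_ne_zero (W := E.toAffine) hΔ, equation_iff, h₁, h₂, h₃, h]
  ring

/-- equality of affine points from equality of coordinates -/
theorem addLemmas_some_eq_some {x y x' y' : F} (n : E.toAffine.Nonsingular x y)
    (n' : E.toAffine.Nonsingular x' y') (hx : x = x') (hy : y = y') :
    Point.some x y n = Point.some x' y' n' := by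
  subst hx hy
  rfl

include h₁ h₂ h₃ in
theorem add_of_identities {x₁ y₁ x₂ y₂ x₃ y₃ : F} (n₁ : E.toAffine.Nonsingular x₁ y₁)
    (n₂ : E.toAffine.Nonsingular x₂ y₂) (n₃ : E.toAffine.Nonsingular x₃ y₃) (hx : x₁ ≠ x₂)
    (Ix : x₃ * (x₁ - x₂) ^ 2 = (y₁ - y₂) ^ 2 - (x₁ + x₂) * (x₁ - x₂) ^ 2)
    (Iy : y₃ * (x₁ - x₂) = -((y₁ - y₂) * (x₃ - x₁) + y₁ * (x₁ - x₂))) :
    Point.some x₁ y₁ n₁ + Point.some x₂ y₂ n₂ = Point.some x₃ y₃ n₃ := by
  have hd : x₁ - x₂ ≠ 0 := sub_ne_zero.mpr hx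
  rw [add_of_X_ne hx]
  have hX : E.toAffine.addX x₁ x₂ (E.toAffine.slope x₁ x₂ y₁ y₂) = x₃ := by
    rw [slope_of_X_ne hx, addX, h₁, h₂]
    field_simp
    linear_combination -Ix
  apply addLemmas_some_eq_some E _ _ hX
  rw [addY, negY, negAddY, hX, slope_of_X_ne hx, h₁, h₃]
  field_simp
  linear_combination -Iy

include h₁ h₂ h₃ in
theorem double_of_identities {x₁ y₁ x₃ y₃ : F} (n₁ : E.toAffine.Nonsingular x₁ y₁)
    (n₃ : E.toAffine.Nonsingular x₃ y₃) (h2 : (2 : F) ≠ 0) (hy : y₁ ≠ 0)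
    (Ix : x₃ * (2 * y₁) ^ 2 = (3 * x₁ ^ 2 + E.a₄) ^ 2 - 2 * x₁ * (2 * y₁) ^ 2)
    (Iy : y₃ * (2 * y₁) = -((3 * x₁ ^ 2 + E.a₄) * (x₃ - x₁) + y₁ * (2 * y₁))) :
    Point.some x₁ y₁ n₁ + Point.some x₁ y₁ n₁ = Point.some x₃ y₃ n₃ := by
  have hneg : E.toAffine.negY x₁ y₁ = -y₁ := by
    rw [negY, h₁, h₃]; ring
  have hne : y₁ ≠ E.toAffine.negY x₁ y₁ := by
    rw [hneg]
    intro h
    have : 2 * y₁ = 0 := by linear_combination h
    exact (mul_ne_zero h2 hy) this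
  have hsl : E.toAffine.slope x₁ x₁ y₁ y₁ = (3 * x₁ ^ 2 + E.a₄) / (2 * y₁) := by
    rw [slope_of_Y_ne rfl hne, hneg, h₁, h₂]
    congr 1 <;> ring
  rw [add_self_of_Y_ne hne]
  have hX : E.toAffine.addX x₁ x₁ (E.toAffine.slope x₁ x₁ y₁ y₁) = x₃ := by
    rw [hsl, addX, h₁, h₂]
    field_simp
    linear_combination -Ix
  apply addLemmas_some_eq_some E _ _ hX
  rw [addY, negY, negAddY, hX, hsl, h₁, h₃]
  field_simp
  linear_combination -Iy

include h₁ h₂ h₃ in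
theorem neg_some_short {x y : F} (n : E.toAffine.Nonsingular x y) :
    ∃ n', -Point.some x y n = Point.some x (-y) n' := by
  have hneg : E.toAffine.negY x y = -y := by
    rw [negY, h₁, h₃]; ring
  refine ⟨hneg ▸ (nonsingular_neg ..).mpr n, ?_⟩
  rw [neg_some]
  exact addLemmas_some_eq_some E _ _ rfl hneg

end AddLemmas

end Fermat.Agent.S52.Level5
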