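import Fermat.Agent.S52.B.Card5

/-!
# S52 / Level5, node B-C : the 5-torsion is the image of an injective `(ℤ/5)²`

This is `Fermat.Agent.S52.B.exists_of_five_nsmul_eq_zero` (root counting for the degree 16
polynomial `f16`, whose leading coefficient is `-15`, and Lagrange) in the form required by
`Level5/WIP/SkeletonB.lean`.
-/

set_option autoImplicit false
open WeierstrassCurve WeierstrassCurve.Affine WeierstrassCurve.Affine.Point

namespace Fermat.Agent.S52.Level5

theorem torsion_mem_range {F : Type*} [Field F] [DecidableEq F] (h2 : (2 : F) ≠ 0)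
    (h3 : (3 : F) ≠ 0) (h5 : (5 : F) ≠ 0) (E : WeierstrassCurve F) (hΔ : E.Δ ≠ 0)
    (Λ : ZMod 5 × ZMod 5 →+ E.toAffine.Point) (hΛ : Function.Injective Λ)
    (P : E.toAffine.Point) (hP : (5 : ℕ) • P = 0) : ∃ p, Λ p = P := by
  have h15 : (15 : F) ≠ 0 := by
    have e : (15 : F) = 3 * 5 := by norm_num
    rw [e]
    exact mul_ne_zero h3 h5
  exact Fermat.Agent.S52.B.exists_of_five_nsmul_eq_zero h15 E.toAffine Λ hΛ P hP

end Fermat.Agent.S52.Level5
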