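import Fermat.Agent.S52.Level5.Table

/-!
# S52 / Level5: polynomial identities for the table of 5-torsion points (machine generated)
-/

namespace Fermat.Agent.S52.Level5

variable {R : Type*} [CommRing R]

set_option maxRecDepth 100000 in
set_option maxHeartbeats 1600000 in
theorem eq1 (u v : R) :
    Y1 u v ^ 2 = X1 u v ^ 3 - 27 * kH u v * X1 u v + 54 * kT u v := by
  simp only [Y1, X1, kH, kT]
  ring

set_option maxRecDepth 100000 in
set_option maxHeartbeats 1600000 in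
theorem eq2 (u v : R) :
    Y2 u v ^ 2 = X2 u v ^ 3 - 27 * kH u v * X2 u v + 54 * kT u v := by
  simp only [Y2, X2, kH, kT]
  ring

set_option maxRecDepth 100000 in
set_option maxHeartbeats 1600000 in
theorem eq10 (z w u v : R) (hz : 1 + z + z^2 + z^3 + z^4 = 0) (hw : 5 * w = 1) :
    Y10 z w u v ^ 2 = X10 z w u v ^ 3 - 27 * kH u v * X10 z w u v + 54 * kT u v := by
  simp only [Y10, X10, Y10n, X10n, kH, kT]
  linear_combination (793152 * u^30 * w^3 + 16842816 * u^25 * v^5 * w^3 + 81414720 * u^20 * v^10 * w^3 - 81414720 * u^15 * v^15 * w^3 + 58553280 * u^10 * v^20 * w^3 - 8817984 * u^5 * v^25 * w^3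
      + 373248 * v^30 * w^3 - 559872 * u^30 * z * w^3 - 12643776 * u^25 * v^5 * z * w^3 - 73249920 * u^20 * v^10 * z * w^3 - 14230080 * u^15 * v^15 * z * w^3 + 73249920 * u^10 * v^20 * z * w^3
      - 12643776 * u^5 * v^25 * z * w^3 + 559872 * v^30 * z * w^3 + 793152 * u^30 * z^2 * w^3 + 16842816 * u^25 * v^5 * z^2 * w^3 + 81414720 * u^20 * v^10 * z^2 * w^3 - 81414720 * u^15 * v^15 * z^2 * w^3
      + 58553280 * u^10 * v^20 * z^2 * w^3 - 8817984 * u^5 * v^25 * z^2 * w^3 + 373248 * v^30 * z^2 * w^3 + 93312 * u^30 * z^4 * w^3 + 3079296 * u^25 * v^5 * z^4 * w^3 + 33592320 * u^20 * v^10 * z^4 * w^3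
      + 118039680 * u^15 * v^15 * z^4 * w^3 - 33592320 * u^10 * v^20 * z^4 * w^3 + 3079296 * u^5 * v^25 * z^4 * w^3 - 93312 * v^30 * z^4 * w^3 + 46656 * u^30 * z^5 * w^3 + 1539648 * u^25 * v^5 * z^5 * w^3
      + 16796160 * u^20 * v^10 * z^5 * w^3 + 59019840 * u^15 * v^15 * z^5 * w^3 - 16796160 * u^10 * v^20 * z^5 * w^3 + 1539648 * u^5 * v^25 * z^5 * w^3 - 46656 * v^30 * z^5 * w^3) * hz
    + (54 * u^30 + 28188 * u^25 * v^5 - 540270 * u^20 * v^10 - 540270 * u^10 * v^20 - 28188 * u^5 * v^25 + 54 * v^30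
      + 2781 * u^30 * w - 426222 * u^25 * v^5 * w - 2678265 * u^20 * v^10 * w + 2862540 * u^15 * v^15 * w - 719685 * u^10 * v^20 * w + 215298 * u^5 * v^25 * w
      + 1809 * v^30 * w + 972 * u^30 * z^2 * w - 210924 * u^25 * v^5 * z^2 * w - 1958580 * u^20 * v^10 * z^2 * w + 5725080 * u^15 * v^15 * z^2 * w + 1958580 * u^10 * v^20 * z^2 * w
      - 210924 * u^5 * v^25 * z^2 * w - 972 * v^30 * z^2 * w + 972 * u^30 * z^3 * w - 210924 * u^25 * v^5 * z^3 * w - 1958580 * u^20 * v^10 * z^3 * w + 5725080 * u^15 * v^15 * z^3 * w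
      + 1958580 * u^10 * v^20 * z^3 * w - 210924 * u^5 * v^25 * z^3 * w - 972 * v^30 * z^3 * w + 2241 * u^30 * w^2 - 2341062 * u^25 * v^5 * w^2 - 13799565 * u^20 * v^10 * w^2
      + 19094940 * u^15 * v^15 * w^2 - 10188585 * u^10 * v^20 * w^2 + 2149578 * u^5 * v^25 * w^2 - 37611 * v^30 * w^2 - 46656 * u^30 * z * w^2 - 839808 * u^25 * v^5 * z * w^2
      - 1632960 * u^20 * v^10 * z * w^2 + 19128960 * u^15 * v^15 * z * w^2 - 26360640 * u^10 * v^20 * z * w^2 + 4292352 * u^5 * v^25 * z * w^2 - 186624 * v^30 * z * w^2 - 18468 * u^30 * z^2 * w^2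
      - 1357884 * u^25 * v^5 * z^2 * w^2 - 8276580 * u^20 * v^10 * z^2 * w^2 + 46937880 * u^15 * v^15 * z^2 * w^2 - 33713820 * u^10 * v^20 * z^2 * w^2 + 6340356 * u^5 * v^25 * z^2 * w^2 - 331452 * v^30 * z^2 * w^2
      - 18468 * u^30 * z^3 * w^2 - 1357884 * u^25 * v^5 * z^3 * w^2 - 8276580 * u^20 * v^10 * z^3 * w^2 + 46937880 * u^15 * v^15 * z^3 * w^2 - 33713820 * u^10 * v^20 * z^3 * w^2 + 6340356 * u^5 * v^25 * z^3 * w^2
      - 331452 * v^30 * z^3 * w^2 - 151632 * u^30 * z^4 * w^2 - 3079296 * u^25 * v^5 * z^4 * w^2 - 12597120 * u^20 * v^10 * z^4 * w^2 + 29509920 * u^15 * v^15 * z^4 * w^2 - 29393280 * u^10 * v^20 * z^4 * w^2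
      + 4618944 * u^5 * v^25 * z^4 * w^2 - 198288 * v^30 * z^4 * w^2 + 69984 * u^30 * z^5 * w^2 + 1726272 * u^25 * v^5 * z^5 * w^2 + 12363840 * u^20 * v^10 * z^5 * w^2 + 19128960 * u^15 * v^15 * z^5 * w^2
      - 12363840 * u^10 * v^20 * z^5 * w^2 + 1726272 * u^5 * v^25 * z^5 * w^2 - 69984 * v^30 * z^5 * w^2 - 104976 * u^30 * z^6 * w^2 - 2239488 * u^25 * v^5 * z^6 * w^2 - 10964160 * u^20 * v^10 * z^6 * w^2
      + 10380960 * u^15 * v^15 * z^6 * w^2 - 3032640 * u^10 * v^20 * z^6 * w^2 + 326592 * u^5 * v^25 * z^6 * w^2 - 11664 * v^30 * z^6 * w^2) * hw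

set_option maxRecDepth 100000 in
set_option maxHeartbeats 1600000 in
theorem eq20 (z w u v : R) (hz : 1 + z + z^2 + z^3 + z^4 = 0) (hw : 5 * w = 1) :
    Y20 z w u v ^ 2 = X20 z w u v ^ 3 - 27 * kH u v * X20 z w u v + 54 * kT u v := by
  simp only [Y20, X20, Y20n, X20n, kH, kT]
  linear_combination (373248 * u^30 * w^3 + 8817984 * u^25 * v^5 * w^3 + 58553280 * u^20 * v^10 * w^3 + 81414720 * u^15 * v^15 * w^3 + 81414720 * u^10 * v^20 * w^3 - 16842816 * u^5 * v^25 * w^3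
      + 793152 * v^30 * w^3 + 559872 * u^30 * z * w^3 + 12643776 * u^25 * v^5 * z * w^3 + 73249920 * u^20 * v^10 * z * w^3 + 14230080 * u^15 * v^15 * z * w^3 - 73249920 * u^10 * v^20 * z * w^3
      + 12643776 * u^5 * v^25 * z * w^3 - 559872 * v^30 * z * w^3 + 373248 * u^30 * z^2 * w^3 + 8817984 * u^25 * v^5 * z^2 * w^3 + 58553280 * u^20 * v^10 * z^2 * w^3 + 81414720 * u^15 * v^15 * z^2 * w^3
      + 81414720 * u^10 * v^20 * z^2 * w^3 - 16842816 * u^5 * v^25 * z^2 * w^3 + 793152 * v^30 * z^2 * w^3 - 93312 * u^30 * z^4 * w^3 - 3079296 * u^25 * v^5 * z^4 * w^3 - 33592320 * u^20 * v^10 * z^4 * w^3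
      - 118039680 * u^15 * v^15 * z^4 * w^3 + 33592320 * u^10 * v^20 * z^4 * w^3 - 3079296 * u^5 * v^25 * z^4 * w^3 + 93312 * v^30 * z^4 * w^3 - 46656 * u^30 * z^5 * w^3 - 1539648 * u^25 * v^5 * z^5 * w^3
      - 16796160 * u^20 * v^10 * z^5 * w^3 - 59019840 * u^15 * v^15 * z^5 * w^3 + 16796160 * u^10 * v^20 * z^5 * w^3 - 1539648 * u^5 * v^25 * z^5 * w^3 + 46656 * v^30 * z^5 * w^3) * hz
    + (54 * u^30 + 28188 * u^25 * v^5 - 540270 * u^20 * v^10 - 540270 * u^10 * v^20 - 28188 * u^5 * v^25 + 54 * v^30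
      + 1809 * u^30 * w - 215298 * u^25 * v^5 * w - 719685 * u^20 * v^10 * w - 2862540 * u^15 * v^15 * w - 2678265 * u^10 * v^20 * w + 426222 * u^5 * v^25 * w
      + 2781 * v^30 * w - 972 * u^30 * z^2 * w + 210924 * u^25 * v^5 * z^2 * w + 1958580 * u^20 * v^10 * z^2 * w - 5725080 * u^15 * v^15 * z^2 * w - 1958580 * u^10 * v^20 * z^2 * w
      + 210924 * u^5 * v^25 * z^2 * w + 972 * v^30 * z^2 * w - 972 * u^30 * z^3 * w + 210924 * u^25 * v^5 * z^3 * w + 1958580 * u^20 * v^10 * z^3 * w - 5725080 * u^15 * v^15 * z^3 * w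
      - 1958580 * u^10 * v^20 * z^3 * w + 210924 * u^5 * v^25 * z^3 * w + 972 * v^30 * z^3 * w - 37611 * u^30 * w^2 - 2149578 * u^25 * v^5 * w^2 - 10188585 * u^20 * v^10 * w^2
      - 19094940 * u^15 * v^15 * w^2 - 13799565 * u^10 * v^20 * w^2 + 2341062 * u^5 * v^25 * w^2 + 2241 * v^30 * w^2 - 186624 * u^30 * z * w^2 - 4292352 * u^25 * v^5 * z * w^2
      - 26360640 * u^20 * v^10 * z * w^2 - 19128960 * u^15 * v^15 * z * w^2 - 1632960 * u^10 * v^20 * z * w^2 + 839808 * u^5 * v^25 * z * w^2 - 46656 * v^30 * z * w^2 - 331452 * u^30 * z^2 * w^2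
      - 6340356 * u^25 * v^5 * z^2 * w^2 - 33713820 * u^20 * v^10 * z^2 * w^2 - 46937880 * u^15 * v^15 * z^2 * w^2 - 8276580 * u^10 * v^20 * z^2 * w^2 + 1357884 * u^5 * v^25 * z^2 * w^2 - 18468 * v^30 * z^2 * w^2
      - 331452 * u^30 * z^3 * w^2 - 6340356 * u^25 * v^5 * z^3 * w^2 - 33713820 * u^20 * v^10 * z^3 * w^2 - 46937880 * u^15 * v^15 * z^3 * w^2 - 8276580 * u^10 * v^20 * z^3 * w^2 + 1357884 * u^5 * v^25 * z^3 * w^2
      - 18468 * v^30 * z^3 * w^2 - 198288 * u^30 * z^4 * w^2 - 4618944 * u^25 * v^5 * z^4 * w^2 - 29393280 * u^20 * v^10 * z^4 * w^2 - 29509920 * u^15 * v^15 * z^4 * w^2 - 12597120 * u^10 * v^20 * z^4 * w^2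
      + 3079296 * u^5 * v^25 * z^4 * w^2 - 151632 * v^30 * z^4 * w^2 - 69984 * u^30 * z^5 * w^2 - 1726272 * u^25 * v^5 * z^5 * w^2 - 12363840 * u^20 * v^10 * z^5 * w^2 - 19128960 * u^15 * v^15 * z^5 * w^2
      + 12363840 * u^10 * v^20 * z^5 * w^2 - 1726272 * u^5 * v^25 * z^5 * w^2 + 69984 * v^30 * z^5 * w^2 - 11664 * u^30 * z^6 * w^2 - 326592 * u^25 * v^5 * z^6 * w^2 - 3032640 * u^20 * v^10 * z^6 * w^2
      - 10380960 * u^15 * v^15 * z^6 * w^2 - 10964160 * u^10 * v^20 * z^6 * w^2 + 2239488 * u^5 * v^25 * z^6 * w^2 - 104976 * v^30 * z^6 * w^2) * hw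

set_option maxRecDepth 100000 in
set_option maxHeartbeats 1600000 in
theorem dbl1_x (u v : R) :
    X2 u v * (2 * Y1 u v) ^ 2 = (3 * X1 u v ^ 2 - 27 * kH u v) ^ 2 - 2 * X1 u v * (2 * Y1 u v) ^ 2 := by
  simp only [X1, Y1, X2, Y2, kH]
  ring

set_option maxRecDepth 100000 in
set_option maxHeartbeats 1600000 in
theorem dbl1_y (u v : R) :
    Y2 u v * (2 * Y1 u v) = -((3 * X1 u v ^ 2 - 27 * kH u v) * (X2 u v - X1 u v) + Y1 u v * (2 * Y1 u v)) := by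
  simp only [X1, Y1, X2, Y2, kH]
  ring

set_option maxRecDepth 100000 in
set_option maxHeartbeats 1600000 in
theorem dbl2_x (u v : R) :
    X1 u v * (2 * Y2 u v) ^ 2 = (3 * X2 u v ^ 2 - 27 * kH u v) ^ 2 - 2 * X2 u v * (2 * Y2 u v) ^ 2 := by
  simp only [X1, Y1, X2, Y2, kH]
  ring

set_option maxRecDepth 100000 in
set_option maxHeartbeats 1600000 in
theorem dbl2_y (u v : R) :
    (-Y1 u v) * (2 * Y2 u v) = -((3 * X2 u v ^ 2 - 27 * kH u v) * (X1 u v - X2 u v) + Y2 u v * (2 * Y2 u v)) := by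
  simp only [X1, Y1, X2, Y2, kH]
  ring

set_option maxRecDepth 100000 in
set_option maxHeartbeats 1600000 in
theorem dbl10_x (z w u v : R) (hz : 1 + z + z^2 + z^3 + z^4 = 0) (hw : 5 * w = 1) :
    X20 z w u v * (2 * Y10 z w u v) ^ 2 = (3 * X10 z w u v ^ 2 - 27 * kH u v) ^ 2 - 2 * X10 z w u v * (2 * Y10 z w u v) ^ 2 := by
  simp only [X10, Y10, X20, Y20, X10n, Y10n, X20n, Y20n, kH]
  linear_combination (-695361024 * u^40 * w^4 - 14429581056 * u^35 * v^5 * w^4 - 63460931328 * u^30 * v^10 * w^4 + 122422171392 * u^25 * v^15 * w^4 - 3535591680 * u^20 * v^20 * w^4 - 37601563392 * u^15 * v^25 * w^4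
      - 27349187328 * u^10 * v^30 * w^4 + 5821549056 * u^5 * v^35 * w^4 - 275457024 * v^40 * w^4 + 468612864 * u^40 * z * w^4 + 10163356416 * u^35 * v^5 * z * w^4 + 52005950208 * u^30 * v^10 * z * w^4
      - 39398752512 * u^25 * v^15 * z * w^4 - 55586891520 * u^20 * v^20 * z * w^4 + 33268154112 * u^15 * v^25 * z * w^4 - 65693140992 * u^10 * v^30 * z * w^4 + 11209757184 * u^5 * v^35 * z * w^4 - 497166336 * v^40 * z * w^4
      - 910351872 * u^40 * z^2 * w^4 - 21495725568 * u^35 * v^5 * z^2 * w^4 - 139868342784 * u^30 * v^10 * z^2 * w^4 - 137710036224 * u^25 * v^15 * z^2 * w^4 + 126911784960 * u^20 * v^20 * z^2 * w^4 + 4516487424 * u^15 * v^25 * z^2 * w^4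
      - 43122461184 * u^10 * v^30 * z^2 * w^4 + 7344960768 * u^5 * v^35 * z^2 * w^4 - 322486272 * v^40 * z^2 * w^4 - 33592320 * u^40 * z^3 * w^4 - 974177280 * u^35 * v^5 * z^3 * w^4 - 7793418240 * u^30 * v^10 * z^3 * w^4
      + 1444469760 * u^25 * v^15 * z^3 * w^4 + 133697433600 * u^20 * v^20 * z^3 * w^4 - 219458626560 * u^15 * v^25 * z^3 * w^4 + 52840719360 * u^10 * v^30 * z^3 * w^4 - 4568555520 * u^5 * v^35 * z^3 * w^4 + 134369280 * v^40 * z^3 * w^4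
      - 216670464 * u^40 * z^4 * w^4 - 7182038016 * u^35 * v^5 * z^4 * w^4 - 79341700608 * u^30 * v^10 * z^4 * w^4 - 295054783488 * u^25 * v^15 * z^4 * w^4 - 65765364480 * u^20 * v^20 * z^4 * w^4 - 358987686912 * u^15 * v^25 * z^4 * w^4
      + 102560712192 * u^10 * v^30 * z^4 * w^4 - 9446160384 * u^5 * v^35 * z^4 * w^4 + 287214336 * v^40 * z^4 * w^4 - 201553920 * u^40 * z^5 * w^4 - 6600890880 * u^35 * v^5 * z^5 * w^4 - 71030960640 * u^30 * v^10 * z^5 * w^4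
      - 241260042240 * u^25 * v^15 * z^5 * w^4 + 87927897600 * u^20 * v^20 * z^5 * w^4 - 194768271360 * u^15 * v^25 * z^5 * w^4 + 50237314560 * u^10 * v^30 * z^5 * w^4 - 4484574720 * u^5 * v^35 * z^5 * w^4 + 134369280 * v^40 * z^5 * w^4
      - 30233088 * u^40 * z^6 * w^4 - 1330255872 * u^35 * v^5 * z^6 * w^4 - 21828289536 * u^30 * v^10 * z^6 * w^4 - 156970192896 * u^25 * v^15 * z^6 * w^4 - 398925596160 * u^20 * v^20 * z^6 * w^4 + 156970192896 * u^15 * v^25 * z^6 * w^4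
      - 21828289536 * u^10 * v^30 * z^6 * w^4 + 1330255872 * u^5 * v^35 * z^6 * w^4 - 30233088 * v^40 * z^6 * w^4 - 45349632 * u^40 * z^7 * w^4 - 1995383808 * u^35 * v^5 * z^7 * w^4 - 32742434304 * u^30 * v^10 * z^7 * w^4
      - 235455289344 * u^25 * v^15 * z^7 * w^4 - 598388394240 * u^20 * v^20 * z^7 * w^4 + 235455289344 * u^15 * v^25 * z^7 * w^4 - 32742434304 * u^10 * v^30 * z^7 * w^4 + 1995383808 * u^5 * v^35 * z^7 * w^4 - 45349632 * v^40 * z^7 * w^4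
      - 15116544 * u^40 * z^8 * w^4 - 665127936 * u^35 * v^5 * z^8 * w^4 - 10914144768 * u^30 * v^10 * z^8 * w^4 - 78485096448 * u^25 * v^15 * z^8 * w^4 - 199462798080 * u^20 * v^20 * z^8 * w^4 + 78485096448 * u^15 * v^25 * z^8 * w^4
      - 10914144768 * u^10 * v^30 * z^8 * w^4 + 665127936 * u^5 * v^35 * z^8 * w^4 - 15116544 * v^40 * z^8 * w^4) * hz
    + (729 * u^40 - 332424 * u^35 * v^5 + 38616588 * u^30 * v^10 - 163885032 * u^25 * v^15 + 102111030 * u^20 * v^20 + 163885032 * u^15 * v^25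
      + 38616588 * u^10 * v^30 + 332424 * u^5 * v^35 + 729 * v^40 + 3645 * u^40 * w - 1662120 * u^35 * v^5 * w + 193082940 * u^30 * v^10 * w
      - 819425160 * u^25 * v^15 * w + 510555150 * u^20 * v^20 * w + 819425160 * u^15 * v^25 * w + 193082940 * u^10 * v^30 * w + 1662120 * u^5 * v^35 * w + 3645 * v^40 * w
      - 1382913 * u^40 * w^2 + 305182728 * u^35 * v^5 * w^2 + 1625462964 * u^30 * v^10 * w^2 - 5527878696 * u^25 * v^15 * w^2 - 1961585910 * u^20 * v^20 * w^2 + 565138296 * u^15 * v^25 * w^2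
      - 136384236 * u^10 * v^30 * w^2 - 115351128 * u^5 * v^35 * w^2 - 508113 * v^40 * w^2 - 1084752 * u^40 * z^2 * w^2 + 233081712 * u^35 * v^5 * z^2 * w^2 + 2686265856 * u^30 * v^10 * z^2 * w^2
      - 1591331184 * u^25 * v^15 * z^2 * w^2 - 14448896640 * u^20 * v^20 * z^2 * w^2 - 8334149616 * u^15 * v^25 * z^2 * w^2 - 837428544 * u^10 * v^30 * z^2 * w^2 + 146581488 * u^5 * v^35 * z^2 * w^2 + 664848 * v^40 * z^2 * w^2
      - 1084752 * u^40 * z^3 * w^2 + 233081712 * u^35 * v^5 * z^3 * w^2 + 2686265856 * u^30 * v^10 * z^3 * w^2 - 1591331184 * u^25 * v^15 * z^3 * w^2 - 14448896640 * u^20 * v^20 * z^3 * w^2 - 8334149616 * u^15 * v^25 * z^3 * w^2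
      - 837428544 * u^10 * v^30 * z^3 * w^2 + 146581488 * u^5 * v^35 * z^3 * w^2 + 664848 * v^40 * z^3 * w^2 - 209952 * u^40 * z^4 * w^2 + 43250112 * u^35 * v^5 * z^4 * w^2 + 924418656 * u^30 * v^10 * z^4 * w^2
      + 3371409216 * u^25 * v^15 * z^4 * w^2 - 14448896640 * u^20 * v^20 * z^4 * w^2 - 3371409216 * u^15 * v^25 * z^4 * w^2 + 924418656 * u^10 * v^30 * z^4 * w^2 - 43250112 * u^5 * v^35 * z^4 * w^2 - 209952 * v^40 * z^4 * w^2
      - 419904 * u^40 * z^5 * w^2 + 86500224 * u^35 * v^5 * z^5 * w^2 + 1848837312 * u^30 * v^10 * z^5 * w^2 + 6742818432 * u^25 * v^15 * z^5 * w^2 - 28897793280 * u^20 * v^20 * z^5 * w^2 - 6742818432 * u^15 * v^25 * z^5 * w^2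
      + 1848837312 * u^10 * v^30 * z^5 * w^2 - 86500224 * u^5 * v^35 * z^5 * w^2 - 419904 * v^40 * z^5 * w^2 - 209952 * u^40 * z^6 * w^2 + 43250112 * u^35 * v^5 * z^6 * w^2 + 924418656 * u^30 * v^10 * z^6 * w^2
      + 3371409216 * u^25 * v^15 * z^6 * w^2 - 14448896640 * u^20 * v^20 * z^6 * w^2 - 3371409216 * u^15 * v^25 * z^6 * w^2 + 924418656 * u^10 * v^30 * z^6 * w^2 - 43250112 * u^5 * v^35 * z^6 * w^2 - 209952 * v^40 * z^6 * w^2
      + 4422843 * u^40 * w^3 + 1739224872 * u^35 * v^5 * w^3 + 8700063876 * u^30 * v^10 * w^3 - 31790564424 * u^25 * v^15 * w^3 - 6851805390 * u^20 * v^20 * w^3 + 3042361944 * u^15 * v^25 * w^3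
      + 3970195236 * u^10 * v^30 * w^3 - 1428320952 * u^5 * v^35 * w^3 + 36090603 * v^40 * w^3 + 45349632 * u^40 * z * w^3 + 853244928 * u^35 * v^5 * z * w^3 + 2290996224 * u^30 * v^10 * z * w^3
      - 16604683776 * u^25 * v^15 * z * w^3 + 11824496640 * u^20 * v^20 * z * w^3 + 866681856 * u^15 * v^25 * z * w^3 + 18608465664 * u^10 * v^30 * z * w^3 - 3406261248 * u^5 * v^35 * z * w^3 + 154524672 * v^40 * z * w^3
      + 18930672 * u^40 * z^2 * w^3 + 1527365808 * u^35 * v^5 * z^2 * w^3 + 12606637824 * u^30 * v^10 * z^2 * w^3 - 26778432816 * u^25 * v^15 * z^2 * w^3 - 52399820160 * u^20 * v^20 * z^2 * w^3 - 18591144624 * u^15 * v^25 * z^2 * w^3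
      + 23655011904 * u^10 * v^30 * z^2 * w^3 - 4903044048 * u^5 * v^35 * z^2 * w^3 + 267023952 * v^40 * z^2 * w^3 + 25649136 * u^40 * z^3 * w^3 + 1722201264 * u^35 * v^5 * z^3 * w^3 + 14165321472 * u^30 * v^10 * z^3 * w^3
      - 27067326768 * u^25 * v^15 * z^3 * w^3 - 79139306880 * u^20 * v^20 * z^3 * w^3 + 25300580688 * u^15 * v^25 * z^3 * w^3 + 13086868032 * u^10 * v^30 * z^3 * w^3 - 3989332944 * u^5 * v^35 * z^3 * w^3 + 240150096 * v^40 * z^3 * w^3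
      + 156414240 * u^40 * z^4 * w^3 + 3604875840 * u^35 * v^5 * z^4 * w^3 + 21248192160 * u^30 * v^10 * z^4 * w^3 - 4671432000 * u^25 * v^15 * z^4 * w^3 - 105878793600 * u^20 * v^20 * z^4 * w^3 + 91877094720 * u^15 * v^25 * z^4 * w^3
      - 3005462880 * u^10 * v^30 * z^4 * w^3 - 1387782720 * u^5 * v^35 * z^4 * w^3 + 89229600 * v^40 * z^4 * w^3 - 63405504 * u^40 * z^5 * w^3 - 1139619456 * u^35 * v^5 * z^5 * w^3 - 3681298368 * u^30 * v^10 * z^5 * w^3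
      - 6265807488 * u^25 * v^15 * z^5 * w^3 - 202906010880 * u^20 * v^20 * z^5 * w^3 + 99534883968 * u^15 * v^25 * z^5 * w^3 - 17680897728 * u^10 * v^30 * z^5 * w^3 + 1357969536 * u^5 * v^35 * z^5 * w^3 - 38211264 * v^40 * z^5 * w^3
      + 126181152 * u^40 * z^6 * w^3 + 3240399168 * u^35 * v^5 * z^6 * w^3 + 24068267424 * u^30 * v^10 * z^6 * w^3 + 27483136704 * u^25 * v^15 * z^6 * w^3 - 135288869760 * u^20 * v^20 * z^6 * w^3 + 97261943616 * u^15 * v^25 * z^6 * w^3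
      - 22566270816 * u^10 * v^30 * z^6 * w^3 + 2083983552 * u^5 * v^35 * z^6 * w^3 - 66974688 * v^40 * z^6 * w^3 + 11757312 * u^40 * z^7 * w^3 + 324165888 * u^35 * v^5 * z^7 * w^3 + 2165025024 * u^30 * v^10 * z^7 * w^3
      - 6829318656 * u^25 * v^15 * z^7 * w^3 - 71064552960 * u^20 * v^20 * z^7 * w^3 + 72233565696 * u^15 * v^25 * z^7 * w^3 - 16025216256 * u^10 * v^30 * z^7 * w^3 + 1338653952 * u^5 * v^35 * z^7 * w^3 - 38631168 * v^40 * z^7 * w^3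
      + 5038848 * u^40 * z^8 * w^3 + 129330432 * u^35 * v^5 * z^8 * w^3 + 606341376 * u^30 * v^10 * z^8 * w^3 - 6540424704 * u^25 * v^15 * z^8 * w^3 - 44325066240 * u^20 * v^20 * z^8 * w^3 + 28341840384 * u^15 * v^25 * z^8 * w^3
      - 5457072384 * u^10 * v^30 * z^8 * w^3 + 424942848 * u^5 * v^35 * z^8 * w^3 - 11757312 * v^40 * z^8 * w^3 + 15116544 * u^40 * z^9 * w^3 + 488768256 * u^35 * v^5 * z^9 * w^3 + 5111071488 * u^30 * v^10 * z^9 * w^3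
      + 15549884928 * u^25 * v^15 * z^9 * w^3 - 17585579520 * u^20 * v^20 * z^9 * w^3 + 6251530752 * u^15 * v^25 * z^9 * w^3 - 952342272 * u^10 * v^30 * z^9 * w^3 + 65505024 * u^5 * v^35 * z^9 * w^3 - 1679616 * v^40 * z^9 * w^3) * hw

set_option maxRecDepth 100000 in
set_option maxHeartbeats 1600000 in
theorem dbl10_y (z w u v : R) (hz : 1 + z + z^2 + z^3 + z^4 = 0) (hw : 5 * w = 1) :
    Y20 z w u v * (2 * Y10 z w u v) = -((3 * X10 z w u v ^ 2 - 27 * kH u v) * (X20 z w u v - X10 z w u v) + Y10 z w u v * (2 * Y10 z w u v)) := by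
  simp only [X10, Y10, X20, Y20, X10n, Y10n, X20n, Y20n, kH]
  linear_combination (1259712 * u^30 * w^3 + 26407296 * u^25 * v^5 * w^3 + 121072320 * u^20 * v^10 * w^3 - 185224320 * u^15 * v^15 * w^3 + 18895680 * u^10 * v^20 * w^3 + 746496 * u^5 * v^25 * w^3
      - 93312 * v^30 * w^3 + 139968 * u^30 * z * w^3 + 1119744 * u^25 * v^5 * z * w^3 - 25427520 * u^20 * v^10 * z * w^3 - 213684480 * u^15 * v^15 * z * w^3 + 165395520 * u^10 * v^20 * z * w^3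
      - 24541056 * u^5 * v^25 * z * w^3 + 1026432 * v^30 * z * w^3 + 2426112 * u^30 * z^2 * w^3 + 52068096 * u^25 * v^5 * z^2 * w^3 + 261040320 * u^20 * v^10 * z^2 * w^3 - 185224320 * u^15 * v^15 * z^2 * w^3
      + 158863680 * u^10 * v^20 * z^2 * w^3 - 24914304 * u^5 * v^25 * z^2 * w^3 + 1073088 * v^30 * z^2 * w^3 + 559872 * u^30 * z^4 * w^3 + 18475776 * u^25 * v^5 * z^4 * w^3 + 201553920 * u^20 * v^10 * z^4 * w^3
      + 708238080 * u^15 * v^15 * z^4 * w^3 - 201553920 * u^10 * v^20 * z^4 * w^3 + 18475776 * u^5 * v^25 * z^4 * w^3 - 559872 * v^30 * z^4 * w^3 + 279936 * u^30 * z^5 * w^3 + 9237888 * u^25 * v^5 * z^5 * w^3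
      + 100776960 * u^20 * v^10 * z^5 * w^3 + 354119040 * u^15 * v^15 * z^5 * w^3 - 100776960 * u^10 * v^20 * z^5 * w^3 + 9237888 * u^5 * v^25 * z^5 * w^3 - 279936 * v^30 * z^5 * w^3) * hz
    + (972 * u^30 * w - 210924 * u^25 * v^5 * w - 1958580 * u^20 * v^10 * w + 5725080 * u^15 * v^15 * w + 1958580 * u^10 * v^20 * w - 210924 * u^5 * v^25 * w
      - 972 * v^30 * w + 1944 * u^30 * z^2 * w - 421848 * u^25 * v^5 * z^2 * w - 3917160 * u^20 * v^10 * z^2 * w + 11450160 * u^15 * v^15 * z^2 * w + 3917160 * u^10 * v^20 * z^2 * w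
      - 421848 * u^5 * v^25 * z^2 * w - 1944 * v^30 * z^2 * w + 1944 * u^30 * z^3 * w - 421848 * u^25 * v^5 * z^3 * w - 3917160 * u^20 * v^10 * z^3 * w + 11450160 * u^15 * v^15 * z^3 * w
      + 3917160 * u^10 * v^20 * z^3 * w - 421848 * u^5 * v^25 * z^3 * w - 1944 * v^30 * z^3 * w - 65124 * u^30 * w^2 - 2430972 * u^25 * v^5 * w^2 - 14575140 * u^20 * v^10 * w^2
      + 48570840 * u^15 * v^15 * w^2 + 578340 * u^10 * v^20 * w^2 + 135108 * u^5 * v^25 * w^2 - 51516 * v^30 * w^2 - 279936 * u^30 * z * w^2 - 5505408 * u^25 * v^5 * z * w^2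
      - 19128960 * u^20 * v^10 * z * w^2 + 79781760 * u^15 * v^15 * z * w^2 - 36858240 * u^10 * v^20 * z * w^2 + 4758912 * u^5 * v^25 * z * w^2 - 186624 * v^30 * z * w^2 - 246888 * u^30 * z^2 * w^2
      - 6728184 * u^25 * v^5 * z^2 * w^2 - 27983880 * u^20 * v^10 * z^2 * w^2 + 175290480 * u^15 * v^15 * z^2 * w^2 - 55996920 * u^10 * v^20 * z^2 * w^2 + 8668296 * u^5 * v^25 * z^2 * w^2 - 452952 * v^30 * z^2 * w^2
      - 246888 * u^30 * z^3 * w^2 - 6728184 * u^25 * v^5 * z^3 * w^2 - 27983880 * u^20 * v^10 * z^3 * w^2 + 175290480 * u^15 * v^15 * z^3 * w^2 - 55996920 * u^10 * v^20 * z^3 * w^2 + 8668296 * u^5 * v^25 * z^3 * w^2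
      - 452952 * v^30 * z^3 * w^2 - 559872 * u^30 * z^4 * w^2 - 11710656 * u^25 * v^5 * z^4 * w^2 - 53421120 * u^20 * v^10 * z^4 * w^2 + 81414720 * u^15 * v^15 * z^4 * w^2 - 30559680 * u^10 * v^20 * z^4 * w^2
      + 3685824 * u^5 * v^25 * z^4 * w^2 - 139968 * v^30 * z^4 * w^2 - 46656 * u^30 * z^5 * w^2 - 373248 * u^25 * v^5 * z^5 * w^2 + 8864640 * u^20 * v^10 * z^5 * w^2 + 79781760 * u^15 * v^15 * z^5 * w^2
      - 8864640 * u^10 * v^20 * z^5 * w^2 - 373248 * u^5 * v^25 * z^5 * w^2 + 46656 * v^30 * z^5 * w^2 - 279936 * u^30 * z^6 * w^2 - 6205248 * u^25 * v^5 * z^6 * w^2 - 34292160 * u^20 * v^10 * z^6 * w^2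
      + 1632960 * u^15 * v^15 * z^6 * w^2 + 6298560 * u^10 * v^20 * z^6 * w^2 - 1073088 * u^5 * v^25 * z^6 * w^2 + 46656 * v^30 * z^6 * w^2) * hw

set_option maxRecDepth 100000 in
set_option maxHeartbeats 1600000 in
theorem dbl20_x (z w u v : R) (hz : 1 + z + z^2 + z^3 + z^4 = 0) (hw : 5 * w = 1) :
    X10 z w u v * (2 * Y20 z w u v) ^ 2 = (3 * X20 z w u v ^ 2 - 27 * kH u v) ^ 2 - 2 * X20 z w u v * (2 * Y20 z w u v) ^ 2 := by
  simp only [X10, Y10, X20, Y20, X10n, Y10n, X20n, Y20n, kH]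
  linear_combination (-275457024 * u^40 * w^4 - 5821549056 * u^35 * v^5 * w^4 - 27349187328 * u^30 * v^10 * w^4 + 37601563392 * u^25 * v^15 * w^4 - 3535591680 * u^20 * v^20 * w^4 - 122422171392 * u^15 * v^25 * w^4
      - 63460931328 * u^10 * v^30 * w^4 + 14429581056 * u^5 * v^35 * w^4 - 695361024 * v^40 * w^4 - 497166336 * u^40 * z * w^4 - 11209757184 * u^35 * v^5 * z * w^4 - 65693140992 * u^30 * v^10 * z * w^4
      - 33268154112 * u^25 * v^15 * z * w^4 - 55586891520 * u^20 * v^20 * z * w^4 + 39398752512 * u^15 * v^25 * z * w^4 + 52005950208 * u^10 * v^30 * z * w^4 - 10163356416 * u^5 * v^35 * z * w^4 + 468612864 * v^40 * z * w^4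
      - 322486272 * u^40 * z^2 * w^4 - 7344960768 * u^35 * v^5 * z^2 * w^4 - 43122461184 * u^30 * v^10 * z^2 * w^4 - 4516487424 * u^25 * v^15 * z^2 * w^4 + 126911784960 * u^20 * v^20 * z^2 * w^4 + 137710036224 * u^15 * v^25 * z^2 * w^4
      - 139868342784 * u^10 * v^30 * z^2 * w^4 + 21495725568 * u^5 * v^35 * z^2 * w^4 - 910351872 * v^40 * z^2 * w^4 + 134369280 * u^40 * z^3 * w^4 + 4568555520 * u^35 * v^5 * z^3 * w^4 + 52840719360 * u^30 * v^10 * z^3 * w^4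
      + 219458626560 * u^25 * v^15 * z^3 * w^4 + 133697433600 * u^20 * v^20 * z^3 * w^4 - 1444469760 * u^15 * v^25 * z^3 * w^4 - 7793418240 * u^10 * v^30 * z^3 * w^4 + 974177280 * u^5 * v^35 * z^3 * w^4 - 33592320 * v^40 * z^3 * w^4
      + 287214336 * u^40 * z^4 * w^4 + 9446160384 * u^35 * v^5 * z^4 * w^4 + 102560712192 * u^30 * v^10 * z^4 * w^4 + 358987686912 * u^25 * v^15 * z^4 * w^4 - 65765364480 * u^20 * v^20 * z^4 * w^4 + 295054783488 * u^15 * v^25 * z^4 * w^4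
      - 79341700608 * u^10 * v^30 * z^4 * w^4 + 7182038016 * u^5 * v^35 * z^4 * w^4 - 216670464 * v^40 * z^4 * w^4 + 134369280 * u^40 * z^5 * w^4 + 4484574720 * u^35 * v^5 * z^5 * w^4 + 50237314560 * u^30 * v^10 * z^5 * w^4
      + 194768271360 * u^25 * v^15 * z^5 * w^4 + 87927897600 * u^20 * v^20 * z^5 * w^4 + 241260042240 * u^15 * v^25 * z^5 * w^4 - 71030960640 * u^10 * v^30 * z^5 * w^4 + 6600890880 * u^5 * v^35 * z^5 * w^4 - 201553920 * v^40 * z^5 * w^4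
      - 30233088 * u^40 * z^6 * w^4 - 1330255872 * u^35 * v^5 * z^6 * w^4 - 21828289536 * u^30 * v^10 * z^6 * w^4 - 156970192896 * u^25 * v^15 * z^6 * w^4 - 398925596160 * u^20 * v^20 * z^6 * w^4 + 156970192896 * u^15 * v^25 * z^6 * w^4
      - 21828289536 * u^10 * v^30 * z^6 * w^4 + 1330255872 * u^5 * v^35 * z^6 * w^4 - 30233088 * v^40 * z^6 * w^4 - 45349632 * u^40 * z^7 * w^4 - 1995383808 * u^35 * v^5 * z^7 * w^4 - 32742434304 * u^30 * v^10 * z^7 * w^4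
      - 235455289344 * u^25 * v^15 * z^7 * w^4 - 598388394240 * u^20 * v^20 * z^7 * w^4 + 235455289344 * u^15 * v^25 * z^7 * w^4 - 32742434304 * u^10 * v^30 * z^7 * w^4 + 1995383808 * u^5 * v^35 * z^7 * w^4 - 45349632 * v^40 * z^7 * w^4
      - 15116544 * u^40 * z^8 * w^4 - 665127936 * u^35 * v^5 * z^8 * w^4 - 10914144768 * u^30 * v^10 * z^8 * w^4 - 78485096448 * u^25 * v^15 * z^8 * w^4 - 199462798080 * u^20 * v^20 * z^8 * w^4 + 78485096448 * u^15 * v^25 * z^8 * w^4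
      - 10914144768 * u^10 * v^30 * z^8 * w^4 + 665127936 * u^5 * v^35 * z^8 * w^4 - 15116544 * v^40 * z^8 * w^4) * hz
    + (729 * u^40 - 332424 * u^35 * v^5 + 38616588 * u^30 * v^10 - 163885032 * u^25 * v^15 + 102111030 * u^20 * v^20 + 163885032 * u^15 * v^25
      + 38616588 * u^10 * v^30 + 332424 * u^5 * v^35 + 729 * v^40 + 3645 * u^40 * w - 1662120 * u^35 * v^5 * w + 193082940 * u^30 * v^10 * w
      - 819425160 * u^25 * v^15 * w + 510555150 * u^20 * v^20 * w + 819425160 * u^15 * v^25 * w + 193082940 * u^10 * v^30 * w + 1662120 * u^5 * v^35 * w + 3645 * v^40 * w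
      - 508113 * u^40 * w^2 + 115351128 * u^35 * v^5 * w^2 - 136384236 * u^30 * v^10 * w^2 - 565138296 * u^25 * v^15 * w^2 - 1961585910 * u^20 * v^20 * w^2 + 5527878696 * u^15 * v^25 * w^2
      + 1625462964 * u^10 * v^30 * w^2 - 305182728 * u^5 * v^35 * w^2 - 1382913 * v^40 * w^2 + 664848 * u^40 * z^2 * w^2 - 146581488 * u^35 * v^5 * z^2 * w^2 - 837428544 * u^30 * v^10 * z^2 * w^2
      + 8334149616 * u^25 * v^15 * z^2 * w^2 - 14448896640 * u^20 * v^20 * z^2 * w^2 + 1591331184 * u^15 * v^25 * z^2 * w^2 + 2686265856 * u^10 * v^30 * z^2 * w^2 - 233081712 * u^5 * v^35 * z^2 * w^2 - 1084752 * v^40 * z^2 * w^2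
      + 664848 * u^40 * z^3 * w^2 - 146581488 * u^35 * v^5 * z^3 * w^2 - 837428544 * u^30 * v^10 * z^3 * w^2 + 8334149616 * u^25 * v^15 * z^3 * w^2 - 14448896640 * u^20 * v^20 * z^3 * w^2 + 1591331184 * u^15 * v^25 * z^3 * w^2
      + 2686265856 * u^10 * v^30 * z^3 * w^2 - 233081712 * u^5 * v^35 * z^3 * w^2 - 1084752 * v^40 * z^3 * w^2 - 209952 * u^40 * z^4 * w^2 + 43250112 * u^35 * v^5 * z^4 * w^2 + 924418656 * u^30 * v^10 * z^4 * w^2
      + 3371409216 * u^25 * v^15 * z^4 * w^2 - 14448896640 * u^20 * v^20 * z^4 * w^2 - 3371409216 * u^15 * v^25 * z^4 * w^2 + 924418656 * u^10 * v^30 * z^4 * w^2 - 43250112 * u^5 * v^35 * z^4 * w^2 - 209952 * v^40 * z^4 * w^2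
      - 419904 * u^40 * z^5 * w^2 + 86500224 * u^35 * v^5 * z^5 * w^2 + 1848837312 * u^30 * v^10 * z^5 * w^2 + 6742818432 * u^25 * v^15 * z^5 * w^2 - 28897793280 * u^20 * v^20 * z^5 * w^2 - 6742818432 * u^15 * v^25 * z^5 * w^2
      + 1848837312 * u^10 * v^30 * z^5 * w^2 - 86500224 * u^5 * v^35 * z^5 * w^2 - 419904 * v^40 * z^5 * w^2 - 209952 * u^40 * z^6 * w^2 + 43250112 * u^35 * v^5 * z^6 * w^2 + 924418656 * u^30 * v^10 * z^6 * w^2
      + 3371409216 * u^25 * v^15 * z^6 * w^2 - 14448896640 * u^20 * v^20 * z^6 * w^2 - 3371409216 * u^15 * v^25 * z^6 * w^2 + 924418656 * u^10 * v^30 * z^6 * w^2 - 43250112 * u^5 * v^35 * z^6 * w^2 - 209952 * v^40 * z^6 * w^2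
      + 36090603 * u^40 * w^3 + 1428320952 * u^35 * v^5 * w^3 + 3970195236 * u^30 * v^10 * w^3 - 3042361944 * u^25 * v^15 * w^3 - 6851805390 * u^20 * v^20 * w^3 + 31790564424 * u^15 * v^25 * w^3
      + 8700063876 * u^10 * v^30 * w^3 - 1739224872 * u^5 * v^35 * w^3 + 4422843 * v^40 * w^3 + 154524672 * u^40 * z * w^3 + 3406261248 * u^35 * v^5 * z * w^3 + 18608465664 * u^30 * v^10 * z * w^3
      - 866681856 * u^25 * v^15 * z * w^3 + 11824496640 * u^20 * v^20 * z * w^3 + 16604683776 * u^15 * v^25 * z * w^3 + 2290996224 * u^10 * v^30 * z * w^3 - 853244928 * u^5 * v^35 * z * w^3 + 45349632 * v^40 * z * w^3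
      + 267023952 * u^40 * z^2 * w^3 + 4903044048 * u^35 * v^5 * z^2 * w^3 + 23655011904 * u^30 * v^10 * z^2 * w^3 + 18591144624 * u^25 * v^15 * z^2 * w^3 - 52399820160 * u^20 * v^20 * z^2 * w^3 + 26778432816 * u^15 * v^25 * z^2 * w^3
      + 12606637824 * u^10 * v^30 * z^2 * w^3 - 1527365808 * u^5 * v^35 * z^2 * w^3 + 18930672 * v^40 * z^2 * w^3 + 240150096 * u^40 * z^3 * w^3 + 3989332944 * u^35 * v^5 * z^3 * w^3 + 13086868032 * u^30 * v^10 * z^3 * w^3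
      - 25300580688 * u^25 * v^15 * z^3 * w^3 - 79139306880 * u^20 * v^20 * z^3 * w^3 + 27067326768 * u^15 * v^25 * z^3 * w^3 + 14165321472 * u^10 * v^30 * z^3 * w^3 - 1722201264 * u^5 * v^35 * z^3 * w^3 + 25649136 * v^40 * z^3 * w^3
      + 89229600 * u^40 * z^4 * w^3 + 1387782720 * u^35 * v^5 * z^4 * w^3 - 3005462880 * u^30 * v^10 * z^4 * w^3 - 91877094720 * u^25 * v^15 * z^4 * w^3 - 105878793600 * u^20 * v^20 * z^4 * w^3 + 4671432000 * u^15 * v^25 * z^4 * w^3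
      + 21248192160 * u^10 * v^30 * z^4 * w^3 - 3604875840 * u^5 * v^35 * z^4 * w^3 + 156414240 * v^40 * z^4 * w^3 - 38211264 * u^40 * z^5 * w^3 - 1357969536 * u^35 * v^5 * z^5 * w^3 - 17680897728 * u^30 * v^10 * z^5 * w^3
      - 99534883968 * u^25 * v^15 * z^5 * w^3 - 202906010880 * u^20 * v^20 * z^5 * w^3 + 6265807488 * u^15 * v^25 * z^5 * w^3 - 3681298368 * u^10 * v^30 * z^5 * w^3 + 1139619456 * u^5 * v^35 * z^5 * w^3 - 63405504 * v^40 * z^5 * w^3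
      - 66974688 * u^40 * z^6 * w^3 - 2083983552 * u^35 * v^5 * z^6 * w^3 - 22566270816 * u^30 * v^10 * z^6 * w^3 - 97261943616 * u^25 * v^15 * z^6 * w^3 - 135288869760 * u^20 * v^20 * z^6 * w^3 - 27483136704 * u^15 * v^25 * z^6 * w^3
      + 24068267424 * u^10 * v^30 * z^6 * w^3 - 3240399168 * u^5 * v^35 * z^6 * w^3 + 126181152 * v^40 * z^6 * w^3 - 38631168 * u^40 * z^7 * w^3 - 1338653952 * u^35 * v^5 * z^7 * w^3 - 16025216256 * u^30 * v^10 * z^7 * w^3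
      - 72233565696 * u^25 * v^15 * z^7 * w^3 - 71064552960 * u^20 * v^20 * z^7 * w^3 + 6829318656 * u^15 * v^25 * z^7 * w^3 + 2165025024 * u^10 * v^30 * z^7 * w^3 - 324165888 * u^5 * v^35 * z^7 * w^3 + 11757312 * v^40 * z^7 * w^3
      - 11757312 * u^40 * z^8 * w^3 - 424942848 * u^35 * v^5 * z^8 * w^3 - 5457072384 * u^30 * v^10 * z^8 * w^3 - 28341840384 * u^25 * v^15 * z^8 * w^3 - 44325066240 * u^20 * v^20 * z^8 * w^3 + 6540424704 * u^15 * v^25 * z^8 * w^3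
      + 606341376 * u^10 * v^30 * z^8 * w^3 - 129330432 * u^5 * v^35 * z^8 * w^3 + 5038848 * v^40 * z^8 * w^3 - 1679616 * u^40 * z^9 * w^3 - 65505024 * u^35 * v^5 * z^9 * w^3 - 952342272 * u^30 * v^10 * z^9 * w^3
      - 6251530752 * u^25 * v^15 * z^9 * w^3 - 17585579520 * u^20 * v^20 * z^9 * w^3 - 15549884928 * u^15 * v^25 * z^9 * w^3 + 5111071488 * u^10 * v^30 * z^9 * w^3 - 488768256 * u^5 * v^35 * z^9 * w^3 + 15116544 * v^40 * z^9 * w^3) * hw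

set_option maxRecDepth 100000 in
set_option maxHeartbeats 1600000 in
theorem dbl20_y (z w u v : R) (hz : 1 + z + z^2 + z^3 + z^4 = 0) (hw : 5 * w = 1) :
    (-Y10 z w u v) * (2 * Y20 z w u v) = -((3 * X20 z w u v ^ 2 - 27 * kH u v) * (X10 z w u v - X20 z w u v) + Y20 z w u v * (2 * Y20 z w u v)) := by
  simp only [X10, Y10, X20, Y20, X10n, Y10n, X20n, Y20n, kH]
  linear_combination (-93312 * u^30 * w^3 - 746496 * u^25 * v^5 * w^3 + 18895680 * u^20 * v^10 * w^3 + 185224320 * u^15 * v^15 * w^3 + 121072320 * u^10 * v^20 * w^3 - 26407296 * u^5 * v^25 * w^3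
      + 1259712 * v^30 * w^3 + 1026432 * u^30 * z * w^3 + 24541056 * u^25 * v^5 * z * w^3 + 165395520 * u^20 * v^10 * z * w^3 + 213684480 * u^15 * v^15 * z * w^3 - 25427520 * u^10 * v^20 * z * w^3
      - 1119744 * u^5 * v^25 * z * w^3 + 139968 * v^30 * z * w^3 + 1073088 * u^30 * z^2 * w^3 + 24914304 * u^25 * v^5 * z^2 * w^3 + 158863680 * u^20 * v^10 * z^2 * w^3 + 185224320 * u^15 * v^15 * z^2 * w^3
      + 261040320 * u^10 * v^20 * z^2 * w^3 - 52068096 * u^5 * v^25 * z^2 * w^3 + 2426112 * v^30 * z^2 * w^3 - 559872 * u^30 * z^4 * w^3 - 18475776 * u^25 * v^5 * z^4 * w^3 - 201553920 * u^20 * v^10 * z^4 * w^3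
      - 708238080 * u^15 * v^15 * z^4 * w^3 + 201553920 * u^10 * v^20 * z^4 * w^3 - 18475776 * u^5 * v^25 * z^4 * w^3 + 559872 * v^30 * z^4 * w^3 - 279936 * u^30 * z^5 * w^3 - 9237888 * u^25 * v^5 * z^5 * w^3
      - 100776960 * u^20 * v^10 * z^5 * w^3 - 354119040 * u^15 * v^15 * z^5 * w^3 + 100776960 * u^10 * v^20 * z^5 * w^3 - 9237888 * u^5 * v^25 * z^5 * w^3 + 279936 * v^30 * z^5 * w^3) * hz
    + (-972 * u^30 * w + 210924 * u^25 * v^5 * w + 1958580 * u^20 * v^10 * w - 5725080 * u^15 * v^15 * w - 1958580 * u^10 * v^20 * w + 210924 * u^5 * v^25 * w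
      + 972 * v^30 * w - 1944 * u^30 * z^2 * w + 421848 * u^25 * v^5 * z^2 * w + 3917160 * u^20 * v^10 * z^2 * w - 11450160 * u^15 * v^15 * z^2 * w - 3917160 * u^10 * v^20 * z^2 * w
      + 421848 * u^5 * v^25 * z^2 * w + 1944 * v^30 * z^2 * w - 1944 * u^30 * z^3 * w + 421848 * u^25 * v^5 * z^3 * w + 3917160 * u^20 * v^10 * z^3 * w - 11450160 * u^15 * v^15 * z^3 * w
      - 3917160 * u^10 * v^20 * z^3 * w + 421848 * u^5 * v^25 * z^3 * w + 1944 * v^30 * z^3 * w - 51516 * u^30 * w^2 - 135108 * u^25 * v^5 * w^2 + 578340 * u^20 * v^10 * w^2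
      - 48570840 * u^15 * v^15 * w^2 - 14575140 * u^10 * v^20 * w^2 + 2430972 * u^5 * v^25 * w^2 - 65124 * v^30 * w^2 - 186624 * u^30 * z * w^2 - 4758912 * u^25 * v^5 * z * w^2
      - 36858240 * u^20 * v^10 * z * w^2 - 79781760 * u^15 * v^15 * z * w^2 - 19128960 * u^10 * v^20 * z * w^2 + 5505408 * u^5 * v^25 * z * w^2 - 279936 * v^30 * z * w^2 - 452952 * u^30 * z^2 * w^2
      - 8668296 * u^25 * v^5 * z^2 * w^2 - 55996920 * u^20 * v^10 * z^2 * w^2 - 175290480 * u^15 * v^15 * z^2 * w^2 - 27983880 * u^10 * v^20 * z^2 * w^2 + 6728184 * u^5 * v^25 * z^2 * w^2 - 246888 * v^30 * z^2 * w^2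
      - 452952 * u^30 * z^3 * w^2 - 8668296 * u^25 * v^5 * z^3 * w^2 - 55996920 * u^20 * v^10 * z^3 * w^2 - 175290480 * u^15 * v^15 * z^3 * w^2 - 27983880 * u^10 * v^20 * z^3 * w^2 + 6728184 * u^5 * v^25 * z^3 * w^2
      - 246888 * v^30 * z^3 * w^2 - 139968 * u^30 * z^4 * w^2 - 3685824 * u^25 * v^5 * z^4 * w^2 - 30559680 * u^20 * v^10 * z^4 * w^2 - 81414720 * u^15 * v^15 * z^4 * w^2 - 53421120 * u^10 * v^20 * z^4 * w^2
      + 11710656 * u^5 * v^25 * z^4 * w^2 - 559872 * v^30 * z^4 * w^2 + 46656 * u^30 * z^5 * w^2 + 373248 * u^25 * v^5 * z^5 * w^2 - 8864640 * u^20 * v^10 * z^5 * w^2 - 79781760 * u^15 * v^15 * z^5 * w^2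
      + 8864640 * u^10 * v^20 * z^5 * w^2 + 373248 * u^5 * v^25 * z^5 * w^2 - 46656 * v^30 * z^5 * w^2 + 46656 * u^30 * z^6 * w^2 + 1073088 * u^25 * v^5 * z^6 * w^2 + 6298560 * u^20 * v^10 * z^6 * w^2
      - 1632960 * u^15 * v^15 * z^6 * w^2 - 34292160 * u^10 * v^20 * z^6 * w^2 + 6205248 * u^5 * v^25 * z^6 * w^2 - 279936 * v^30 * z^6 * w^2) * hw

set_option maxRecDepth 100000 in
set_option maxHeartbeats 1600000 in
theorem add_x (z w u v : R) (hz : 1 + z + z^2 + z^3 + z^4 = 0) (hw : 5 * w = 1) :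
    X1 (z * u) v * (X1 u v - X10 z w u v) ^ 2 =
      (Y1 u v - Y10 z w u v) ^ 2 - (X1 u v + X10 z w u v) * (X1 u v - X10 z w u v) ^ 2 := by
  simp only [X1, Y1, X10, Y10, X10n, Y10n]
  linear_combination (-968112 * u^30 * w^3 - 1516320 * u^28 * v^2 * w^3 + 349920 * u^27 * v^3 * w^3 - 1185840 * u^26 * v^4 * w^3 - 20886336 * u^25 * v^5 * w^3 + 7484400 * u^24 * v^6 * w^3
      - 41796000 * u^23 * v^7 * w^3 + 41018400 * u^22 * v^8 * w^3 - 80870400 * u^21 * v^9 * w^3 + 19945440 * u^20 * v^10 * w^3 - 63763200 * u^19 * v^11 * w^3 + 74358000 * u^18 * v^12 * w^3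
      - 27799200 * u^17 * v^13 * w^3 + 115765200 * u^16 * v^14 * w^3 + 226787040 * u^15 * v^15 * w^3 + 516909600 * u^14 * v^16 * w^3 + 524685600 * u^13 * v^17 * w^3 + 644922000 * u^12 * v^18 * w^3
      + 715197600 * u^11 * v^19 * w^3 + 629544960 * u^10 * v^20 * w^3 + 470059200 * u^9 * v^21 * w^3 + 324259200 * u^8 * v^22 * w^3 + 189540000 * u^7 * v^23 * w^3 + 85147200 * u^6 * v^24 * w^3
      + 32145984 * u^5 * v^25 * w^3 + 6998400 * u^4 * v^26 * w^3 - 466560 * u^3 * v^27 * w^3 - 1866240 * u^2 * v^28 * w^3 - 933120 * u * v^29 * w^3 - 373248 * v^30 * w^3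
      + 734832 * u^30 * z * w^3 + 349920 * u^28 * v^2 * z * w^3 - 1516320 * u^27 * v^3 * z * w^3 - 3479760 * u^26 * v^4 * z * w^3 + 16687296 * u^25 * v^5 * z * w^3 - 13316400 * u^24 * v^6 * z * w^3
      + 24300000 * u^23 * v^7 * z * w^3 - 76010400 * u^22 * v^8 * z * w^3 + 7153920 * u^21 * v^9 * z * w^3 - 57270240 * u^20 * v^10 * z * w^3 + 777600 * u^19 * v^11 * z * w^3 - 128012400 * u^18 * v^12 * z * w^3
      - 150660000 * u^17 * v^13 * z * w^3 - 300522960 * u^16 * v^14 * z * w^3 - 329430240 * u^15 * v^15 * z * w^3 - 500580000 * u^14 * v^16 * z * w^3 - 406879200 * u^13 * v^17 * z * w^3 - 58222800 * u^12 * v^18 * z * w^3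
      + 226320480 * u^11 * v^19 * z * w^3 + 177603840 * u^10 * v^20 * z * w^3 + 232113600 * u^9 * v^21 * z * w^3 + 180792000 * u^8 * v^22 * z * w^3 + 89229600 * u^7 * v^23 * z * w^3 + 19128960 * u^6 * v^24 * z * w^3
      + 12643776 * u^5 * v^25 * z * w^3 - 4665600 * u^4 * v^26 * z * w^3 - 5365440 * u^3 * v^27 * z * w^3 - 2799360 * u^2 * v^28 * z * w^3 - 466560 * u * v^29 * z * w^3 - 559872 * v^30 * z * w^3
      - 909792 * u^30 * z^2 * w^3 + 738720 * u^28 * v^2 * z^2 * w^3 + 2760480 * u^27 * v^3 * z^2 * w^3 + 6143040 * u^26 * v^4 * z^2 * w^3 - 17659296 * u^25 * v^5 * z^2 * w^3 + 9525600 * u^24 * v^6 * z^2 * w^3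
      + 13608000 * u^23 * v^7 * z^2 * w^3 + 81764640 * u^22 * v^8 * z^2 * w^3 + 114734880 * u^21 * v^9 * z^2 * w^3 - 8592480 * u^20 * v^10 * z^2 * w^3 + 135108000 * u^19 * v^11 * z^2 * w^3 + 164073600 * u^18 * v^12 * z^2 * w^3
      + 564965280 * u^17 * v^13 * z^2 * w^3 + 671729760 * u^16 * v^14 * z^2 * w^3 + 690120000 * u^15 * v^15 * z^2 * w^3 + 623829600 * u^14 * v^16 * z^2 * w^3 + 710920800 * u^13 * v^17 * z^2 * w^3 + 704194560 * u^12 * v^18 * z^2 * w^3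
      + 536505120 * u^11 * v^19 * z^2 * w^3 + 293777280 * u^10 * v^20 * z^2 * w^3 + 205286400 * u^9 * v^21 * z^2 * w^3 + 87480000 * u^8 * v^22 * z^2 * w^3 + 7931520 * u^7 * v^23 * z^2 * w^3 - 13296960 * u^6 * v^24 * z^2 * w^3
      - 2846016 * u^5 * v^25 * z^2 * w^3 - 8164800 * u^4 * v^26 * z^2 * w^3 - 4199040 * u^3 * v^27 * z^2 * w^3 - 933120 * u^2 * v^28 * z^2 * w^3 - 373248 * v^30 * z^2 * w^3 - 2332800 * u^28 * v^2 * z^3 * w^3
      - 2332800 * u^27 * v^3 * z^3 * w^3 - 9331200 * u^26 * v^4 * z^3 * w^3 - 11664000 * u^24 * v^6 * z^3 * w^3 - 34525440 * u^23 * v^7 * z^3 * w^3 - 80015040 * u^22 * v^8 * z^3 * w^3 - 152565120 * u^21 * v^9 * z^3 * w^3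
      - 93312000 * u^20 * v^10 * z^3 * w^3 - 93312000 * u^19 * v^11 * z^3 * w^3 - 193855680 * u^18 * v^12 * z^3 * w^3 - 413138880 * u^17 * v^13 * z^3 * w^3 - 807848640 * u^16 * v^14 * z^3 * w^3 - 577368000 * u^15 * v^15 * z^3 * w^3
      - 326592000 * u^14 * v^16 * z^3 * w^3 + 90512640 * u^13 * v^17 * z^3 * w^3 + 165162240 * u^12 * v^18 * z^3 * w^3 + 163062720 * u^11 * v^19 * z^3 * w^3 + 75816000 * u^10 * v^20 * z^3 * w^3 + 29160000 * u^9 * v^21 * z^3 * w^3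
      - 39424320 * u^8 * v^22 * z^3 * w^3 - 41757120 * u^7 * v^23 * z^3 * w^3 - 26127360 * u^6 * v^24 * z^3 * w^3 - 11664000 * u^5 * v^25 * z^3 * w^3 - 5832000 * u^4 * v^26 * z^3 * w^3 - 699840 * u^3 * v^27 * z^3 * w^3
      + 466560 * u^2 * v^28 * z^3 * w^3 + 233280 * u * v^29 * z^3 * w^3 + 3888 * u^30 * z^4 * w^3 + 2527200 * u^28 * v^2 * z^4 * w^3 + 972000 * u^27 * v^3 * z^4 * w^3 + 7387200 * u^26 * v^4 * z^4 * w^3
      - 3273696 * u^25 * v^5 * z^4 * w^3 + 17301600 * u^24 * v^6 * z^4 * w^3 + 32581440 * u^23 * v^7 * z^4 * w^3 + 75699360 * u^22 * v^8 * z^4 * w^3 + 67456800 * u^21 * v^9 * z^4 * w^3 + 104723280 * u^20 * v^10 * z^4 * w^3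
      + 60847200 * u^19 * v^11 * z^4 * w^3 + 368038080 * u^18 * v^12 * z^4 * w^3 + 294671520 * u^17 * v^13 * z^4 * w^3 + 575618400 * u^16 * v^14 * z^4 * w^3 + 395176320 * u^15 * v^15 * z^4 * w^3 + 455090400 * u^14 * v^16 * z^4 * w^3
      + 430284960 * u^13 * v^17 * z^4 * w^3 + 277914240 * u^12 * v^18 * z^4 * w^3 + 77954400 * u^11 * v^19 * z^4 * w^3 + 59155920 * u^10 * v^20 * z^4 * w^3 - 3499200 * u^9 * v^21 * z^4 * w^3 - 34058880 * u^8 * v^22 * z^4 * w^3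
      - 23094720 * u^7 * v^23 * z^4 * w^3 - 5832000 * u^6 * v^24 * z^4 * w^3 - 5995296 * u^5 * v^25 * z^4 * w^3 - 1166400 * u^4 * v^26 * z^4 * w^3 + 699840 * u^3 * v^27 * z^4 * w^3 + 466560 * u^2 * v^28 * z^4 * w^3
      + 93312 * v^30 * z^4 * w^3 - 241056 * u^30 * z^5 * w^3 - 1749600 * u^28 * v^2 * z^5 * w^3 + 583200 * u^27 * v^3 * z^5 * w^3 - 1652400 * u^26 * v^4 * z^5 * w^3 - 1345248 * u^25 * v^5 * z^5 * w^3
      - 4179600 * u^24 * v^6 * z^5 * w^3 - 25932960 * u^23 * v^7 * z^5 * w^3 - 6804000 * u^22 * v^8 * z^5 * w^3 - 972000 * u^21 * v^9 * z^5 * w^3 - 2896560 * u^20 * v^10 * z^5 * w^3 + 14968800 * u^19 * v^11 * z^5 * w^3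
      - 116698320 * u^18 * v^12 * z^5 * w^3 - 44128800 * u^17 * v^13 * z^5 * w^3 + 35283600 * u^16 * v^14 * z^5 * w^3 + 62868960 * u^15 * v^15 * z^5 * w^3 + 260301600 * u^14 * v^16 * z^5 * w^3 + 180480960 * u^13 * v^17 * z^5 * w^3
      + 52390800 * u^12 * v^18 * z^5 * w^3 + 20606400 * u^11 * v^19 * z^5 * w^3 + 10866960 * u^10 * v^20 * z^5 * w^3 - 37324800 * u^9 * v^21 * z^5 * w^3 - 23561280 * u^8 * v^22 * z^5 * w^3 - 4665600 * u^7 * v^23 * z^5 * w^3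
      - 2332800 * u^6 * v^24 * z^5 * w^3 - 2122848 * u^5 * v^25 * z^5 * w^3 + 1166400 * u^4 * v^26 * z^5 * w^3 + 699840 * u^3 * v^27 * z^5 * w^3 + 46656 * v^30 * z^5 * w^3 + 194400 * u^30 * z^6 * w^3
      + 583200 * u^28 * v^2 * z^6 * w^3 - 1749600 * u^27 * v^3 * z^6 * w^3 + 1185840 * u^26 * v^4 * z^6 * w^3 - 194400 * u^25 * v^5 * z^6 * w^3 + 8845200 * u^24 * v^6 * z^6 * w^3 - 1360800 * u^23 * v^7 * z^6 * w^3
      - 14191200 * u^22 * v^8 * z^6 * w^3 - 16290720 * u^21 * v^9 * z^6 * w^3 - 2235600 * u^20 * v^10 * z^6 * w^3 + 69012000 * u^19 * v^11 * z^6 * w^3 - 27702000 * u^18 * v^12 * z^6 * w^3 - 41018400 * u^17 * v^13 * z^6 * w^3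
      - 165453840 * u^16 * v^14 * z^6 * w^3 + 6415200 * u^15 * v^15 * z^6 * w^3 + 91951200 * u^14 * v^16 * z^6 * w^3 - 17884800 * u^13 * v^17 * z^6 * w^3 - 5734800 * u^12 * v^18 * z^6 * w^3 + 22317120 * u^11 * v^19 * z^6 * w^3
      - 5734800 * u^10 * v^20 * z^6 * w^3 - 20995200 * u^9 * v^21 * z^6 * w^3 + 2332800 * u^8 * v^22 * z^6 * w^3 + 1166400 * u^7 * v^23 * z^6 * w^3 - 466560 * u^6 * v^24 * z^6 * w^3 + 583200 * u^5 * v^25 * z^6 * w^3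
      + 1166400 * u^4 * v^26 * z^6 * w^3 - 97200 * u^30 * z^7 * w^3 + 972000 * u^28 * v^2 * z^7 * w^3 + 427680 * u^27 * v^3 * z^7 * w^3 + 2410560 * u^26 * v^4 * z^7 * w^3 - 3304800 * u^25 * v^5 * z^7 * w^3
      + 3693600 * u^24 * v^6 * z^7 * w^3 + 15940800 * u^23 * v^7 * z^7 * w^3 + 18545760 * u^22 * v^8 * z^7 * w^3 + 38452320 * u^21 * v^9 * z^7 * w^3 - 13510800 * u^20 * v^10 * z^7 * w^3 + 42962400 * u^19 * v^11 * z^7 * w^3
      + 57931200 * u^18 * v^12 * z^7 * w^3 + 151593120 * u^17 * v^13 * z^7 * w^3 + 128420640 * u^16 * v^14 * z^7 * w^3 + 122472000 * u^15 * v^15 * z^7 * w^3 + 21967200 * u^14 * v^16 * z^7 * w^3 + 7581600 * u^13 * v^17 * z^7 * w^3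
      - 16407360 * u^12 * v^18 * z^7 * w^3 - 17068320 * u^11 * v^19 * z^7 * w^3 - 17398800 * u^10 * v^20 * z^7 * w^3 - 2332800 * u^9 * v^21 * z^7 * w^3 - 1166400 * u^8 * v^22 * z^7 * w^3 + 233280 * u^7 * v^23 * z^7 * w^3
      + 466560 * u^6 * v^24 * z^7 * w^3 + 583200 * u^5 * v^25 * z^7 * w^3 - 233280 * u^28 * v^2 * z^8 * w^3 - 233280 * u^27 * v^3 * z^8 * w^3 + 466560 * u^26 * v^4 * z^8 * w^3 - 5132160 * u^23 * v^7 * z^8 * w^3
      - 5132160 * u^22 * v^8 * z^8 * w^3 + 10264320 * u^21 * v^9 * z^8 * w^3 - 27760320 * u^18 * v^12 * z^8 * w^3 - 27760320 * u^17 * v^13 * z^8 * w^3 + 55520640 * u^16 * v^14 * z^8 * w^3 + 5132160 * u^13 * v^17 * z^8 * w^3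
      + 5132160 * u^12 * v^18 * z^8 * w^3 - 10264320 * u^11 * v^19 * z^8 * w^3 - 233280 * u^8 * v^22 * z^8 * w^3 - 233280 * u^7 * v^23 * z^8 * w^3 + 466560 * u^6 * v^24 * z^8 * w^3 + 97200 * u^30 * z^9 * w^3
      + 427680 * u^28 * v^2 * z^9 * w^3 - 427680 * u^27 * v^3 * z^9 * w^3 + 388800 * u^26 * v^4 * z^9 * w^3 + 1555200 * u^25 * v^5 * z^9 * w^3 + 972000 * u^24 * v^6 * z^9 * w^3 + 7853760 * u^23 * v^7 * z^9 * w^3
      - 6881760 * u^22 * v^8 * z^9 * w^3 + 4471200 * u^21 * v^9 * z^9 * w^3 + 5346000 * u^20 * v^10 * z^9 * w^3 + 10692000 * u^19 * v^11 * z^9 * w^3 + 33981120 * u^18 * v^12 * z^9 * w^3 - 23289120 * u^17 * v^13 * z^9 * w^3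
      + 1749600 * u^16 * v^14 * z^9 * w^3 + 583200 * u^15 * v^15 * z^9 * w^3 - 972000 * u^14 * v^16 * z^9 * w^3 - 5715360 * u^13 * v^17 * z^9 * w^3 + 4743360 * u^12 * v^18 * z^9 * w^3 - 194400 * u^11 * v^19 * z^9 * w^3
      - 97200 * u^10 * v^20 * z^9 * w^3 + 233280 * u^8 * v^22 * z^9 * w^3 - 233280 * u^7 * v^23 * z^9 * w^3 - 19440 * u^30 * z^10 * w^3 + 233280 * u^28 * v^2 * z^10 * w^3 - 427680 * u^25 * v^5 * z^10 * w^3
      + 5132160 * u^23 * v^7 * z^10 * w^3 - 2313360 * u^20 * v^10 * z^10 * w^3 + 27760320 * u^18 * v^12 * z^10 * w^3 + 427680 * u^15 * v^15 * z^10 * w^3 - 5132160 * u^13 * v^17 * z^10 * w^3 - 19440 * u^10 * v^20 * z^10 * w^3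
      + 233280 * u^8 * v^22 * z^10 * w^3 + 19440 * u^30 * z^11 * w^3 + 427680 * u^25 * v^5 * z^11 * w^3 + 2313360 * u^20 * v^10 * z^11 * w^3 - 427680 * u^15 * v^15 * z^11 * w^3 + 19440 * u^10 * v^20 * z^11 * w^3
      + 19440 * u^30 * z^12 * w^3 + 427680 * u^25 * v^5 * z^12 * w^3 + 2313360 * u^20 * v^10 * z^12 * w^3 - 427680 * u^15 * v^15 * z^12 * w^3 + 19440 * u^10 * v^20 * z^12 * w^3) * hz
    + (-27 * u^30 - 972 * u^28 * v^2 + 972 * u^27 * v^3 - 1944 * u^26 * v^4 + 44226 * u^25 * v^5 - 4860 * u^24 * v^6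
      + 218700 * u^23 * v^7 - 223560 * u^22 * v^8 + 442260 * u^21 * v^9 - 26352 * u^20 * v^10 + 1108080 * u^19 * v^11 + 184032 * u^18 * v^12
      + 924048 * u^17 * v^13 - 743904 * u^16 * v^14 - 1194264 * u^15 * v^15 - 2423520 * u^14 * v^16 - 1667952 * u^13 * v^17 - 775008 * u^12 * v^18
      - 947376 * u^11 * v^19 - 1228743 * u^10 * v^20 - 1244160 * u^9 * v^21 - 845316 * u^8 * v^22 - 612684 * u^7 * v^23 - 357048 * u^6 * v^24
      - 136242 * u^5 * v^25 - 46980 * u^4 * v^26 - 20412 * u^3 * v^27 - 7128 * u^2 * v^28 - 1620 * u * v^29 - 54 * v^30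
      - 324 * u^21 * v^9 * z - 7776 * u^19 * v^11 * z + 7776 * u^18 * v^12 * z - 62208 * u^17 * v^13 * z + 73872 * u^16 * v^14 * z - 272160 * u^15 * v^15 * z
      - 69984 * u^14 * v^16 * z - 435456 * u^13 * v^17 * z - 287712 * u^12 * v^18 * z - 1132056 * u^11 * v^19 * z - 1632960 * u^10 * v^20 * z - 2153952 * u^9 * v^21 * z
      - 2045088 * u^8 * v^22 * z - 1601856 * u^7 * v^23 * z - 1045872 * u^6 * v^24 * z - 505440 * u^5 * v^25 * z - 209952 * u^4 * v^26 * z - 62208 * u^3 * v^27 * z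
      - 7776 * u^2 * v^28 * z - 324 * u * v^29 * z - 648 * u^22 * v^8 * z^2 - 15552 * u^20 * v^10 * z^2 + 15552 * u^19 * v^11 * z^2 - 124416 * u^18 * v^12 * z^2
      + 147744 * u^17 * v^13 * z^2 - 544320 * u^16 * v^14 * z^2 - 139968 * u^15 * v^15 * z^2 - 870912 * u^14 * v^16 * z^2 - 575424 * u^13 * v^17 * z^2 - 2264112 * u^12 * v^18 * z^2
      - 3265920 * u^11 * v^19 * z^2 - 4307904 * u^10 * v^20 * z^2 - 4090176 * u^9 * v^21 * z^2 - 3203712 * u^8 * v^22 * z^2 - 2091744 * u^7 * v^23 * z^2 - 1010880 * u^6 * v^24 * z^2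
      - 419904 * u^5 * v^25 * z^2 - 124416 * u^4 * v^26 * z^2 - 15552 * u^3 * v^27 * z^2 - 648 * u^2 * v^28 * z^2 - 972 * u^23 * v^7 * z^3 - 23328 * u^21 * v^9 * z^3
      + 23328 * u^20 * v^10 * z^3 - 186624 * u^19 * v^11 * z^3 + 221616 * u^18 * v^12 * z^3 - 816480 * u^17 * v^13 * z^3 - 209952 * u^16 * v^14 * z^3 - 1306368 * u^15 * v^15 * z^3
      - 863136 * u^14 * v^16 * z^3 - 3396168 * u^13 * v^17 * z^3 - 4898880 * u^12 * v^18 * z^3 - 6461856 * u^11 * v^19 * z^3 - 6135264 * u^10 * v^20 * z^3 - 4805568 * u^9 * v^21 * z^3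
      - 3137616 * u^8 * v^22 * z^3 - 1516320 * u^7 * v^23 * z^3 - 629856 * u^6 * v^24 * z^3 - 186624 * u^5 * v^25 * z^3 - 23328 * u^4 * v^26 * z^3 - 972 * u^3 * v^27 * z^3
      - 1620 * u^24 * v^6 * z^4 - 38880 * u^22 * v^8 * z^4 + 38880 * u^21 * v^9 * z^4 - 311040 * u^20 * v^10 * z^4 + 369360 * u^19 * v^11 * z^4 - 1360800 * u^18 * v^12 * z^4
      - 349920 * u^17 * v^13 * z^4 - 2177280 * u^16 * v^14 * z^4 - 1438560 * u^15 * v^15 * z^4 - 5660280 * u^14 * v^16 * z^4 - 8164800 * u^13 * v^17 * z^4 - 10769760 * u^12 * v^18 * z^4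
      - 10225440 * u^11 * v^19 * z^4 - 8009280 * u^10 * v^20 * z^4 - 5229360 * u^9 * v^21 * z^4 - 2527200 * u^8 * v^22 * z^4 - 1049760 * u^7 * v^23 * z^4 - 311040 * u^6 * v^24 * z^4
      - 38880 * u^5 * v^25 * z^4 - 1620 * u^4 * v^26 * z^4 - 810 * u^25 * v^5 * z^5 - 19440 * u^23 * v^7 * z^5 + 19440 * u^22 * v^8 * z^5 - 155520 * u^21 * v^9 * z^5
      + 184680 * u^20 * v^10 * z^5 - 680400 * u^19 * v^11 * z^5 - 174960 * u^18 * v^12 * z^5 - 1088640 * u^17 * v^13 * z^5 - 719280 * u^16 * v^14 * z^5 - 2830140 * u^15 * v^15 * z^5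
      - 4082400 * u^14 * v^16 * z^5 - 5384880 * u^13 * v^17 * z^5 - 5112720 * u^12 * v^18 * z^5 - 4004640 * u^11 * v^19 * z^5 - 2614680 * u^10 * v^20 * z^5 - 1263600 * u^9 * v^21 * z^5
      - 524880 * u^8 * v^22 * z^5 - 155520 * u^7 * v^23 * z^5 - 19440 * u^6 * v^24 * z^5 - 810 * u^5 * v^25 * z^5 - 648 * u^26 * v^4 * z^6 - 15552 * u^24 * v^6 * z^6
      + 15552 * u^23 * v^7 * z^6 - 124416 * u^22 * v^8 * z^6 + 147744 * u^21 * v^9 * z^6 - 544320 * u^20 * v^10 * z^6 - 139968 * u^19 * v^11 * z^6 - 870912 * u^18 * v^12 * z^6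
      - 575424 * u^17 * v^13 * z^6 - 2264112 * u^16 * v^14 * z^6 - 3265920 * u^15 * v^15 * z^6 - 4307904 * u^14 * v^16 * z^6 - 4090176 * u^13 * v^17 * z^6 - 3203712 * u^12 * v^18 * z^6
      - 2091744 * u^11 * v^19 * z^6 - 1010880 * u^10 * v^20 * z^6 - 419904 * u^9 * v^21 * z^6 - 124416 * u^8 * v^22 * z^6 - 15552 * u^7 * v^23 * z^6 - 648 * u^6 * v^24 * z^6
      + 324 * u^27 * v^3 * z^7 + 7776 * u^25 * v^5 * z^7 - 7776 * u^24 * v^6 * z^7 + 62208 * u^23 * v^7 * z^7 - 73872 * u^22 * v^8 * z^7 + 272160 * u^21 * v^9 * z^7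
      + 69984 * u^20 * v^10 * z^7 + 435456 * u^19 * v^11 * z^7 + 287712 * u^18 * v^12 * z^7 + 1132056 * u^17 * v^13 * z^7 + 1632960 * u^16 * v^14 * z^7 + 2153952 * u^15 * v^15 * z^7
      + 2045088 * u^14 * v^16 * z^7 + 1601856 * u^13 * v^17 * z^7 + 1045872 * u^12 * v^18 * z^7 + 505440 * u^11 * v^19 * z^7 + 209952 * u^10 * v^20 * z^7 + 62208 * u^9 * v^21 * z^7
      + 7776 * u^8 * v^22 * z^7 + 324 * u^7 * v^23 * z^7 - 324 * u^28 * v^2 * z^8 - 7776 * u^26 * v^4 * z^8 + 7776 * u^25 * v^5 * z^8 - 62208 * u^24 * v^6 * z^8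
      + 73872 * u^23 * v^7 * z^8 - 272160 * u^22 * v^8 * z^8 - 69984 * u^21 * v^9 * z^8 - 435456 * u^20 * v^10 * z^8 - 287712 * u^19 * v^11 * z^8 - 1132056 * u^18 * v^12 * z^8
      - 1632960 * u^17 * v^13 * z^8 - 2153952 * u^16 * v^14 * z^8 - 2045088 * u^15 * v^15 * z^8 - 1601856 * u^14 * v^16 * z^8 - 1045872 * u^13 * v^17 * z^8 - 505440 * u^12 * v^18 * z^8
      - 209952 * u^11 * v^19 * z^8 - 62208 * u^10 * v^20 * z^8 - 7776 * u^9 * v^21 * z^8 - 324 * u^8 * v^22 * z^8 - 27 * u^30 * z^10 - 648 * u^28 * v^2 * z^10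
      + 648 * u^27 * v^3 * z^10 - 5184 * u^26 * v^4 * z^10 + 6156 * u^25 * v^5 * z^10 - 22680 * u^24 * v^6 * z^10 - 5832 * u^23 * v^7 * z^10 - 36288 * u^22 * v^8 * z^10
      - 23976 * u^21 * v^9 * z^10 - 94338 * u^20 * v^10 * z^10 - 136080 * u^19 * v^11 * z^10 - 179496 * u^18 * v^12 * z^10 - 170424 * u^17 * v^13 * z^10 - 133488 * u^16 * v^14 * z^10
      - 87156 * u^15 * v^15 * z^10 - 42120 * u^14 * v^16 * z^10 - 17496 * u^13 * v^17 * z^10 - 5184 * u^12 * v^18 * z^10 - 648 * u^11 * v^19 * z^10 - 27 * u^10 * v^20 * z^10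
      - 972 * u^30 * w - 1620 * u^28 * v^2 * w + 48276 * u^27 * v^3 * w - 77112 * u^26 * v^4 * w + 410184 * u^25 * v^5 * w - 610740 * u^24 * v^6 * w
      + 1219860 * u^23 * v^7 * w - 1500120 * u^22 * v^8 * w + 2642220 * u^21 * v^9 * w - 2068929 * u^20 * v^10 * w + 1224720 * u^19 * v^11 * w - 4128408 * u^18 * v^12 * w
      + 940248 * u^17 * v^13 * w - 5612976 * u^16 * v^14 * w - 9587484 * u^15 * v^15 * w - 22469400 * u^14 * v^16 * w - 22225752 * u^13 * v^17 * w - 26351568 * u^12 * v^18 * w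
      - 29291544 * u^11 * v^19 * w - 27212490 * u^10 * v^20 * w - 19614960 * u^9 * v^21 * w - 13481316 * u^8 * v^22 * w - 7883244 * u^7 * v^23 * w - 3615192 * u^6 * v^24 * w
      - 1206900 * u^5 * v^25 * w - 396900 * u^4 * v^26 * w - 51516 * u^3 * v^27 * w + 27864 * u^2 * v^28 * w + 13932 * u * v^29 * w - 1809 * v^30 * w
      + 46656 * u^28 * v^2 * z * w + 46656 * u^27 * v^3 * z * w + 186624 * u^26 * v^4 * z * w + 233280 * u^24 * v^6 * z * w + 699840 * u^23 * v^7 * z * w + 1399680 * u^22 * v^8 * z * w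
      + 3010932 * u^21 * v^9 * z * w + 1166400 * u^20 * v^10 * z * w + 2519424 * u^19 * v^11 * z * w + 2146176 * u^18 * v^12 * z * w + 7138368 * u^17 * v^13 * z * w + 7655472 * u^16 * v^14 * z * w
      + 7931520 * u^15 * v^15 * z * w - 653184 * u^14 * v^16 * z * w - 4712256 * u^13 * v^17 * z * w - 23467968 * u^12 * v^18 * z * w - 37302120 * u^11 * v^19 * z * w - 37558080 * u^10 * v^20 * z * w
      - 28086912 * u^9 * v^21 * z * w - 20202048 * u^8 * v^22 * z * w - 11150784 * u^7 * v^23 * z * w - 4008528 * u^6 * v^24 * z * w - 933120 * u^5 * v^25 * z * w - 93312 * u^4 * v^26 * z * w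
      + 233280 * u^3 * v^27 * z * w + 186624 * u^2 * v^28 * z * w + 79380 * u * v^29 * z * w - 324 * u^30 * z^2 * w - 31104 * u^28 * v^2 * z^2 * w - 15552 * u^27 * v^3 * z^2 * w
      - 155520 * u^26 * v^4 * z^2 * w + 70308 * u^25 * v^5 * z^2 * w - 388800 * u^24 * v^6 * z^2 * w - 622080 * u^23 * v^7 * z^2 * w - 1209816 * u^22 * v^8 * z^2 * w - 2954880 * u^21 * v^9 * z^2 * w
      - 1462860 * u^20 * v^10 * z^2 * w - 6049728 * u^19 * v^11 * z^2 * w - 7426080 * u^18 * v^12 * z^2 * w - 15085440 * u^17 * v^13 * z^2 * w - 22332672 * u^16 * v^14 * z^2 * w - 24936336 * u^15 * v^15 * z^2 * w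
      - 31158432 * u^14 * v^16 * z^2 * w - 36702720 * u^13 * v^17 * z^2 * w - 52916976 * u^12 * v^18 * z^2 * w - 60676128 * u^11 * v^19 * z^2 * w - 54163404 * u^10 * v^20 * z^2 * w - 37410336 * u^9 * v^21 * z^2 * w
      - 24338880 * u^8 * v^22 * z^2 * w - 11617344 * u^7 * v^23 * z^2 * w - 3802464 * u^6 * v^24 * z^2 * w - 181764 * u^5 * v^25 * z^2 * w + 381024 * u^4 * v^26 * z^2 * w + 489888 * u^3 * v^27 * z^2 * w
      + 329832 * u^2 * v^28 * z^2 * w + 85536 * u * v^29 * z^2 * w + 972 * v^30 * z^2 * w - 324 * u^30 * z^3 * w + 62208 * u^28 * v^2 * z^3 * w + 77760 * u^27 * v^3 * z^3 * w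
      + 217728 * u^26 * v^4 * z^3 * w + 70308 * u^25 * v^5 * z^3 * w + 77760 * u^24 * v^6 * z^3 * w + 945756 * u^23 * v^7 * z^3 * w + 1866240 * u^22 * v^8 * z^3 * w + 3195936 * u^21 * v^9 * z^3 * w
      + 2269620 * u^20 * v^10 * z^3 * w - 2317248 * u^19 * v^11 * z^3 * w + 1123632 * u^18 * v^12 * z^3 * w + 909792 * u^17 * v^13 * z^3 * w + 10614240 * u^16 * v^14 * z^3 * w - 1841616 * u^15 * v^15 * z^3 * w
      - 18094752 * u^14 * v^16 * z^3 * w - 39247416 * u^13 * v^17 * z^3 * w - 60240672 * u^12 * v^18 * z^3 * w - 66088224 * u^11 * v^19 * z^3 * w - 57196044 * u^10 * v^20 * z^3 * w - 38576736 * u^9 * v^21 * z^3 * w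
      - 22274352 * u^8 * v^22 * z^3 * w - 10272096 * u^7 * v^23 * z^3 * w - 2534976 * u^6 * v^24 * z^3 * w + 284796 * u^5 * v^25 * z^3 * w + 614304 * u^4 * v^26 * z^3 * w + 588060 * u^3 * v^27 * z^3 * w
      + 264384 * u^2 * v^28 * z^3 * w + 46656 * u * v^29 * z^3 * w + 972 * v^30 * z^3 * w - 108540 * u^24 * v^6 * z^4 * w - 1415232 * u^22 * v^8 * z^4 * w + 1391904 * u^21 * v^9 * z^4 * w
      - 4152384 * u^20 * v^10 * z^4 * w - 1286928 * u^19 * v^11 * z^4 * w - 13110336 * u^18 * v^12 * z^4 * w - 8755776 * u^17 * v^13 * z^4 * w - 11982816 * u^16 * v^14 * z^4 * w - 16609536 * u^15 * v^15 * z^4 * w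
      - 34505352 * u^14 * v^16 * z^4 * w - 57106944 * u^13 * v^17 * z^4 * w - 69564096 * u^12 * v^18 * z^4 * w - 68351040 * u^11 * v^19 * z^4 * w - 55194048 * u^10 * v^20 * z^4 * w - 35485776 * u^9 * v^21 * z^4 * w
      - 20155392 * u^8 * v^22 * z^4 * w - 8009280 * u^7 * v^23 * z^4 * w - 1951776 * u^6 * v^24 * z^4 * w + 93312 * u^5 * v^25 * z^4 * w + 583524 * u^4 * v^26 * z^4 * w + 373248 * u^3 * v^27 * z^4 * w
      + 108864 * u^2 * v^28 * z^4 * w + 7776 * u * v^29 * z^4 * w - 54270 * u^25 * v^5 * z^5 * w - 723168 * u^23 * v^7 * z^5 * w + 684288 * u^22 * v^8 * z^5 * w - 2262816 * u^21 * v^9 * z^5 * w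
      - 596808 * u^20 * v^10 * z^5 * w - 6788448 * u^19 * v^11 * z^5 * w - 5295456 * u^18 * v^12 * z^5 * w - 7402752 * u^17 * v^13 * z^5 * w - 11617344 * u^16 * v^14 * z^5 * w - 17532612 * u^15 * v^15 * z^5 * w
      - 31586112 * u^14 * v^16 * z^5 * w - 43133472 * u^13 * v^17 * z^5 * w - 48288960 * u^12 * v^18 * z^5 * w - 41267232 * u^11 * v^19 * z^5 * w - 26514216 * u^10 * v^20 * z^5 * w - 14976576 * u^9 * v^21 * z^5 * w
      - 4968864 * u^8 * v^22 * z^5 * w + 178848 * u^7 * v^23 * z^5 * w + 1306368 * u^6 * v^24 * z^5 * w + 1084914 * u^5 * v^25 * z^5 * w + 653184 * u^4 * v^26 * z^5 * w + 209952 * u^3 * v^27 * z^5 * w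
      + 15552 * u^2 * v^28 * z^5 * w - 43416 * u^26 * v^4 * z^6 * w - 598752 * u^24 * v^6 * z^6 * w + 536544 * u^23 * v^7 * z^6 * w - 2052864 * u^22 * v^8 * z^6 * w - 365472 * u^21 * v^9 * z^6 * w
      - 5785344 * u^20 * v^10 * z^6 * w - 5326560 * u^19 * v^11 * z^6 * w - 7581600 * u^18 * v^12 * z^6 * w - 13343616 * u^17 * v^13 * z^6 * w - 13671504 * u^16 * v^14 * z^6 * w - 29673216 * u^15 * v^15 * z^6 * w
      - 44183232 * u^14 * v^16 * z^6 * w - 55567296 * u^13 * v^17 * z^6 * w - 47962368 * u^12 * v^18 * z^6 * w - 30971808 * u^11 * v^19 * z^6 * w - 17169408 * u^10 * v^20 * z^6 * w - 4766688 * u^9 * v^21 * z^6 * w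
      + 1562976 * u^8 * v^22 * z^6 * w + 2426112 * u^7 * v^23 * z^6 * w + 1745064 * u^6 * v^24 * z^6 * w + 1026432 * u^5 * v^25 * z^6 * w + 318816 * u^4 * v^26 * z^6 * w + 23328 * u^3 * v^27 * z^6 * w
      + 21708 * u^27 * v^3 * z^7 * w + 260496 * u^25 * v^5 * z^7 * w - 318816 * u^24 * v^6 * z^7 * w + 559872 * u^23 * v^7 * z^7 * w + 42768 * u^22 * v^8 * z^7 * w + 2566080 * u^21 * v^9 * z^7 * w
      - 143856 * u^20 * v^10 * z^7 * w - 614304 * u^19 * v^11 * z^7 * w - 2892672 * u^18 * v^12 * z^7 * w + 2543400 * u^17 * v^13 * z^7 * w + 9564480 * u^16 * v^14 * z^7 * w - 4688928 * u^15 * v^15 * z^7 * w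
      - 14556672 * u^14 * v^16 * z^7 * w - 24307776 * u^13 * v^17 * z^7 * w - 14653872 * u^12 * v^18 * z^7 * w - 9564480 * u^11 * v^19 * z^7 * w - 2336688 * u^10 * v^20 * z^7 * w + 2511648 * u^9 * v^21 * z^7 * w
      + 3219264 * u^8 * v^22 * z^7 * w + 1880172 * u^7 * v^23 * z^7 * w + 1166400 * u^6 * v^24 * z^7 * w + 486000 * u^5 * v^25 * z^7 * w + 38880 * u^4 * v^26 * z^7 * w - 21708 * u^28 * v^2 * z^8 * w
      - 295488 * u^26 * v^4 * z^8 * w + 260496 * u^25 * v^5 * z^8 * w - 979776 * u^24 * v^6 * z^8 * w - 322704 * u^23 * v^7 * z^8 * w - 2706048 * u^22 * v^8 * z^8 * w - 2690496 * u^21 * v^9 * z^8 * w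
      - 3876336 * u^20 * v^10 * z^8 * w - 6485184 * u^19 * v^11 * z^8 * w - 8562024 * u^18 * v^12 * z^8 * w - 12923712 * u^17 * v^13 * z^8 * w - 22954752 * u^16 * v^14 * z^8 * w - 27783648 * u^15 * v^15 * z^8 * w
      - 27620352 * u^14 * v^16 * z^8 * w - 17398800 * u^13 * v^17 * z^8 * w - 10310976 * u^12 * v^18 * z^8 * w - 3297024 * u^11 * v^19 * z^8 * w + 695952 * u^10 * v^20 * z^8 * w + 1539648 * u^9 * v^21 * z^8 * w
      + 1059156 * u^8 * v^22 * z^8 * w + 653184 * u^7 * v^23 * z^8 * w + 248832 * u^6 * v^24 * z^8 * w + 19440 * u^5 * v^25 * z^8 * w + 7776 * u^27 * v^3 * z^9 * w - 15552 * u^26 * v^4 * z^9 * w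
      + 93312 * u^25 * v^5 * z^9 * w - 279936 * u^24 * v^6 * z^9 * w + 373248 * u^23 * v^7 * z^9 * w - 54432 * u^22 * v^8 * z^9 * w - 171072 * u^21 * v^9 * z^9 * w + 373248 * u^20 * v^10 * z^9 * w
      - 3452544 * u^19 * v^11 * z^9 * w + 3825792 * u^18 * v^12 * z^9 * w - 1726272 * u^17 * v^13 * z^9 * w - 7278336 * u^15 * v^15 * z^9 * w - 3825792 * u^14 * v^16 * z^9 * w - 3452544 * u^13 * v^17 * z^9 * w
      - 1827360 * u^12 * v^18 * z^9 * w - 171072 * u^11 * v^19 * z^9 * w + 653184 * u^10 * v^20 * z^9 * w + 373248 * u^9 * v^21 * z^9 * w + 279936 * u^8 * v^22 * z^9 * w + 178848 * u^7 * v^23 * z^9 * w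
      + 15552 * u^6 * v^24 * z^9 * w - 1809 * u^30 * z^10 * w - 31104 * u^28 * v^2 * z^10 * w + 31104 * u^27 * v^3 * z^10 * w - 159408 * u^26 * v^4 * z^10 * w + 163620 * u^25 * v^5 * z^10 * w
      - 493776 * u^24 * v^6 * z^10 * w - 264384 * u^23 * v^7 * z^10 * w - 326592 * u^22 * v^8 * z^10 * w - 1065312 * u^21 * v^9 * z^10 * w + 1564866 * u^20 * v^10 * z^10 * w - 3880224 * u^19 * v^11 * z^10 * w
      - 1458000 * u^18 * v^12 * z^10 * w - 3491424 * u^17 * v^13 * z^10 * w + 1411344 * u^16 * v^14 * z^10 * w + 369684 * u^15 * v^15 * z^10 * w + 1034208 * u^14 * v^16 * z^10 * w + 863136 * u^13 * v^17 * z^10 * w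
      + 268272 * u^12 * v^18 * z^10 * w - 202176 * u^11 * v^19 * z^10 * w - 94473 * u^10 * v^20 * z^10 * w - 93312 * u^9 * v^21 * z^10 * w - 85536 * u^8 * v^22 * z^10 * w - 7776 * u^7 * v^23 * z^10 * w
      - 7776 * u^28 * v^2 * z^11 * w - 93312 * u^26 * v^4 * z^11 * w + 93312 * u^25 * v^5 * z^11 * w - 186624 * u^24 * v^6 * z^11 * w - 318816 * u^23 * v^7 * z^11 * w - 466560 * u^22 * v^8 * z^11 * w
      - 1306368 * u^21 * v^9 * z^11 * w + 839808 * u^20 * v^10 * z^11 * w - 2146176 * u^19 * v^11 * z^11 * w - 2566080 * u^18 * v^12 * z^11 * w - 5132160 * u^17 * v^13 * z^11 * w - 2985984 * u^16 * v^14 * z^11 * w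
      - 2146176 * u^15 * v^15 * z^11 * w - 839808 * u^14 * v^16 * z^11 * w + 147744 * u^13 * v^17 * z^11 * w + 466560 * u^12 * v^18 * z^11 * w + 279936 * u^11 * v^19 * z^11 * w + 186624 * u^10 * v^20 * z^11 * w
      + 93312 * u^9 * v^21 * z^11 * w + 7776 * u^8 * v^22 * z^11 * w - 648 * u^30 * z^12 * w - 7776 * u^28 * v^2 * z^12 * w + 7776 * u^27 * v^3 * z^12 * w - 15552 * u^26 * v^4 * z^12 * w
      - 26568 * u^25 * v^5 * z^12 * w - 38880 * u^24 * v^6 * z^12 * w - 108864 * u^23 * v^7 * z^12 * w + 69984 * u^22 * v^8 * z^12 * w - 178848 * u^21 * v^9 * z^12 * w - 213840 * u^20 * v^10 * z^12 * w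
      - 427680 * u^19 * v^11 * z^12 * w - 248832 * u^18 * v^12 * z^12 * w - 178848 * u^17 * v^13 * z^12 * w - 69984 * u^16 * v^14 * z^12 * w + 12312 * u^15 * v^15 * z^12 * w + 38880 * u^14 * v^16 * z^12 * w
      + 23328 * u^13 * v^17 * z^12 * w + 15552 * u^12 * v^18 * z^12 * w + 7776 * u^11 * v^19 * z^12 * w + 648 * u^10 * v^20 * z^12 * w - 648 * u^30 * z^13 * w - 7776 * u^28 * v^2 * z^13 * w
      + 7776 * u^27 * v^3 * z^13 * w - 15552 * u^26 * v^4 * z^13 * w - 26568 * u^25 * v^5 * z^13 * w - 38880 * u^24 * v^6 * z^13 * w - 108864 * u^23 * v^7 * z^13 * w + 69984 * u^22 * v^8 * z^13 * w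
      - 178848 * u^21 * v^9 * z^13 * w - 213840 * u^20 * v^10 * z^13 * w - 427680 * u^19 * v^11 * z^13 * w - 248832 * u^18 * v^12 * z^13 * w - 178848 * u^17 * v^13 * z^13 * w - 69984 * u^16 * v^14 * z^13 * w
      + 12312 * u^15 * v^15 * z^13 * w + 38880 * u^14 * v^16 * z^13 * w + 23328 * u^13 * v^17 * z^13 * w + 15552 * u^12 * v^18 * z^13 * w + 7776 * u^11 * v^19 * z^13 * w + 648 * u^10 * v^20 * z^13 * w
      + 32751 * u^30 * w^2 + 303264 * u^28 * v^2 * w^2 - 69984 * u^27 * v^3 * w^2 + 237168 * u^26 * v^4 * w^2 + 3149766 * u^25 * v^5 * w^2 - 1496880 * u^24 * v^6 * w^2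
      + 8359200 * u^23 * v^7 * w^2 - 8203680 * u^22 * v^8 * w^2 + 16174080 * u^21 * v^9 * w^2 - 6472467 * u^20 * v^10 * w^2 + 12752640 * u^19 * v^11 * w^2 - 14871600 * u^18 * v^12 * w^2
      + 5559840 * u^17 * v^13 * w^2 - 23153040 * u^16 * v^14 * w^2 - 48169404 * u^15 * v^15 * w^2 - 103381920 * u^14 * v^16 * w^2 - 104937120 * u^13 * v^17 * w^2 - 128984400 * u^12 * v^18 * w^2
      - 143039520 * u^11 * v^19 * w^2 - 127431063 * u^10 * v^20 * w^2 - 94011840 * u^9 * v^21 * w^2 - 64851840 * u^8 * v^22 * w^2 - 37908000 * u^7 * v^23 * w^2 - 17029440 * u^6 * v^24 * w^2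
      - 6815178 * u^5 * v^25 * w^2 - 1399680 * u^4 * v^26 * w^2 + 93312 * u^3 * v^27 * w^2 + 373248 * u^2 * v^28 * w^2 + 186624 * u * v^29 * w^2 + 37611 * v^30 * w^2
      + 46656 * u^30 * z * w^2 + 233280 * u^28 * v^2 * z * w^2 + 233280 * u^27 * v^3 * z * w^2 + 933120 * u^26 * v^4 * z * w^2 + 839808 * u^25 * v^5 * z * w^2 + 1166400 * u^24 * v^6 * z * w^2
      + 3499200 * u^23 * v^7 * z * w^2 + 6998400 * u^22 * v^8 * z * w^2 + 14743296 * u^21 * v^9 * z * w^2 + 7464960 * u^20 * v^10 * z * w^2 + 12597120 * u^19 * v^11 * z * w^2 + 10730880 * u^18 * v^12 * z * w^2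
      + 35691840 * u^17 * v^13 * z * w^2 + 36951552 * u^16 * v^14 * z * w^2 + 20528640 * u^15 * v^15 * z * w^2 - 3265920 * u^14 * v^16 * z * w^2 - 23561280 * u^13 * v^17 * z * w^2 - 117339840 * u^12 * v^18 * z * w^2
      - 188303616 * u^11 * v^19 * z * w^2 - 161429760 * u^10 * v^20 * z * w^2 - 140434560 * u^9 * v^21 * z * w^2 - 101010240 * u^8 * v^22 * z * w^2 - 55753920 * u^7 * v^23 * z * w^2 - 20855232 * u^6 * v^24 * z * w^2
      - 8957952 * u^5 * v^25 * z * w^2 - 466560 * u^4 * v^26 * z * w^2 + 1166400 * u^3 * v^27 * z * w^2 + 933120 * u^2 * v^28 * z * w^2 + 279936 * u * v^29 * z * w^2 + 186624 * v^30 * z * w^2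
      + 41796 * u^30 * z^2 * w^2 + 85536 * u^28 * v^2 * z^2 * w^2 - 318816 * u^27 * v^3 * z^2 * w^2 - 295488 * u^26 * v^4 * z^2 * w^2 + 1521180 * u^25 * v^5 * z^2 * w^2 - 738720 * u^24 * v^6 * z^2 * w^2
      + 777600 * u^23 * v^7 * z^2 * w^2 - 9354528 * u^22 * v^8 * z^2 * w^2 - 8203680 * u^21 * v^9 * z^2 * w^2 - 455868 * u^20 * v^10 * z^2 * w^2 - 14424480 * u^19 * v^11 * z^2 * w^2 - 22083840 * u^18 * v^12 * z^2 * w^2
      - 77301216 * u^17 * v^13 * z^2 * w^2 - 97394400 * u^16 * v^14 * z^2 * w^2 - 129021336 * u^15 * v^15 * z^2 * w^2 - 128031840 * u^14 * v^16 * z^2 * w^2 - 165745440 * u^13 * v^17 * z^2 * w^2 - 258178752 * u^12 * v^18 * z^2 * w^2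
      - 295604640 * u^11 * v^19 * z^2 * w^2 - 224542692 * u^10 * v^20 * z^2 * w^2 - 181491840 * u^9 * v^21 * z^2 * w^2 - 118506240 * u^8 * v^22 * z^2 * w^2 - 57340224 * u^7 * v^23 * z^2 * w^2 - 18195840 * u^6 * v^24 * z^2 * w^2
      - 8673156 * u^5 * v^25 * z^2 * w^2 + 1166400 * u^4 * v^26 * z^2 * w^2 + 2006208 * u^3 * v^27 * z^2 * w^2 + 1119744 * u^2 * v^28 * z^2 * w^2 + 279936 * u * v^29 * z^2 * w^2 + 331452 * v^30 * z^2 * w^2
      + 41796 * u^30 * z^3 * w^2 + 552096 * u^28 * v^2 * z^3 * w^2 + 147744 * u^27 * v^3 * z^3 * w^2 + 1570752 * u^26 * v^4 * z^3 * w^2 + 1521180 * u^25 * v^5 * z^3 * w^2 + 1594080 * u^24 * v^6 * z^3 * w^2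
      + 7682688 * u^23 * v^7 * z^3 * w^2 + 6648480 * u^22 * v^8 * z^3 * w^2 + 22309344 * u^21 * v^9 * z^3 * w^2 + 18206532 * u^20 * v^10 * z^3 * w^2 + 4237920 * u^19 * v^11 * z^3 * w^2 + 16687296 * u^18 * v^12 * z^3 * w^2
      + 5326560 * u^17 * v^13 * z^3 * w^2 + 64175328 * u^16 * v^14 * z^3 * w^2 - 13547736 * u^15 * v^15 * z^3 * w^2 - 62713440 * u^14 * v^16 * z^3 * w^2 - 183847968 * u^13 * v^17 * z^3 * w^2 - 291211200 * u^12 * v^18 * z^3 * w^2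
      - 328217184 * u^11 * v^19 * z^3 * w^2 - 239705892 * u^10 * v^20 * z^3 * w^2 - 187323840 * u^9 * v^21 * z^3 * w^2 - 110621376 * u^8 * v^22 * z^3 * w^2 - 48988800 * u^7 * v^23 * z^3 * w^2 - 12970368 * u^6 * v^24 * z^3 * w^2
      - 6340356 * u^5 * v^25 * z^3 * w^2 + 2332800 * u^4 * v^26 * z^3 * w^2 + 2146176 * u^3 * v^27 * z^3 * w^2 + 1026432 * u^2 * v^28 * z^3 * w^2 + 233280 * u * v^29 * z^3 * w^2 + 331452 * v^30 * z^3 * w^2
      + 155520 * u^30 * z^4 * w^2 + 46656 * u^28 * v^2 * z^4 * w^2 - 46656 * u^27 * v^3 * z^4 * w^2 + 93312 * u^26 * v^4 * z^4 * w^2 + 3281472 * u^25 * v^5 * z^4 * w^2 - 1866240 * u^24 * v^6 * z^4 * w^2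
      + 1166400 * u^23 * v^7 * z^4 * w^2 - 8491392 * u^22 * v^8 * z^4 * w^2 + 8817984 * u^21 * v^9 * z^4 * w^2 - 5136048 * u^20 * v^10 * z^4 * w^2 - 7931520 * u^19 * v^11 * z^4 * w^2 - 56920320 * u^18 * v^12 * z^4 * w^2
      - 53607744 * u^17 * v^13 * z^4 * w^2 - 50948352 * u^16 * v^14 * z^4 * w^2 - 98762976 * u^15 * v^15 * z^4 * w^2 - 153731520 * u^14 * v^16 * z^4 * w^2 - 269904960 * u^13 * v^17 * z^4 * w^2 - 346794048 * u^12 * v^18 * z^4 * w^2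
      - 343808064 * u^11 * v^19 * z^4 * w^2 - 249139152 * u^10 * v^20 * z^4 * w^2 - 186624000 * u^9 * v^21 * z^4 * w^2 - 103809600 * u^8 * v^22 * z^4 * w^2 - 44369856 * u^7 * v^23 * z^4 * w^2 - 11803968 * u^6 * v^24 * z^4 * w^2
      - 4035744 * u^5 * v^25 * z^4 * w^2 + 2566080 * u^4 * v^26 * z^4 * w^2 + 2006208 * u^3 * v^27 * z^4 * w^2 + 933120 * u^2 * v^28 * z^4 * w^2 + 233280 * u * v^29 * z^4 * w^2 + 198288 * v^30 * z^4 * w^2
      - 62208 * u^30 * z^5 * w^2 + 93312 * u^28 * v^2 * z^5 * w^2 - 93312 * u^27 * v^3 * z^5 * w^2 + 186624 * u^26 * v^4 * z^5 * w^2 - 2371680 * u^25 * v^5 * z^5 * w^2 + 466560 * u^24 * v^6 * z^5 * w^2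
      - 2006208 * u^23 * v^7 * z^5 * w^2 + 1073088 * u^22 * v^8 * z^5 * w^2 - 7161696 * u^21 * v^9 * z^5 * w^2 - 12604896 * u^20 * v^10 * z^5 * w^2 - 23677920 * u^19 * v^11 * z^5 * w^2 - 18709056 * u^18 * v^12 * z^5 * w^2
      - 50341824 * u^17 * v^13 * z^5 * w^2 - 34852032 * u^16 * v^14 * z^5 * w^2 - 83685312 * u^15 * v^15 * z^5 * w^2 - 102409920 * u^14 * v^16 * z^5 * w^2 - 201064032 * u^13 * v^17 * z^5 * w^2 - 228287808 * u^12 * v^18 * z^5 * w^2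
      - 204889824 * u^11 * v^19 * z^5 * w^2 - 127363104 * u^10 * v^20 * z^5 * w^2 - 85147200 * u^9 * v^21 * z^5 * w^2 - 34245504 * u^8 * v^22 * z^5 * w^2 - 5528736 * u^7 * v^23 * z^5 * w^2 + 5692032 * u^6 * v^24 * z^5 * w^2
      + 3639168 * u^5 * v^25 * z^5 * w^2 + 3732480 * u^4 * v^26 * z^5 * w^2 + 1772928 * u^3 * v^27 * z^5 * w^2 + 559872 * u^2 * v^28 * z^5 * w^2 + 46656 * u * v^29 * z^5 * w^2 + 69984 * v^30 * z^5 * w^2
      + 108864 * u^30 * z^6 * w^2 + 46656 * u^28 * v^2 * z^6 * w^2 - 46656 * u^27 * v^3 * z^6 * w^2 - 746496 * u^26 * v^4 * z^6 * w^2 + 2441664 * u^25 * v^5 * z^6 * w^2 - 3965760 * u^24 * v^6 * z^6 * w^2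
      + 3125952 * u^23 * v^7 * z^6 * w^2 - 11290752 * u^22 * v^8 * z^6 * w^2 - 2472768 * u^21 * v^9 * z^6 * w^2 - 14933808 * u^20 * v^10 * z^6 * w^2 - 37324800 * u^19 * v^11 * z^6 * w^2 - 38771136 * u^18 * v^12 * z^6 * w^2
      - 72270144 * u^17 * v^13 * z^6 * w^2 - 61865856 * u^16 * v^14 * z^6 * w^2 - 144952416 * u^15 * v^15 * z^6 * w^2 - 220916160 * u^14 * v^16 * z^6 * w^2 - 278862912 * u^13 * v^17 * z^6 * w^2 - 238785408 * u^12 * v^18 * z^6 * w^2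
      - 164089152 * u^11 * v^19 * z^6 * w^2 - 85376592 * u^10 * v^20 * z^6 * w^2 - 34525440 * u^9 * v^21 * z^6 * w^2 + 1446336 * u^8 * v^22 * z^6 * w^2 + 12083904 * u^7 * v^23 * z^6 * w^2 + 9611136 * u^6 * v^24 * z^6 * w^2
      + 4922208 * u^5 * v^25 * z^6 * w^2 + 2566080 * u^4 * v^26 * z^6 * w^2 + 699840 * u^3 * v^27 * z^6 * w^2 - 46656 * u * v^29 * z^6 * w^2 + 11664 * v^30 * z^6 * w^2 + 419904 * u^27 * v^3 * z^7 * w^2
      + 699840 * u^25 * v^5 * z^7 * w^2 - 2799360 * u^24 * v^6 * z^7 * w^2 + 2659392 * u^23 * v^7 * z^7 * w^2 + 1353024 * u^22 * v^8 * z^7 * w^2 + 12783744 * u^21 * v^9 * z^7 * w^2 - 8631360 * u^20 * v^10 * z^7 * w^2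
      - 18895680 * u^19 * v^11 * z^7 * w^2 - 17542656 * u^18 * v^12 * z^7 * w^2 + 10404288 * u^17 * v^13 * z^7 * w^2 + 46795968 * u^16 * v^14 * z^7 * w^2 - 37324800 * u^15 * v^15 * z^7 * w^2 - 100543680 * u^14 * v^16 * z^7 * w^2
      - 138195072 * u^13 * v^17 * z^7 * w^2 - 94665024 * u^12 * v^18 * z^7 * w^2 - 53374464 * u^11 * v^19 * z^7 * w^2 - 14463360 * u^10 * v^20 * z^7 * w^2 + 6998400 * u^9 * v^21 * z^7 * w^2 + 19175616 * u^8 * v^22 * z^7 * w^2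
      + 13623552 * u^7 * v^23 * z^7 * w^2 + 6858432 * u^6 * v^24 * z^7 * w^2 + 2799360 * u^5 * v^25 * z^7 * w^2 + 933120 * u^4 * v^26 * z^7 * w^2 - 139968 * u^3 * v^27 * z^7 * w^2 - 186624 * u^2 * v^28 * z^7 * w^2
      - 46656 * u * v^29 * z^7 * w^2 - 419904 * u^28 * v^2 * z^8 * w^2 - 1959552 * u^26 * v^4 * z^8 * w^2 + 699840 * u^25 * v^5 * z^8 * w^2 - 5132160 * u^24 * v^6 * z^8 * w^2 - 3219264 * u^23 * v^7 * z^8 * w^2
      - 13623552 * u^22 * v^8 * z^8 * w^2 - 19782144 * u^21 * v^9 * z^8 * w^2 - 27293760 * u^20 * v^10 * z^8 * w^2 - 37558080 * u^19 * v^11 * z^8 * w^2 - 50761728 * u^18 * v^12 * z^8 * w^2 - 66671424 * u^17 * v^13 * z^8 * w^2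
      - 125877888 * u^16 * v^14 * z^8 * w^2 - 152798400 * u^15 * v^15 * z^8 * w^2 - 165862080 * u^14 * v^16 * z^8 * w^2 - 121118976 * u^13 * v^17 * z^8 * w^2 - 62659008 * u^12 * v^18 * z^8 * w^2 - 18709056 * u^11 * v^19 * z^8 * w^2
      + 699840 * u^10 * v^20 * z^8 * w^2 + 12830400 * u^9 * v^21 * z^8 * w^2 + 11337408 * u^8 * v^22 * z^8 * w^2 + 5318784 * u^7 * v^23 * z^8 * w^2 + 1539648 * u^6 * v^24 * z^8 * w^2 + 466560 * u^5 * v^25 * z^8 * w^2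
      - 233280 * u^4 * v^26 * z^8 * w^2 - 279936 * u^3 * v^27 * z^8 * w^2 - 93312 * u^2 * v^28 * z^8 * w^2 + 279936 * u^27 * v^3 * z^9 * w^2 - 559872 * u^26 * v^4 * z^9 * w^2 + 349920 * u^25 * v^5 * z^9 * w^2
      - 1866240 * u^24 * v^6 * z^9 * w^2 + 1726272 * u^23 * v^7 * z^9 * w^2 + 2892672 * u^22 * v^8 * z^9 * w^2 - 7185024 * u^21 * v^9 * z^9 * w^2 - 699840 * u^20 * v^10 * z^9 * w^2 - 27527040 * u^19 * v^11 * z^9 * w^2
      + 16049664 * u^18 * v^12 * z^9 * w^2 - 3079296 * u^17 * v^13 * z^9 * w^2 - 11104128 * u^16 * v^14 * z^9 * w^2 - 50271840 * u^15 * v^15 * z^9 * w^2 - 74649600 * u^14 * v^16 * z^9 * w^2 - 33918912 * u^13 * v^17 * z^9 * w^2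
      - 8024832 * u^12 * v^18 * z^9 * w^2 - 3079296 * u^11 * v^19 * z^9 * w^2 + 5832000 * u^10 * v^20 * z^9 * w^2 + 12130560 * u^9 * v^21 * z^9 * w^2 + 4478976 * u^8 * v^22 * z^9 * w^2 + 746496 * u^7 * v^23 * z^9 * w^2
      + 373248 * u^6 * v^24 * z^9 * w^2 - 116640 * u^5 * v^25 * z^9 * w^2 - 466560 * u^4 * v^26 * z^9 * w^2 - 139968 * u^3 * v^27 * z^9 * w^2 - 34992 * u^30 * z^10 * w^2 - 396576 * u^28 * v^2 * z^10 * w^2
      + 396576 * u^27 * v^3 * z^10 * w^2 - 890352 * u^26 * v^4 * z^10 * w^2 + 474336 * u^25 * v^5 * z^10 * w^2 - 2702160 * u^24 * v^6 * z^10 * w^2 - 4486752 * u^23 * v^7 * z^10 * w^2 + 1531872 * u^22 * v^8 * z^10 * w^2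
      - 7379424 * u^21 * v^9 * z^10 * w^2 + 2542752 * u^20 * v^10 * z^10 * w^2 - 24533280 * u^19 * v^11 * z^10 * w^2 - 12842064 * u^18 * v^12 * z^10 * w^2 - 11905056 * u^17 * v^13 * z^10 * w^2 - 4047408 * u^16 * v^14 * z^10 * w^2
      - 25979616 * u^15 * v^15 * z^10 * w^2 - 22589280 * u^14 * v^16 * z^10 * w^2 + 3203712 * u^13 * v^17 * z^10 * w^2 + 2453328 * u^12 * v^18 * z^10 * w^2 + 1041984 * u^11 * v^19 * z^10 * w^2 + 4650048 * u^10 * v^20 * z^10 * w^2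
      + 4665600 * u^9 * v^21 * z^10 * w^2 - 279936 * u^8 * v^22 * z^10 * w^2 - 186624 * u^7 * v^23 * z^10 * w^2 - 93312 * u^6 * v^24 * z^10 * w^2 - 233280 * u^5 * v^25 * z^10 * w^2 - 233280 * u^4 * v^26 * z^10 * w^2
      - 279936 * u^28 * v^2 * z^11 * w^2 + 46656 * u^27 * v^3 * z^11 * w^2 - 653184 * u^26 * v^4 * z^11 * w^2 + 349920 * u^25 * v^5 * z^11 * w^2 - 933120 * u^24 * v^6 * z^11 * w^2 - 4758912 * u^23 * v^7 * z^11 * w^2
      - 1306368 * u^22 * v^8 * z^11 * w^2 - 10637568 * u^21 * v^9 * z^11 * w^2 + 1632960 * u^20 * v^10 * z^11 * w^2 - 10730880 * u^19 * v^11 * z^11 * w^2 - 18382464 * u^18 * v^12 * z^11 * w^2 - 20108736 * u^17 * v^13 * z^11 * w^2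
      - 37138176 * u^16 * v^14 * z^11 * w^2 - 24611040 * u^15 * v^15 * z^11 * w^2 - 4199040 * u^14 * v^16 * z^11 * w^2 - 373248 * u^13 * v^17 * z^11 * w^2 + 1306368 * u^12 * v^18 * z^11 * w^2 + 5505408 * u^11 * v^19 * z^11 * w^2
      + 3499200 * u^10 * v^20 * z^11 * w^2 + 466560 * u^9 * v^21 * z^11 * w^2 + 186624 * u^8 * v^22 * z^11 * w^2 + 46656 * u^7 * v^23 * z^11 * w^2 - 186624 * u^6 * v^24 * z^11 * w^2 - 116640 * u^5 * v^25 * z^11 * w^2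
      - 23328 * u^30 * z^12 * w^2 - 85536 * u^28 * v^2 * z^12 * w^2 + 132192 * u^27 * v^3 * z^12 * w^2 - 171072 * u^26 * v^4 * z^12 * w^2 - 396576 * u^25 * v^5 * z^12 * w^2 - 194400 * u^24 * v^6 * z^12 * w^2
      - 1570752 * u^23 * v^7 * z^12 * w^2 + 2402784 * u^22 * v^8 * z^12 * w^2 - 2947104 * u^21 * v^9 * z^12 * w^2 - 1531872 * u^20 * v^10 * z^12 * w^2 - 2138400 * u^19 * v^11 * z^12 * w^2 - 6796224 * u^18 * v^12 * z^12 * w^2
      + 10209888 * u^17 * v^13 * z^12 * w^2 - 11454048 * u^16 * v^14 * z^12 * w^2 - 31104 * u^15 * v^15 * z^12 * w^2 + 194400 * u^14 * v^16 * z^12 * w^2 + 1143072 * u^13 * v^17 * z^12 * w^2 - 1975104 * u^12 * v^18 * z^12 * w^2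
      + 2091744 * u^11 * v^19 * z^12 * w^2 + 15552 * u^10 * v^20 * z^12 * w^2 - 46656 * u^8 * v^22 * z^12 * w^2 + 93312 * u^7 * v^23 * z^12 * w^2 - 93312 * u^6 * v^24 * z^12 * w^2 - 23328 * u^30 * z^13 * w^2
      - 132192 * u^28 * v^2 * z^13 * w^2 + 85536 * u^27 * v^3 * z^13 * w^2 - 77760 * u^26 * v^4 * z^13 * w^2 - 396576 * u^25 * v^5 * z^13 * w^2 - 194400 * u^24 * v^6 * z^13 * w^2 - 2597184 * u^23 * v^7 * z^13 * w^2
      + 1376352 * u^22 * v^8 * z^13 * w^2 - 894240 * u^21 * v^9 * z^13 * w^2 - 1531872 * u^20 * v^10 * z^13 * w^2 - 2138400 * u^19 * v^11 * z^13 * w^2 - 12348288 * u^18 * v^12 * z^13 * w^2 + 4657824 * u^17 * v^13 * z^13 * w^2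
      - 349920 * u^16 * v^14 * z^13 * w^2 - 31104 * u^15 * v^15 * z^13 * w^2 + 194400 * u^14 * v^16 * z^13 * w^2 + 2169504 * u^13 * v^17 * z^13 * w^2 - 948672 * u^12 * v^18 * z^13 * w^2 + 38880 * u^11 * v^19 * z^13 * w^2
      + 15552 * u^10 * v^20 * z^13 * w^2 - 93312 * u^8 * v^22 * z^13 * w^2 + 46656 * u^7 * v^23 * z^13 * w^2 - 3888 * u^30 * z^14 * w^2 - 46656 * u^28 * v^2 * z^14 * w^2 - 85536 * u^25 * v^5 * z^14 * w^2
      - 1026432 * u^23 * v^7 * z^14 * w^2 - 462672 * u^20 * v^10 * z^14 * w^2 - 5552064 * u^18 * v^12 * z^14 * w^2 + 85536 * u^15 * v^15 * z^14 * w^2 + 1026432 * u^13 * v^17 * z^14 * w^2 - 3888 * u^10 * v^20 * z^14 * w^2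
      - 46656 * u^8 * v^22 * z^14 * w^2 - 7776 * u^30 * z^15 * w^2 - 171072 * u^25 * v^5 * z^15 * w^2 - 925344 * u^20 * v^10 * z^15 * w^2 + 171072 * u^15 * v^15 * z^15 * w^2 - 7776 * u^10 * v^20 * z^15 * w^2
      - 3888 * u^30 * z^16 * w^2 - 85536 * u^25 * v^5 * z^16 * w^2 - 462672 * u^20 * v^10 * z^16 * w^2 + 85536 * u^15 * v^15 * z^16 * w^2 - 3888 * u^10 * v^20 * z^16 * w^2) * hw

set_option maxRecDepth 100000 in
set_option maxHeartbeats 1600000 in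
theorem add_y (z w u v : R) (hz : 1 + z + z^2 + z^3 + z^4 = 0) (hw : 5 * w = 1) :
    Y1 (z * u) v * (X1 u v - X10 z w u v) =
      -((Y1 u v - Y10 z w u v) * (X1 (z * u) v - X1 u v) + Y1 u v * (X1 u v - X10 z w u v)) := by
  simp only [X1, Y1, X10, Y10, X10n, Y10n]
  linear_combination (-324 * u^25 * w + 6156 * u^23 * v^2 * w + 13932 * u^22 * v^3 * w + 32400 * u^21 * v^4 * w - 12636 * u^20 * v^5 * w + 30780 * u^19 * v^6 * w
      + 34992 * u^18 * v^7 * w + 259524 * u^17 * v^8 * w + 302940 * u^16 * v^9 * w + 171072 * u^15 * v^10 * w + 82620 * u^14 * v^11 * w + 210924 * u^13 * v^12 * w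
      + 337608 * u^12 * v^13 * w + 805140 * u^11 * v^14 * w + 757512 * u^10 * v^15 * w + 806760 * u^9 * v^16 * w + 499608 * u^8 * v^17 * w + 435456 * u^7 * v^18 * w
      + 320760 * u^6 * v^19 * w + 174960 * u^5 * v^20 * w + 77760 * u^4 * v^21 * w + 46656 * u^3 * v^22 * w + 15552 * u^2 * v^23 * w - 324 * u^25 * z * w
      - 13932 * u^23 * v^2 * z * w - 6156 * u^22 * v^3 * z * w - 47952 * u^21 * v^4 * z * w - 12636 * u^20 * v^5 * z * w - 69660 * u^19 * v^6 * z * w - 128304 * u^18 * v^7 * z * w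
      - 205092 * u^17 * v^8 * z * w - 446796 * u^16 * v^9 * z * w - 331128 * u^15 * v^10 * z * w - 413100 * u^14 * v^11 * z * w - 222588 * u^13 * v^12 * z * w - 578664 * u^12 * v^13 * z * w
      - 470772 * u^11 * v^14 * z * w - 214488 * u^10 * v^15 * z * w + 223560 * u^9 * v^16 * z * w + 410184 * u^8 * v^17 * z * w + 540432 * u^7 * v^18 * z * w + 293544 * u^6 * v^19 * z * w
      + 174960 * u^5 * v^20 * z * w + 77760 * u^4 * v^21 * z * w + 23328 * u^3 * v^22 * z * w - 7776 * u^2 * v^23 * z * w + 972 * u^25 * z^2 * w + 15552 * u^23 * v^2 * z^2 * w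
      - 7776 * u^22 * v^3 * z^2 * w + 38880 * u^21 * v^4 * z^2 * w + 39528 * u^20 * v^5 * z^2 * w + 77760 * u^19 * v^6 * z^2 * w + 225504 * u^18 * v^7 * z^2 * w + 31104 * u^17 * v^8 * z^2 * w
      + 548208 * u^16 * v^9 * z^2 * w + 442584 * u^15 * v^10 * z^2 * w + 913680 * u^14 * v^11 * z^2 * w + 742608 * u^13 * v^12 * z^2 * w + 1251936 * u^12 * v^13 * z^2 * w + 1461888 * u^11 * v^14 * z^2 * w
      + 1147284 * u^10 * v^15 * z^2 * w + 952560 * u^9 * v^16 * z^2 * w + 1096416 * u^8 * v^17 * z^2 * w + 447120 * u^7 * v^18 * z^2 * w + 209952 * u^6 * v^19 * z^2 * w + 106920 * u^5 * v^20 * z^2 * w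
      + 38880 * u^4 * v^21 * z^2 * w - 23328 * u^3 * v^22 * z^2 * w - 1296 * u^25 * z^3 * w - 15552 * u^23 * v^2 * z^3 * w + 15552 * u^22 * v^3 * z^3 * w - 31104 * u^21 * v^4 * z^3 * w
      - 53784 * u^20 * v^5 * z^3 * w - 77760 * u^19 * v^6 * z^3 * w - 213840 * u^18 * v^7 * z^3 * w + 155520 * u^17 * v^8 * z^3 * w - 326592 * u^16 * v^9 * z^3 * w - 433512 * u^15 * v^10 * z^3 * w
      - 699840 * u^14 * v^11 * z^3 * w - 552096 * u^13 * v^12 * z^3 * w + 27216 * u^12 * v^13 * z^3 * w - 108864 * u^11 * v^14 * z^3 * w + 564408 * u^10 * v^15 * z^3 * w + 952560 * u^9 * v^16 * z^3 * w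
      + 334368 * u^8 * v^17 * z^3 * w + 171072 * u^7 * v^18 * z^3 * w + 120528 * u^6 * v^19 * z^3 * w + 19440 * u^5 * v^20 * z^3 * w - 38880 * u^4 * v^21 * z^3 * w + 972 * u^25 * z^4 * w
      + 7776 * u^23 * v^2 * z^4 * w - 15552 * u^22 * v^3 * z^4 * w + 7776 * u^21 * v^4 * z^4 * w + 39528 * u^20 * v^5 * z^4 * w + 58320 * u^19 * v^6 * z^4 * w + 104976 * u^18 * v^7 * z^4 * w
      - 151632 * u^17 * v^8 * z^4 * w + 31104 * u^16 * v^9 * z^4 * w + 539784 * u^15 * v^10 * z^4 * w + 466560 * u^14 * v^11 * z^4 * w + 517104 * u^13 * v^12 * z^4 * w - 256608 * u^12 * v^13 * z^4 * w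
      + 190512 * u^11 * v^14 * z^4 * w + 1147284 * u^10 * v^15 * z^4 * w + 97200 * u^9 * v^16 * z^4 * w + 38880 * u^8 * v^17 * z^4 * w + 77760 * u^7 * v^18 * z^4 * w + 15552 * u^6 * v^19 * z^4 * w
      - 87480 * u^5 * v^20 * z^4 * w - 324 * u^25 * z^5 * w + 6156 * u^23 * v^2 * z^5 * w + 13932 * u^22 * v^3 * z^5 * w + 32400 * u^21 * v^4 * z^5 * w - 2916 * u^20 * v^5 * z^5 * w
      + 50220 * u^19 * v^6 * z^5 * w + 48600 * u^18 * v^7 * z^5 * w + 242028 * u^17 * v^8 * z^5 * w + 388476 * u^16 * v^9 * z^5 * w + 161352 * u^15 * v^10 * z^5 * w + 325620 * u^14 * v^11 * z^5 * w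
      + 164268 * u^13 * v^12 * z^5 * w + 355104 * u^12 * v^13 * z^5 * w + 1308636 * u^11 * v^14 * z^5 * w + 96552 * u^10 * v^15 * z^5 * w + 38880 * u^9 * v^16 * z^5 * w + 27216 * u^8 * v^17 * z^5 * w
      - 7776 * u^7 * v^18 * z^5 * w - 104976 * u^6 * v^19 * z^5 * w - 324 * u^25 * z^6 * w - 13932 * u^23 * v^2 * z^6 * w - 6156 * u^22 * v^3 * z^6 * w - 40176 * u^21 * v^4 * z^6 * w
      - 2916 * u^20 * v^5 * z^6 * w - 89100 * u^19 * v^6 * z^6 * w - 91368 * u^18 * v^7 * z^6 * w - 121500 * u^17 * v^8 * z^6 * w - 232956 * u^16 * v^9 * z^6 * w - 340848 * u^15 * v^10 * z^6 * w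
      - 422820 * u^14 * v^11 * z^6 * w - 210924 * u^13 * v^12 * z^6 * w + 877392 * u^12 * v^13 * z^6 * w - 29484 * u^11 * v^14 * z^6 * w - 648 * u^10 * v^15 * z^6 * w + 19440 * u^9 * v^16 * z^6 * w
      + 7776 * u^8 * v^17 * z^6 * w - 85536 * u^7 * v^18 * z^6 * w + 972 * u^25 * z^7 * w + 15552 * u^23 * v^2 * z^7 * w - 11664 * u^22 * v^3 * z^7 * w + 46656 * u^21 * v^4 * z^7 * w
      - 9072 * u^20 * v^5 * z^7 * w + 97200 * u^19 * v^6 * z^7 * w + 73872 * u^18 * v^7 * z^7 * w + 85536 * u^17 * v^8 * z^7 * w + 182736 * u^16 * v^9 * z^7 * w + 325944 * u^15 * v^10 * z^7 * w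
      + 194400 * u^14 * v^11 * z^7 * w + 334368 * u^13 * v^12 * z^7 * w + 69984 * u^12 * v^13 * z^7 * w + 31104 * u^11 * v^14 * z^7 * w + 324 * u^10 * v^15 * z^7 * w - 19440 * u^8 * v^17 * z^7 * w
      - 1296 * u^25 * z^8 * w - 11664 * u^23 * v^2 * z^8 * w + 11664 * u^22 * v^3 * z^8 * w - 34992 * u^21 * v^4 * z^8 * w + 23976 * u^20 * v^5 * z^8 * w - 38880 * u^19 * v^6 * z^8 * w
      - 31104 * u^18 * v^7 * z^8 * w - 27216 * u^17 * v^8 * z^8 * w - 132192 * u^16 * v^9 * z^8 * w + 13608 * u^15 * v^10 * z^8 * w + 233280 * u^14 * v^11 * z^8 * w + 11664 * u^13 * v^12 * z^8 * w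
      + 7776 * u^12 * v^13 * z^8 * w + 15552 * u^11 * v^14 * z^8 * w + 648 * u^10 * v^15 * z^8 * w - 19440 * u^9 * v^16 * z^8 * w + 972 * u^25 * z^9 * w + 11664 * u^23 * v^2 * z^9 * w
      - 3888 * u^22 * v^3 * z^9 * w + 19440 * u^21 * v^4 * z^9 * w - 9072 * u^20 * v^5 * z^9 * w + 38880 * u^19 * v^6 * z^9 * w + 69984 * u^18 * v^7 * z^9 * w + 54432 * u^17 * v^8 * z^9 * w
      + 58320 * u^16 * v^9 * z^9 * w + 34344 * u^15 * v^10 * z^9 * w + 19440 * u^14 * v^11 * z^9 * w + 7776 * u^13 * v^12 * z^9 * w + 3888 * u^12 * v^13 * z^9 * w + 324 * u^10 * v^15 * z^9 * w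
      - 3888 * u^23 * v^2 * z^10 * w + 15552 * u^21 * v^4 * z^10 * w - 42768 * u^18 * v^7 * z^10 * w + 171072 * u^16 * v^9 * z^10 * w + 3888 * u^13 * v^12 * z^10 * w - 15552 * u^11 * v^14 * z^10 * w
      + 3888 * u^22 * v^3 * z^11 * w + 42768 * u^17 * v^8 * z^11 * w - 3888 * u^12 * v^13 * z^11 * w + 3888 * u^23 * v^2 * z^12 * w + 42768 * u^18 * v^7 * z^12 * w - 3888 * u^13 * v^12 * z^12 * w) * hz
    + (-324 * u^13 * v^12 - 324 * u^12 * v^13 - 1296 * u^11 * v^14 - 1620 * u^9 * v^16 - 1944 * u^8 * v^17 - 6804 * u^7 * v^18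
      - 9396 * u^6 * v^19 - 8100 * u^5 * v^20 - 4860 * u^4 * v^21 - 2916 * u^3 * v^22 - 1296 * u^2 * v^23 - 324 * u * v^24
      - 3888 * u^14 * v^11 * z - 3888 * u^13 * v^12 * z - 15552 * u^12 * v^13 * z - 324 * u^11 * v^14 * z - 19440 * u^10 * v^15 * z - 27216 * u^9 * v^16 * z
      - 77760 * u^8 * v^17 * z - 120528 * u^7 * v^18 * z - 106920 * u^6 * v^19 * z - 77760 * u^5 * v^20 * z - 46656 * u^4 * v^21 * z - 23328 * u^3 * v^22 * z
      - 7776 * u^2 * v^23 * z - 324 * u * v^24 * z - 7776 * u^15 * v^10 * z^2 - 7776 * u^14 * v^11 * z^2 - 31104 * u^13 * v^12 * z^2 - 1296 * u^12 * v^13 * z^2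
      - 38880 * u^11 * v^14 * z^2 - 62208 * u^10 * v^15 * z^2 - 147744 * u^9 * v^16 * z^2 - 256608 * u^8 * v^17 * z^2 - 233280 * u^7 * v^18 * z^2 - 194400 * u^6 * v^19 * z^2
      - 116640 * u^5 * v^20 * z^2 - 62208 * u^4 * v^21 * z^2 - 23328 * u^3 * v^22 * z^2 - 1296 * u^2 * v^23 * z^2 - 11664 * u^16 * v^9 * z^3 - 11664 * u^15 * v^10 * z^3
      - 46656 * u^14 * v^11 * z^3 - 2916 * u^13 * v^12 * z^3 - 58320 * u^12 * v^13 * z^3 - 104976 * u^11 * v^14 * z^3 - 209952 * u^10 * v^15 * z^3 - 408240 * u^9 * v^16 * z^3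
      - 379080 * u^8 * v^17 * z^3 - 349920 * u^7 * v^18 * z^3 - 209952 * u^6 * v^19 * z^3 - 116640 * u^5 * v^20 * z^3 - 46656 * u^4 * v^21 * z^3 - 2916 * u^3 * v^22 * z^3
      - 19440 * u^17 * v^8 * z^4 - 19440 * u^16 * v^9 * z^4 - 77760 * u^15 * v^10 * z^4 - 4860 * u^14 * v^11 * z^4 - 97200 * u^13 * v^12 * z^4 - 174960 * u^12 * v^13 * z^4
      - 349920 * u^11 * v^14 * z^4 - 680400 * u^10 * v^15 * z^4 - 631800 * u^9 * v^16 * z^4 - 583200 * u^8 * v^17 * z^4 - 349920 * u^7 * v^18 * z^4 - 194400 * u^6 * v^19 * z^4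
      - 77760 * u^5 * v^20 * z^4 - 4860 * u^4 * v^21 * z^4 - 9720 * u^18 * v^7 * z^5 - 9720 * u^17 * v^8 * z^5 - 38880 * u^16 * v^9 * z^5 - 8100 * u^15 * v^10 * z^5
      - 48600 * u^14 * v^11 * z^5 - 155520 * u^13 * v^12 * z^5 - 106920 * u^12 * v^13 * z^5 - 476280 * u^11 * v^14 * z^5 - 486000 * u^10 * v^15 * z^5 - 631800 * u^9 * v^16 * z^5
      - 379080 * u^8 * v^17 * z^5 - 233280 * u^7 * v^18 * z^5 - 106920 * u^6 * v^19 * z^5 - 8100 * u^5 * v^20 * z^5 - 7776 * u^19 * v^6 * z^6 - 7776 * u^18 * v^7 * z^6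
      - 31104 * u^17 * v^8 * z^6 - 9396 * u^16 * v^9 * z^6 - 38880 * u^15 * v^10 * z^6 - 159408 * u^14 * v^11 * z^6 - 50544 * u^13 * v^12 * z^6 - 451008 * u^12 * v^13 * z^6
      - 476280 * u^11 * v^14 * z^6 - 680400 * u^10 * v^15 * z^6 - 408240 * u^9 * v^16 * z^6 - 256608 * u^8 * v^17 * z^6 - 120528 * u^7 * v^18 * z^6 - 9396 * u^6 * v^19 * z^6
      + 3888 * u^20 * v^5 * z^7 + 3888 * u^19 * v^6 * z^7 + 15552 * u^18 * v^7 * z^7 - 6804 * u^17 * v^8 * z^7 + 19440 * u^16 * v^9 * z^7 - 58320 * u^15 * v^10 * z^7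
      + 163296 * u^14 * v^11 * z^7 - 50544 * u^13 * v^12 * z^7 - 106920 * u^12 * v^13 * z^7 - 349920 * u^11 * v^14 * z^7 - 209952 * u^10 * v^15 * z^7 - 147744 * u^9 * v^16 * z^7
      - 77760 * u^8 * v^17 * z^7 - 6804 * u^7 * v^18 * z^7 - 3888 * u^21 * v^4 * z^8 - 3888 * u^20 * v^5 * z^8 - 15552 * u^19 * v^6 * z^8 - 1944 * u^18 * v^7 * z^8
      - 19440 * u^17 * v^8 * z^8 - 46656 * u^16 * v^9 * z^8 - 58320 * u^15 * v^10 * z^8 - 159408 * u^14 * v^11 * z^8 - 155520 * u^13 * v^12 * z^8 - 174960 * u^12 * v^13 * z^8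
      - 104976 * u^11 * v^14 * z^8 - 62208 * u^10 * v^15 * z^8 - 27216 * u^9 * v^16 * z^8 - 1944 * u^8 * v^17 * z^8 - 1620 * u^19 * v^6 * z^9 - 19440 * u^17 * v^8 * z^9
      + 19440 * u^16 * v^9 * z^9 - 38880 * u^15 * v^10 * z^9 - 48600 * u^14 * v^11 * z^9 - 97200 * u^13 * v^12 * z^9 - 58320 * u^12 * v^13 * z^9 - 38880 * u^11 * v^14 * z^9
      - 19440 * u^10 * v^15 * z^9 - 1620 * u^9 * v^16 * z^9 - 324 * u^23 * v^2 * z^10 - 324 * u^22 * v^3 * z^10 - 1296 * u^21 * v^4 * z^10 - 1620 * u^19 * v^6 * z^10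
      - 1944 * u^18 * v^7 * z^10 - 6804 * u^17 * v^8 * z^10 - 9396 * u^16 * v^9 * z^10 - 8100 * u^15 * v^10 * z^10 - 4860 * u^14 * v^11 * z^10 - 2916 * u^13 * v^12 * z^10
      - 1296 * u^12 * v^13 * z^10 - 324 * u^11 * v^14 * z^10 - 1296 * u^21 * v^4 * z^11 - 15552 * u^19 * v^6 * z^11 + 15552 * u^18 * v^7 * z^11 - 31104 * u^17 * v^8 * z^11
      - 38880 * u^16 * v^9 * z^11 - 77760 * u^15 * v^10 * z^11 - 46656 * u^14 * v^11 * z^11 - 31104 * u^13 * v^12 * z^11 - 15552 * u^12 * v^13 * z^11 - 1296 * u^11 * v^14 * z^11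
      - 324 * u^22 * v^3 * z^12 - 3888 * u^20 * v^5 * z^12 + 3888 * u^19 * v^6 * z^12 - 7776 * u^18 * v^7 * z^12 - 9720 * u^17 * v^8 * z^12 - 19440 * u^16 * v^9 * z^12
      - 11664 * u^15 * v^10 * z^12 - 7776 * u^14 * v^11 * z^12 - 3888 * u^13 * v^12 * z^12 - 324 * u^12 * v^13 * z^12 - 324 * u^23 * v^2 * z^13 - 3888 * u^21 * v^4 * z^13
      + 3888 * u^20 * v^5 * z^13 - 7776 * u^19 * v^6 * z^13 - 9720 * u^18 * v^7 * z^13 - 19440 * u^17 * v^8 * z^13 - 11664 * u^16 * v^9 * z^13 - 7776 * u^15 * v^10 * z^13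
      - 3888 * u^14 * v^11 * z^13 - 324 * u^13 * v^12 * z^13) * hw

set_option maxRecDepth 100000 in
set_option maxHeartbeats 1600000 in
theorem nv_Y1 (u v : R) :
    108 * kf u v ^ 2 = Y1 u v * cofY1 u v := by
  simp only [kf, Y1, cofY1]
  ring

set_option maxRecDepth 100000 in
set_option maxHeartbeats 1600000 in
theorem nv_Y2 (u v : R) :
    108 * kf u v ^ 2 = Y2 u v * cofY2 u v := by
  simp only [kf, Y2, cofY2]
  ring

set_option maxRecDepth 100000 in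
set_option maxHeartbeats 1600000 in
theorem nv_Y10 (z u v : R) (hz : 1 + z + z^2 + z^3 + z^4 = 0) :
    540 * kf u v ^ 2 = Y10n z u v * cofY10 z u v := by
  simp only [kf, Y10n, cofY10]
  linear_combination (108 * u^22 * v^2 + 8316 * u^17 * v^7 + 77112 * u^12 * v^12 - 20196 * u^7 * v^17 + 1188 * u^2 * v^22 - 1836 * u^22 * v^2 * z
      - 22572 * u^17 * v^7 * z - 25704 * u^12 * v^12 * z - 13068 * u^7 * v^17 * z + 1404 * u^2 * v^22 * z - 324 * u^22 * v^2 * z^2 - 1188 * u^17 * v^7 * z^2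
      + 25704 * u^12 * v^12 * z^2 - 10692 * u^7 * v^17 * z^2 + 756 * u^2 * v^22 * z^2) * hz

set_option maxRecDepth 100000 in
set_option maxHeartbeats 1600000 in
theorem nv_Y20 (z u v : R) (hz : 1 + z + z^2 + z^3 + z^4 = 0) :
    540 * kf u v ^ 2 = Y20n z u v * cofY20 z u v := by
  simp only [kf, Y20n, cofY20]
  linear_combination (1188 * u^22 * v^2 + 20196 * u^17 * v^7 + 77112 * u^12 * v^12 - 8316 * u^7 * v^17 + 108 * u^2 * v^22 + 1404 * u^22 * v^2 * z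
      + 13068 * u^17 * v^7 * z - 25704 * u^12 * v^12 * z + 22572 * u^7 * v^17 * z - 1836 * u^2 * v^22 * z + 756 * u^22 * v^2 * z^2 + 10692 * u^17 * v^7 * z^2
      + 25704 * u^12 * v^12 * z^2 + 1188 * u^7 * v^17 * z^2 - 324 * u^2 * v^22 * z^2) * hz

set_option maxRecDepth 100000 in
set_option maxHeartbeats 1600000 in
theorem nv_X110 (z u v : R) (hz : 1 + z + z^2 + z^3 + z^4 = 0) :
    180 * kf u v ^ 2 = (5 * X1 u v - X10n z u v) * cofX110 z u v := by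
  simp only [kf, X1, X10n, cofX110]
  linear_combination (-36 * u^22 * v^2 + 180 * u^20 * v^4 - 180 * u^19 * v^5 - 360 * u^18 * v^6 + 108 * u^17 * v^7 + 1620 * u^15 * v^9
      - 1620 * u^14 * v^10 - 4140 * u^13 * v^11 + 5616 * u^12 * v^12 - 4140 * u^10 * v^14 + 4140 * u^9 * v^15 - 1620 * u^8 * v^16
      - 108 * u^7 * v^17 + 360 * u^5 * v^19 - 360 * u^4 * v^20 + 180 * u^3 * v^21 - 36 * u^2 * v^22 + 36 * u^22 * v^2 * z
      - 180 * u^20 * v^4 * z + 180 * u^19 * v^5 * z + 360 * u^18 * v^6 * z - 108 * u^17 * v^7 * z - 1620 * u^15 * v^9 * z + 1620 * u^14 * v^10 * z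
      + 4140 * u^13 * v^11 * z - 5616 * u^12 * v^12 * z + 4140 * u^10 * v^14 * z - 4140 * u^9 * v^15 * z + 1620 * u^8 * v^16 * z + 108 * u^7 * v^17 * z
      - 360 * u^5 * v^19 * z + 360 * u^4 * v^20 * z - 180 * u^3 * v^21 * z + 36 * u^2 * v^22 * z + 36 * u^22 * v^2 * z^2 - 180 * u^20 * v^4 * z^2
      + 180 * u^19 * v^5 * z^2 + 360 * u^18 * v^6 * z^2 - 108 * u^17 * v^7 * z^2 - 1620 * u^15 * v^9 * z^2 + 1620 * u^14 * v^10 * z^2 + 4140 * u^13 * v^11 * z^2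
      - 5616 * u^12 * v^12 * z^2 + 4140 * u^10 * v^14 * z^2 - 4140 * u^9 * v^15 * z^2 + 1620 * u^8 * v^16 * z^2 + 108 * u^7 * v^17 * z^2 - 360 * u^5 * v^19 * z^2
      + 360 * u^4 * v^20 * z^2 - 180 * u^3 * v^21 * z^2 + 36 * u^2 * v^22 * z^2) * hz

set_option maxRecDepth 100000 in
set_option maxHeartbeats 1600000 in
theorem nv_X120 (z u v : R) (hz : 1 + z + z^2 + z^3 + z^4 = 0) :
    180 * kf u v ^ 2 = (5 * X1 u v - X20n z u v) * cofX120 z u v := by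
  simp only [kf, X1, X20n, cofX120]
  linear_combination (-36 * u^22 * v^2 + 180 * u^20 * v^4 - 180 * u^19 * v^5 - 360 * u^18 * v^6 + 108 * u^17 * v^7 + 1620 * u^15 * v^9
      - 1620 * u^14 * v^10 - 4140 * u^13 * v^11 + 5616 * u^12 * v^12 - 4140 * u^10 * v^14 + 4140 * u^9 * v^15 - 1620 * u^8 * v^16
      - 108 * u^7 * v^17 + 360 * u^5 * v^19 - 360 * u^4 * v^20 + 180 * u^3 * v^21 - 36 * u^2 * v^22 + 36 * u^22 * v^2 * z
      - 180 * u^20 * v^4 * z + 180 * u^19 * v^5 * z + 360 * u^18 * v^6 * z - 108 * u^17 * v^7 * z - 1620 * u^15 * v^9 * z + 1620 * u^14 * v^10 * z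
      + 4140 * u^13 * v^11 * z - 5616 * u^12 * v^12 * z + 4140 * u^10 * v^14 * z - 4140 * u^9 * v^15 * z + 1620 * u^8 * v^16 * z + 108 * u^7 * v^17 * z
      - 360 * u^5 * v^19 * z + 360 * u^4 * v^20 * z - 180 * u^3 * v^21 * z + 36 * u^2 * v^22 * z + 36 * u^22 * v^2 * z^2 - 180 * u^20 * v^4 * z^2
      + 180 * u^19 * v^5 * z^2 + 360 * u^18 * v^6 * z^2 - 108 * u^17 * v^7 * z^2 - 1620 * u^15 * v^9 * z^2 + 1620 * u^14 * v^10 * z^2 + 4140 * u^13 * v^11 * z^2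
      - 5616 * u^12 * v^12 * z^2 + 4140 * u^10 * v^14 * z^2 - 4140 * u^9 * v^15 * z^2 + 1620 * u^8 * v^16 * z^2 + 108 * u^7 * v^17 * z^2 - 360 * u^5 * v^19 * z^2
      + 360 * u^4 * v^20 * z^2 - 180 * u^3 * v^21 * z^2 + 36 * u^2 * v^22 * z^2) * hz

end Fermat.Agent.S52.Level5
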