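import Fermat.Agent.S52.Level5.Klein
import Fermat.Agent.S52.Level5.Identities
import Fermat.Agent.S52.Klein.ExistsUV

/-!
# S52 / Level5 / B-E : every curve is a Klein curve over an algebraically closed field
(owner helper206; thin wrappers around `Klein/ExistsUV.lean`, `Klein/Coprime.lean`)
-/

set_option autoImplicit false

namespace Fermat.Agent.S52.Level5

theorem exists_param {K : Type*} [Field K] [IsAlgClosed K] (h2 : (2 : K) ≠ 0) (h3 : (3 : K) ≠ 0)
    (h5 : (5 : K) ≠ 0) (c4 c6 : K)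
    (hΔ : c4 ^ 3 - c6 ^ 2 ≠ 0) : ∃ u v : K, kH u v = c4 ∧ kT u v = -c6 := by
  have h30 : (30 : K) ≠ 0 := by
    have : (30 : K) = 2 * 3 * 5 := by norm_num
    rw [this]
    exact mul_ne_zero (mul_ne_zero h2 h3) h5
  exact exists_uv h30 c4 (-c6) (by rwa [neg_sq])

theorem exists_zeta {K : Type*} [Field K] [IsAlgClosed K] :
    ∃ z : K, 1 + z + z ^ 2 + z ^ 3 + z ^ 4 = 0 := by
  open Polynomial in
  have hdeg : (1 + X + X ^ 2 + X ^ 3 + X ^ 4 : K[X]).degree ≠ 0 := by
    have : (1 + X + X ^ 2 + X ^ 3 + X ^ 4 : K[X]).degree = 4 := by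
      compute_degree!
    rw [this]
    norm_num
  obtain ⟨z, hz⟩ := IsAlgClosed.exists_root _ hdeg
  refine ⟨z, ?_⟩
  simpa [Polynomial.IsRoot.def] using hz

/-- `kH` and `kf` have no common zero (used for semistability). -/
theorem eq_zero_of_kH_kf {K : Type*} [Field K] (h5 : (5 : K) ≠ 0) (u v : K) (hH : kH u v = 0) (hf : kf u v = 0) : u = 0 ∧ v = 0 :=
  eq_zero_of_kf_kH h5 u v hf hH

end Fermat.Agent.S52.Level5
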