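import Fermat.Agent.S52.Defs

/-!
# S52 / Level5: Klein forms in the variables `a = u^5`, `b = v^5`
-/

namespace Fermat.Agent.S52

variable {R : Type*} [CommRing R]

/-- `kH` in terms of `a = u^5`, `b = v^5`. -/
def hH (a b : R) : R := a^4 - 228*a^3*b + 494*a^2*b^2 + 228*a*b^3 + b^4

/-- `kT` in terms of `a = u^5`, `b = v^5`. -/
def hT (a b : R) : R := a^6 + b^6 + 522*(a^5*b - a*b^5) - 10005*(a^4*b^2 + a^2*b^4)

/-- `kf = u * v * hQ`. -/
def hQ (a b : R) : R := a^2 + 11*a*b - b^2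

theorem kH_eq_hH (u v : R) : kH u v = hH (u^5) (v^5) := by unfold kH hH; ring

theorem kT_eq_hT (u v : R) : kT u v = hT (u^5) (v^5) := by unfold kT hT; ring

theorem kf_eq_hQ (u v : R) : kf u v = u * v * hQ (u^5) (v^5) := by unfold kf hQ; ring

theorem lineU_eq (u v t : R) :
    lineU u v t = u * (1 + t * ((u^5)^2 + 66*(u^5)*(v^5) - 11*(v^5)^2)) := by
  unfold lineU kfv; ring

theorem lineV_eq (u v t : R) :
    lineV u v t = v * (1 - t * (11*(u^5)^2 + 66*(u^5)*(v^5) - (v^5)^2)) := by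
  unfold lineV kfu; ring

end Fermat.Agent.S52
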