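import Fermat.Agent.S52.Level5.InvDefs

/-!
# S52 / Level5: `kf` along the covariant line
-/

namespace Fermat.Agent.S52

variable {R : Type*} [CommRing R]

set_option maxHeartbeats 8000000 in
theorem hQ_line (a b t : R) :
    (1 + t * (a^2 + 66*a*b - 11*b^2)) * (1 - t * (11*a^2 + 66*a*b - b^2)) *
      hQ (a * (1 + t * (a^2 + 66*a*b - 11*b^2))^5) (b * (1 - t * (11*a^2 + 66*a*b - b^2))^5)
      = hQ a b * famD (hH a b) (hT a b) t := by
  simp only [famD, Finset.sum_range_succ, Finset.sum_range_zero, famDc, hH, hT, hQ]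
  ring

/-- `kf` along the covariant line. -/
theorem kf_line (u v t : R) :
    kf (lineU u v t) (lineV u v t) = kf u v * famD (kH u v) (kT u v) t := by
  rw [kf_eq_hQ, lineU_eq, lineV_eq, mul_pow, mul_pow, kf_eq_hQ u v, kH_eq_hH u v, kT_eq_hT u v,
    mul_assoc (u * v), ← hQ_line]
  ring

end Fermat.Agent.S52
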