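import Fermat.Agent.S52.Defs

/-!
# S52 / Level5: the explicit table of 5-torsion points of `y^2 = x^3 - 27 kH x + 54 kT`

`z` is a primitive 5-th root of unity (`1 + z + z^2 + z^3 + z^4 = 0`), `w` is the inverse of `5`.
The point with index `(a,b)` corresponds to `zeta^a q^(b/5)` on the Tate curve.
Machine generated (exact arithmetic in `Q(zeta_5)`); all group relations were checked there.
-/

namespace Fermat.Agent.S52.Level5

variable {R : Type*} [CommRing R]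

/-- x-coordinate of the point `(0,1)`. -/
def X1 (u v : R) : R :=
  3 * u^10 + 36 * u^8 * v^2 - 36 * u^7 * v^3 + 72 * u^6 * v^4 + 90 * u^5 * v^5 + 180 * u^4 * v^6
      + 108 * u^3 * v^7 + 72 * u^2 * v^8 + 36 * u * v^9 + 3 * v^10

/-- y-coordinate of the point `(0,1)`. -/
def Y1 (u v : R) : R :=
  108 * u^13 * v^2 + 108 * u^12 * v^3 + 432 * u^11 * v^4 + 540 * u^9 * v^6 + 648 * u^8 * v^7 + 2268 * u^7 * v^8
      + 3132 * u^6 * v^9 + 2700 * u^5 * v^10 + 1620 * u^4 * v^11 + 972 * u^3 * v^12 + 432 * u^2 * v^13 + 108 * u * v^14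

/-- x-coordinate of the point `(0,2)`. -/
def X2 (u v : R) : R :=
  3 * u^10 - 36 * u^9 * v + 72 * u^8 * v^2 - 108 * u^7 * v^3 + 180 * u^6 * v^4 - 90 * u^5 * v^5
      + 72 * u^4 * v^6 + 36 * u^3 * v^7 + 36 * u^2 * v^8 + 3 * v^10

/-- y-coordinate of the point `(0,2)`. -/
def Y2 (u v : R) : R :=
  108 * u^14 * v - 432 * u^13 * v^2 + 972 * u^12 * v^3 - 1620 * u^11 * v^4 + 2700 * u^10 * v^5 - 3132 * u^9 * v^6
      + 2268 * u^8 * v^7 - 648 * u^7 * v^8 + 540 * u^6 * v^9 + 432 * u^4 * v^11 - 108 * u^3 * v^12 + 108 * u^2 * v^13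

/-- five times the x-coordinate of the point `(1,0)`. -/
def X10n (z u v : R) : R :=
  -93 * u^10 - 198 * u^5 * v^5 - 57 * v^10 - 36 * u^10 * z^2 - 396 * u^5 * v^5 * z^2 + 36 * v^10 * z^2
      - 36 * u^10 * z^3 - 396 * u^5 * v^5 * z^3 + 36 * v^10 * z^3

/-- five times the y-coordinate of the point `(1,0)`. -/
def Y10n (z u v : R) : R :=
  -108 * u^15 - 972 * u^10 * v^5 + 2484 * u^5 * v^10 - 216 * v^15 - 216 * u^15 * z - 1944 * u^10 * v^5 * z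
      + 4968 * u^5 * v^10 * z - 432 * v^15 * z + 108 * u^15 * z^2 + 1512 * u^10 * v^5 * z^2 + 3456 * u^5 * v^10 * z^2 - 324 * v^15 * z^2
      - 324 * u^15 * z^3 - 3456 * u^10 * v^5 * z^3 + 1512 * u^5 * v^10 * z^3 - 108 * v^15 * z^3

/-- five times the x-coordinate of the point `(2,0)`. -/
def X20n (z u v : R) : R :=
  -57 * u^10 + 198 * u^5 * v^5 - 93 * v^10 + 36 * u^10 * z^2 + 396 * u^5 * v^5 * z^2 - 36 * v^10 * z^2
      + 36 * u^10 * z^3 + 396 * u^5 * v^5 * z^3 - 36 * v^10 * z^3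

/-- five times the y-coordinate of the point `(2,0)`. -/
def Y20n (z u v : R) : R :=
  -216 * u^15 - 2484 * u^10 * v^5 - 972 * u^5 * v^10 + 108 * v^15 - 432 * u^15 * z - 4968 * u^10 * v^5 * z
      - 1944 * u^5 * v^10 * z + 216 * v^15 * z - 324 * u^15 * z^2 - 3456 * u^10 * v^5 * z^2 + 1512 * u^5 * v^10 * z^2 - 108 * v^15 * z^2
      - 108 * u^15 * z^3 - 1512 * u^10 * v^5 * z^3 - 3456 * u^5 * v^10 * z^3 + 324 * v^15 * z^3

/-- `108 * kf^2 = Y1 * cofY1`. -/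
def cofY1 (u v : R) : R :=
  u^9 - u^8 * v - 3 * u^7 * v^2 + 7 * u^6 * v^3 - 7 * u^4 * v^5 + 7 * u^3 * v^6
      - 4 * u^2 * v^7 + u * v^8

/-- `108 * kf^2 = Y2 * cofY2`. -/
def cofY2 (u v : R) : R :=
  u^8 * v + 4 * u^7 * v^2 + 7 * u^6 * v^3 + 7 * u^5 * v^4 - 7 * u^3 * v^6 - 3 * u^2 * v^7
      + u * v^8 + v^9

/-- `540 * kf^2 = Y10n * cofY10`. -/
def cofY10 (z u v : R) : R :=
  -4 * u^7 * v^2 + 3 * u^2 * v^7 - 8 * u^7 * v^2 * z + 6 * u^2 * v^7 * z - 7 * u^7 * v^2 * z^2 - u^2 * v^7 * z^2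
      - u^7 * v^2 * z^3 + 7 * u^2 * v^7 * z^3

/-- `540 * kf^2 = Y20n * cofY20`. -/
def cofY20 (z u v : R) : R :=
  3 * u^7 * v^2 + 4 * u^2 * v^7 + 6 * u^7 * v^2 * z + 8 * u^2 * v^7 * z - u^7 * v^2 * z^2 + 7 * u^2 * v^7 * z^2
      + 7 * u^7 * v^2 * z^3 + u^2 * v^7 * z^3

/-- `180 * kf^2 = (5 * X1 - X10n) * cofX110`. -/
def cofX110 (z u v : R) : R :=
  2 * u^12 * v^2 - 5 * u^10 * v^4 + 5 * u^9 * v^5 + 5 * u^8 * v^6 + 7 * u^7 * v^7 - 15 * u^5 * v^9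
      + 15 * u^4 * v^10 - 10 * u^3 * v^11 + 3 * u^2 * v^12 - u^12 * v^2 * z^2 + 5 * u^10 * v^4 * z^2 - 5 * u^9 * v^5 * z^2
      - 10 * u^8 * v^6 * z^2 + 14 * u^7 * v^7 * z^2 - 10 * u^5 * v^9 * z^2 + 10 * u^4 * v^10 * z^2 - 5 * u^3 * v^11 * z^2 + u^2 * v^12 * z^2
      - u^12 * v^2 * z^3 + 5 * u^10 * v^4 * z^3 - 5 * u^9 * v^5 * z^3 - 10 * u^8 * v^6 * z^3 + 14 * u^7 * v^7 * z^3 - 10 * u^5 * v^9 * z^3
      + 10 * u^4 * v^10 * z^3 - 5 * u^3 * v^11 * z^3 + u^2 * v^12 * z^3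

/-- `180 * kf^2 = (5 * X1 - X20n) * cofX120`. -/
def cofX120 (z u v : R) : R :=
  3 * u^12 * v^2 - 10 * u^10 * v^4 + 10 * u^9 * v^5 + 15 * u^8 * v^6 - 7 * u^7 * v^7 - 5 * u^5 * v^9
      + 5 * u^4 * v^10 - 5 * u^3 * v^11 + 2 * u^2 * v^12 + u^12 * v^2 * z^2 - 5 * u^10 * v^4 * z^2 + 5 * u^9 * v^5 * z^2
      + 10 * u^8 * v^6 * z^2 - 14 * u^7 * v^7 * z^2 + 10 * u^5 * v^9 * z^2 - 10 * u^4 * v^10 * z^2 + 5 * u^3 * v^11 * z^2 - u^2 * v^12 * z^2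
      + u^12 * v^2 * z^3 - 5 * u^10 * v^4 * z^3 + 5 * u^9 * v^5 * z^3 + 10 * u^8 * v^6 * z^3 - 14 * u^7 * v^7 * z^3 + 10 * u^5 * v^9 * z^3
      - 10 * u^4 * v^10 * z^3 + 5 * u^3 * v^11 * z^3 - u^2 * v^12 * z^3

/-- x-coordinate of `(1,0)`. -/
def X10 (z w u v : R) : R := w * X10n z u v

/-- y-coordinate of `(1,0)`. -/
def Y10 (z w u v : R) : R := w * Y10n z u v

/-- x-coordinate of `(2,0)`. -/
def X20 (z w u v : R) : R := w * X20n z u v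

/-- y-coordinate of `(2,0)`. -/
def Y20 (z w u v : R) : R := w * Y20n z u v

/-- x-coordinate of the point with index `p = (a,b)` (junk value at `p = 0`). -/
def tabX (z w : R) (p : ZMod 5 × ZMod 5) (u v : R) : R :=
  if p.2 = 1 then X1 (z ^ p.1.val * u) v
  else if p.2 = 4 then X1 (z ^ (4 * p.1.val) * u) v
  else if p.2 = 2 then X2 (z ^ (3 * p.1.val) * u) v
  else if p.2 = 3 then X2 (z ^ (2 * p.1.val) * u) v
  else if p.1 = 1 ∨ p.1 = 4 then X10 z w u v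
  else X20 z w u v

/-- y-coordinate of the point with index `p = (a,b)` (junk value at `p = 0`). -/
def tabY (z w : R) (p : ZMod 5 × ZMod 5) (u v : R) : R :=
  if p.2 = 1 then Y1 (z ^ p.1.val * u) v
  else if p.2 = 4 then -Y1 (z ^ (4 * p.1.val) * u) v
  else if p.2 = 2 then Y2 (z ^ (3 * p.1.val) * u) v
  else if p.2 = 3 then -Y2 (z ^ (2 * p.1.val) * u) v
  else if p.1 = 1 then Y10 z w u v
  else if p.1 = 4 then -Y10 z w u v
  else if p.1 = 2 then Y20 z w u v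
  else -Y20 z w u v

end Fermat.Agent.S52.Level5
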