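import Fermat.Agent.S52.Interface
import Fermat.Agent.S52.Level5.Table

/-!
# S52 / Level5: the predicate "E is the Klein curve of (u,v)"
-/

set_option autoImplicit false

namespace Fermat.Agent.S52.Level5

/-- `E` is the curve `y^2 = x^3 - 27 kH(u,v) x + 54 kT(u,v)` and `kf(u,v) ≠ 0`. -/
structure IsKlein {F : Type*} [Field F] (E : WeierstrassCurve F) (u v : F) : Prop where
  a₁ : E.a₁ = 0
  a₂ : E.a₂ = 0
  a₃ : E.a₃ = 0
  a₄ : E.a₄ = -27 * kH u v
  a₆ : E.a₆ = 54 * kT u v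
  f_ne : kf u v ≠ 0

end Fermat.Agent.S52.Level5
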