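import Fermat.Agent.S52.Level5.Klein
import Fermat.Agent.S52.Level5.Identities
import Fermat.Agent.S52.Level5.AddLemmas

/-!
# S52 / Level5 / B-L : the level-5 structure of a Klein curve, from the table.   (helper110)
-/

set_option autoImplicit false
set_option linter.unusedSectionVars false
set_option linter.unusedSimpArgs false
open WeierstrassCurve WeierstrassCurve.Affine WeierstrassCurve.Affine.Point

namespace Fermat.Agent.S52.Level5

theorem isKlein_Δ_ne_zero {F : Type*} [Field F] (h2 : (2 : F) ≠ 0) (h3 : (3 : F) ≠ 0)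
    {E : WeierstrassCurve F} {u v : F} (hE : IsKlein E u v) : E.Δ ≠ 0 := by
  have h : E.Δ = -(2 ^ 12 * 3 ^ 12) * kf u v ^ 5 := by
    simp only [WeierstrassCurve.Δ, WeierstrassCurve.b₂, WeierstrassCurve.b₄, WeierstrassCurve.b₆,
      WeierstrassCurve.b₈, hE.a₁, hE.a₂, hE.a₃, hE.a₄, hE.a₆]
    linear_combination 1259712 * klein_relation u v
  rw [h]
  exact mul_ne_zero (neg_ne_zero.mpr (mul_ne_zero (pow_ne_zero _ h2) (pow_ne_zero _ h3)))
    (pow_ne_zero _ hE.f_ne)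

namespace Lambda

section IsPt

variable {F : Type*} [Field F] [DecidableEq F] {E : WeierstrassCurve F}

/-- `P` is the affine point `(x, y)`. -/
def IsPt (P : E.toAffine.Point) (x y : F) : Prop := ∃ h, P = Point.some x y h

theorem IsPt.ne_zero {P : E.toAffine.Point} {x y : F} (h : IsPt P x y) : P ≠ 0 := by
  obtain ⟨h, rfl⟩ := h
  exact Point.some_ne_zero _

theorem IsPt.ext {P Q : E.toAffine.Point} {x y : F} (h : IsPt P x y) (h' : IsPt Q x y) :
    P = Q := by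
  obtain ⟨_, rfl⟩ := h
  obtain ⟨_, rfl⟩ := h'
  rfl

variable (h₁ : E.a₁ = 0) (h₂ : E.a₂ = 0) (h₃ : E.a₃ = 0) (hΔ : E.Δ ≠ 0)

include h₁ h₂ h₃ hΔ in
theorem exists_isPt {x y : F} (h : y ^ 2 = x ^ 3 + E.a₄ * x + E.a₆) :
    ∃ P : E.toAffine.Point, IsPt P x y :=
  ⟨Point.some x y (nonsingular_of_eq E h₁ h₂ h₃ hΔ h), _, rfl⟩

include h₁ h₂ h₃ in
theorem IsPt.neg {P : E.toAffine.Point} {x y : F} (h : IsPt P x y) : IsPt (-P) x (-y) := by
  obtain ⟨n, rfl⟩ := h
  exact neg_some_short E h₁ h₂ h₃ n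

include h₁ h₂ h₃ hΔ in
theorem IsPt.add {P Q : E.toAffine.Point} {x₁ y₁ x₂ y₂ x₃ y₃ : F} (hP : IsPt P x₁ y₁)
    (hQ : IsPt Q x₂ y₂) (hx : x₁ ≠ x₂) (e₃ : y₃ ^ 2 = x₃ ^ 3 + E.a₄ * x₃ + E.a₆)
    (Ix : x₃ * (x₁ - x₂) ^ 2 = (y₁ - y₂) ^ 2 - (x₁ + x₂) * (x₁ - x₂) ^ 2)
    (Iy : y₃ * (x₁ - x₂) = -((y₁ - y₂) * (x₃ - x₁) + y₁ * (x₁ - x₂))) :
    IsPt (P + Q) x₃ y₃ := by
  obtain ⟨n₁, rfl⟩ := hP
  obtain ⟨n₂, rfl⟩ := hQ
  exact ⟨nonsingular_of_eq E h₁ h₂ h₃ hΔ e₃, add_of_identities E h₁ h₂ h₃ n₁ n₂ _ hx Ix Iy⟩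

include h₁ h₂ h₃ hΔ in
theorem IsPt.double {P : E.toAffine.Point} {x₁ y₁ x₃ y₃ : F} (hP : IsPt P x₁ y₁)
    (h2 : (2 : F) ≠ 0) (hy : y₁ ≠ 0) (e₃ : y₃ ^ 2 = x₃ ^ 3 + E.a₄ * x₃ + E.a₆)
    (Ix : x₃ * (2 * y₁) ^ 2 = (3 * x₁ ^ 2 + E.a₄) ^ 2 - 2 * x₁ * (2 * y₁) ^ 2)
    (Iy : y₃ * (2 * y₁) = -((3 * x₁ ^ 2 + E.a₄) * (x₃ - x₁) + y₁ * (2 * y₁))) :
    IsPt (P + P) x₃ y₃ := by
  obtain ⟨n₁, rfl⟩ := hP
  exact ⟨nonsingular_of_eq E h₁ h₂ h₃ hΔ e₃, double_of_identities E h₁ h₂ h₃ n₁ _ h2 hy Ix Iy⟩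

end IsPt

section Inv

variable {R : Type*} [CommRing R] {z : R}

theorem z_pow_five (hz : 1 + z + z ^ 2 + z ^ 3 + z ^ 4 = 0) : z ^ 5 = 1 := by
  linear_combination (z - 1) * hz

variable (hz5 : z ^ 5 = 1) (u v w : R)

include hz5

theorem z_pow_mul (k : ℕ) : z ^ (5 * k) = 1 := by rw [pow_mul, hz5, one_pow]

theorem kH_z : kH (z * u) v = kH u v := by
  have h10 := z_pow_mul hz5 2
  have h15 := z_pow_mul hz5 3
  have h20 := z_pow_mul hz5 4
  norm_num at h10 h15 h20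
  simp only [kH, mul_pow, hz5, h10, h15, h20, one_mul]

theorem kT_z : kT (z * u) v = kT u v := by
  have h10 := z_pow_mul hz5 2
  have h15 := z_pow_mul hz5 3
  have h20 := z_pow_mul hz5 4
  have h25 := z_pow_mul hz5 5
  have h30 := z_pow_mul hz5 6
  norm_num at h10 h15 h20 h25 h30
  simp only [kT, mul_pow, hz5, h10, h15, h20, h25, h30, one_mul]

theorem kf_z : kf (z * u) v = z * kf u v := by
  have h10 := z_pow_mul hz5 2
  norm_num at h10
  simp only [kf, mul_pow, hz5, h10, one_mul]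
  ring

theorem X10_z : X10 z w (z * u) v = X10 z w u v := by
  have h10 := z_pow_mul hz5 2
  norm_num at h10
  simp only [X10, X10n, mul_pow, hz5, h10, one_mul]

theorem Y10_z : Y10 z w (z * u) v = Y10 z w u v := by
  have h10 := z_pow_mul hz5 2
  have h15 := z_pow_mul hz5 3
  norm_num at h10 h15
  simp only [Y10, Y10n, mul_pow, hz5, h10, h15, one_mul]

end Inv

section Klein

variable {F : Type*} [Field F] [DecidableEq F] (h2 : (2 : F) ≠ 0) (h3 : (3 : F) ≠ 0)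
  {z w : F} (hz : 1 + z + z ^ 2 + z ^ 3 + z ^ 4 = 0) (hw : 5 * w = 1)
  {E : WeierstrassCurve F} {v : F}

include hz in
theorem z_ne_zero : z ≠ 0 := by
  rintro rfl
  simp at hz

include hw in
theorem five_ne_zero : (5 : F) ≠ 0 := by
  intro h
  rw [h, zero_mul] at hw
  exact zero_ne_one hw

include hw in
theorem w_ne_zero : w ≠ 0 := by
  rintro rfl
  rw [mul_zero] at hw
  exact zero_ne_one hw

include hz in
theorem isKlein_z {u : F} (hE : IsKlein E u v) : IsKlein E (z * u) v where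
  a₁ := hE.a₁
  a₂ := hE.a₂
  a₃ := hE.a₃
  a₄ := by rw [kH_z (z_pow_five hz)]; exact hE.a₄
  a₆ := by rw [kT_z (z_pow_five hz)]; exact hE.a₆
  f_ne := by
    rw [kf_z (z_pow_five hz)]
    exact mul_ne_zero (z_ne_zero hz) hE.f_ne

include hz in
theorem isKlein_z_pow {u : F} (hE : IsKlein E u v) (c : ℕ) : IsKlein E (z ^ c * u) v := by
  induction c with
  | zero => simpa using hE
  | succ c ih =>
    have := isKlein_z hz ih
    rwa [← mul_assoc, ← pow_succ'] at this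

include h2 h3 in
theorem Y1_ne_zero {u : F} (hE : IsKlein E u v) : Y1 u v ≠ 0 := by
  intro h
  have h1 := nv_Y1 u v
  rw [h, zero_mul] at h1
  have h108 : (108 : F) = 2 ^ 2 * 3 ^ 3 := by norm_num
  rw [h108] at h1
  exact mul_ne_zero (mul_ne_zero (pow_ne_zero _ h2) (pow_ne_zero _ h3)) (pow_ne_zero _ hE.f_ne) h1

include h2 h3 in
theorem Y2_ne_zero {u : F} (hE : IsKlein E u v) : Y2 u v ≠ 0 := by
  intro h
  have h1 := nv_Y2 u v
  rw [h, zero_mul] at h1
  have h108 : (108 : F) = 2 ^ 2 * 3 ^ 3 := by norm_num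
  rw [h108] at h1
  exact mul_ne_zero (mul_ne_zero (pow_ne_zero _ h2) (pow_ne_zero _ h3)) (pow_ne_zero _ hE.f_ne) h1

include h2 h3 hz hw in
theorem Y10_ne_zero {u : F} (hE : IsKlein E u v) : Y10 z w u v ≠ 0 := by
  intro h
  have h0 : Y10n z u v = 0 := (mul_eq_zero.mp h).resolve_left (w_ne_zero hw)
  have h1 := nv_Y10 z u v hz
  rw [h0, zero_mul] at h1
  have h540 : (540 : F) = 2 ^ 2 * 3 ^ 3 * 5 := by norm_num
  rw [h540] at h1
  exact mul_ne_zero (mul_ne_zero (mul_ne_zero (pow_ne_zero _ h2) (pow_ne_zero _ h3))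
    (five_ne_zero hw)) (pow_ne_zero _ hE.f_ne) h1

include h2 h3 hz hw in
theorem Y20_ne_zero {u : F} (hE : IsKlein E u v) : Y20 z w u v ≠ 0 := by
  intro h
  have h0 : Y20n z u v = 0 := (mul_eq_zero.mp h).resolve_left (w_ne_zero hw)
  have h1 := nv_Y20 z u v hz
  rw [h0, zero_mul] at h1
  have h540 : (540 : F) = 2 ^ 2 * 3 ^ 3 * 5 := by norm_num
  rw [h540] at h1
  exact mul_ne_zero (mul_ne_zero (mul_ne_zero (pow_ne_zero _ h2) (pow_ne_zero _ h3))
    (five_ne_zero hw)) (pow_ne_zero _ hE.f_ne) h1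

include h2 h3 hz hw in
theorem X1_ne_X10 {u : F} (hE : IsKlein E u v) : X1 u v ≠ X10 z w u v := by
  intro h
  have h0 : 5 * X1 u v - X10n z u v = 0 := by
    rw [h, X10]
    linear_combination X10n z u v * hw
  have h1 := nv_X110 z u v hz
  rw [h0, zero_mul] at h1
  have h180 : (180 : F) = 2 ^ 2 * 3 ^ 2 * 5 := by norm_num
  rw [h180] at h1
  exact mul_ne_zero (mul_ne_zero (mul_ne_zero (pow_ne_zero _ h2) (pow_ne_zero _ h3))
    (five_ne_zero hw)) (pow_ne_zero _ hE.f_ne) h1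

/-- the equation of the curve, in terms of `kH`, `kT`. -/
theorem eqn_iff {u : F} (hE : IsKlein E u v) (x y : F) :
    y ^ 2 = x ^ 3 + E.a₄ * x + E.a₆ ↔ y ^ 2 = x ^ 3 - 27 * kH u v * x + 54 * kT u v := by
  rw [hE.a₄, hE.a₆]
  constructor <;> intro h <;> linear_combination h

include h2 h3 in
/-- `2 P1 = P2`. -/
theorem double_P1 {u : F} (hE : IsKlein E u v) {B : E.toAffine.Point}
    (hB : IsPt B (X1 u v) (Y1 u v)) : IsPt (B + B) (X2 u v) (Y2 u v) := by
  refine hB.double hE.a₁ hE.a₂ hE.a₃ (isKlein_Δ_ne_zero h2 h3 hE) h2 (Y1_ne_zero h2 h3 hE)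
    ((eqn_iff hE _ _).mpr (eq2 u v)) ?_ ?_
  · rw [hE.a₄]; linear_combination dbl1_x u v
  · rw [hE.a₄]; linear_combination dbl1_y u v

include h2 h3 in
/-- `2 P2 = - P1`. -/
theorem double_P2 {u : F} (hE : IsKlein E u v) {B : E.toAffine.Point}
    (hB : IsPt B (X2 u v) (Y2 u v)) : IsPt (B + B) (X1 u v) (-Y1 u v) := by
  refine hB.double hE.a₁ hE.a₂ hE.a₃ (isKlein_Δ_ne_zero h2 h3 hE) h2 (Y2_ne_zero h2 h3 hE)
    ((eqn_iff hE _ _).mpr (by rw [neg_sq]; exact eq1 u v)) ?_ ?_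
  · rw [hE.a₄]; linear_combination dbl2_x u v
  · rw [hE.a₄]; linear_combination dbl2_y u v

include h2 h3 hz hw in
/-- `2 P10 = P20`. -/
theorem double_P10 {u : F} (hE : IsKlein E u v) {A : E.toAffine.Point}
    (hA : IsPt A (X10 z w u v) (Y10 z w u v)) : IsPt (A + A) (X20 z w u v) (Y20 z w u v) := by
  refine hA.double hE.a₁ hE.a₂ hE.a₃ (isKlein_Δ_ne_zero h2 h3 hE) h2 (Y10_ne_zero h2 h3 hz hw hE)
    ((eqn_iff hE _ _).mpr (eq20 z w u v hz hw)) ?_ ?_
  · rw [hE.a₄]; linear_combination dbl10_x z w u v hz hw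
  · rw [hE.a₄]; linear_combination dbl10_y z w u v hz hw

include h2 h3 hz hw in
/-- `2 P20 = - P10`. -/
theorem double_P20 {u : F} (hE : IsKlein E u v) {A : E.toAffine.Point}
    (hA : IsPt A (X20 z w u v) (Y20 z w u v)) : IsPt (A + A) (X10 z w u v) (-Y10 z w u v) := by
  refine hA.double hE.a₁ hE.a₂ hE.a₃ (isKlein_Δ_ne_zero h2 h3 hE) h2 (Y20_ne_zero h2 h3 hz hw hE)
    ((eqn_iff hE _ _).mpr (by rw [neg_sq]; exact eq10 z w u v hz hw)) ?_ ?_
  · rw [hE.a₄]; linear_combination dbl20_x z w u v hz hw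
  · rw [hE.a₄]; linear_combination dbl20_y z w u v hz hw

include h2 h3 hz hw in
/-- `P1(u) + P10 = P1(z u)`. -/
theorem add_P1_P10 {u : F} (hE : IsKlein E u v) {A B : E.toAffine.Point}
    (hA : IsPt A (X10 z w u v) (Y10 z w u v)) (hB : IsPt B (X1 u v) (Y1 u v)) :
    IsPt (B + A) (X1 (z * u) v) (Y1 (z * u) v) :=
  hB.add hE.a₁ hE.a₂ hE.a₃ (isKlein_Δ_ne_zero h2 h3 hE) hA (X1_ne_X10 h2 h3 hz hw hE)
    ((eqn_iff (isKlein_z hz hE) _ _).mpr (eq1 (z * u) v)) (add_x z w u v hz hw)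
    (add_y z w u v hz hw)

include h2 h3 hz hw in
/-- `P1(u) + c P10 = P1(z^c u)`. -/
theorem add_P1_nsmul_P10 (c : ℕ) : ∀ {u : F} (_ : IsKlein E u v) {A B : E.toAffine.Point}
    (_ : IsPt A (X10 z w u v) (Y10 z w u v)) (_ : IsPt B (X1 u v) (Y1 u v)),
    IsPt (B + c • A) (X1 (z ^ c * u) v) (Y1 (z ^ c * u) v) := by
  induction c with
  | zero =>
    intro u _ A B _ hB
    simpa using hB
  | succ c ih =>
    intro u hE A B hA hB
    have hA' : IsPt A (X10 z w (z * u) v) (Y10 z w (z * u) v) := by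
      rw [X10_z (z_pow_five hz), Y10_z (z_pow_five hz)]
      exact hA
    have h := ih (isKlein_z hz hE) hA' (add_P1_P10 h2 h3 hz hw hE hA hB)
    rw [← mul_assoc, ← pow_succ] at h
    rwa [add_assoc, add_comm A, ← succ_nsmul] at h

end Klein

section Hom

variable {G : Type*} [AddCommGroup G]

theorem mod_nsmul {A : G} (h : 5 • A = 0) (m : ℕ) : (m % 5) • A = m • A :=
  (nsmul_eq_mod_nsmul m h).symm

/-- the homomorphism `(a, b) ↦ a A + b B` for two elements killed by `5`. -/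
def homOf (A B : G) (hA : 5 • A = 0) (hB : 5 • B = 0) : ZMod 5 × ZMod 5 →+ G where
  toFun p := p.1.val • A + p.2.val • B
  map_zero' := by simp
  map_add' p q := by
    simp only [Prod.fst_add, Prod.snd_add, ZMod.val_add, mod_nsmul hA, mod_nsmul hB, add_nsmul]
    abel

theorem homOf_apply (A B : G) (hA : 5 • A = 0) (hB : 5 • B = 0) (a b : ZMod 5) :
    homOf A B hA hB (a, b) = a.val • A + b.val • B := rfl

theorem zmod5_cases (b : ZMod 5) : b = 0 ∨ b = 1 ∨ b = 2 ∨ b = 3 ∨ b = 4 := by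
  revert b
  decide

end Hom

section Tab

variable {R : Type*} [CommRing R] (z w u v : R)

theorem ne01 : ¬ ((0 : ZMod 5) = 1) := by decide
theorem ne02 : ¬ ((0 : ZMod 5) = 2) := by decide
theorem ne03 : ¬ ((0 : ZMod 5) = 3) := by decide
theorem ne04 : ¬ ((0 : ZMod 5) = 4) := by decide
theorem ne21 : ¬ ((2 : ZMod 5) = 1) := by decide
theorem ne24 : ¬ ((2 : ZMod 5) = 4) := by decide
theorem ne31 : ¬ ((3 : ZMod 5) = 1) := by decide
theorem ne32 : ¬ ((3 : ZMod 5) = 2) := by decide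
theorem ne34 : ¬ ((3 : ZMod 5) = 4) := by decide
theorem ne41 : ¬ ((4 : ZMod 5) = 1) := by decide

theorem tabX_1 (a : ZMod 5) : tabX z w (a, 1) u v = X1 (z ^ a.val * u) v := by
  simp [tabX]

theorem tabY_1 (a : ZMod 5) : tabY z w (a, 1) u v = Y1 (z ^ a.val * u) v := by
  simp [tabY]

theorem tabX_4 (a : ZMod 5) : tabX z w (a, 4) u v = X1 (z ^ (4 * a.val) * u) v := by
  simp [tabX, ne41]

theorem tabY_4 (a : ZMod 5) : tabY z w (a, 4) u v = -Y1 (z ^ (4 * a.val) * u) v := by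
  simp [tabY, ne41]

theorem tabX_2 (a : ZMod 5) : tabX z w (a, 2) u v = X2 (z ^ (3 * a.val) * u) v := by
  simp [tabX, ne21, ne24]

theorem tabY_2 (a : ZMod 5) : tabY z w (a, 2) u v = Y2 (z ^ (3 * a.val) * u) v := by
  simp [tabY, ne21, ne24]

theorem tabX_3 (a : ZMod 5) : tabX z w (a, 3) u v = X2 (z ^ (2 * a.val) * u) v := by
  simp [tabX, ne31, ne32, ne34]

theorem tabY_3 (a : ZMod 5) : tabY z w (a, 3) u v = -Y2 (z ^ (2 * a.val) * u) v := by
  simp [tabY, ne31, ne32, ne34]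

theorem tabX_10 : tabX z w (1, 0) u v = X10 z w u v := by
  simp [tabX, ne01, ne02, ne03, ne04]

theorem tabY_10 : tabY z w (1, 0) u v = Y10 z w u v := by
  simp [tabY, ne01, ne02, ne03, ne04]

theorem tabX_20 : tabX z w (2, 0) u v = X20 z w u v := by
  simp [tabX, ne01, ne02, ne03, ne04, ne21, ne24]

theorem tabY_20 : tabY z w (2, 0) u v = Y20 z w u v := by
  simp [tabY, ne01, ne02, ne03, ne04, ne21, ne24]

theorem tabX_30 : tabX z w (3, 0) u v = X20 z w u v := by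
  simp [tabX, ne01, ne02, ne03, ne04, ne31, ne34]

theorem tabY_30 : tabY z w (3, 0) u v = -Y20 z w u v := by
  simp [tabY, ne01, ne02, ne03, ne04, ne31, ne32, ne34]

theorem tabX_40 : tabX z w (4, 0) u v = X10 z w u v := by
  simp [tabX, ne01, ne02, ne03, ne04]

theorem tabY_40 : tabY z w (4, 0) u v = -Y10 z w u v := by
  simp [tabY, ne01, ne02, ne03, ne04, ne41]

end Tab

end Lambda

open Lambda in
theorem exists_level5 {F : Type*} [Field F] [DecidableEq F] (h2 : (2 : F) ≠ 0) (h3 : (3 : F) ≠ 0)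
    (z w : F) (hz : 1 + z + z ^ 2 + z ^ 3 + z ^ 4 = 0) (hw : 5 * w = 1)
    (E : WeierstrassCurve F) (u v : F) (hE : IsKlein E u v) :
    ∃ Λ : ZMod 5 × ZMod 5 →+ E.toAffine.Point, Function.Injective Λ ∧
      ∀ p, p ≠ 0 → ∃ h, Λ p = Point.some (tabX z w p u v) (tabY z w p u v) h := by
  have hΔ := isKlein_Δ_ne_zero h2 h3 hE
  obtain ⟨A, hA⟩ := exists_isPt hE.a₁ hE.a₂ hE.a₃ hΔ ((eqn_iff hE _ _).mpr (eq10 z w u v hz hw))
  obtain ⟨B, hB⟩ := exists_isPt hE.a₁ hE.a₂ hE.a₃ hΔ ((eqn_iff hE _ _).mpr (eq1 u v))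
  -- the points `P1 (z ^ c u)`
  have hch : ∀ c : ℕ, IsPt (B + c • A) (X1 (z ^ c * u) v) (Y1 (z ^ c * u) v) := fun c =>
    add_P1_nsmul_P10 h2 h3 hz hw c hE hA hB
  have hK : ∀ c : ℕ, IsKlein E (z ^ c * u) v := isKlein_z_pow hz hE
  have hneg : ∀ {P : E.toAffine.Point} {x y : F}, IsPt P x y → IsPt (-P) x (-y) :=
    fun h => h.neg hE.a₁ hE.a₂ hE.a₃
  -- `5 A = 0`
  have hA2 := double_P10 h2 h3 hz hw hE hA
  have hA4 := double_P20 h2 h3 hz hw hE hA2
  have hA4' : A + A + (A + A) = -A := hA4.ext (hneg hA)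
  have h5A : 5 • A = 0 := by
    have : 5 • A = A + A + (A + A) + A := by abel
    rw [this, hA4', neg_add_cancel]
  -- `5 B = 0`
  have hB2 := double_P1 h2 h3 hE hB
  have hB4 := double_P2 h2 h3 hE hB2
  have hB4' : B + B + (B + B) = -B := hB4.ext (hneg hB)
  have h5B : 5 • B = 0 := by
    have : 5 • B = B + B + (B + B) + B := by abel
    rw [this, hB4', neg_add_cancel]
  have htab : ∀ p, p ≠ 0 → IsPt (homOf A B h5A h5B p) (tabX z w p u v) (tabY z w p u v) := by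
    rintro ⟨a, b⟩ hp
    rw [homOf_apply]
    set n := a.val with hn
    set C := n • A with hC
    have h5C : 5 • C = 0 := by rw [hC, smul_comm, h5A, smul_zero]
    rcases zmod5_cases b with rfl | rfl | rfl | rfl | rfl
    · -- `b = 0`
      have ha : a ≠ 0 := fun h => hp (by rw [h]; rfl)
      have e0 : C + (0 : ZMod 5).val • B = C := by
        rw [show (0 : ZMod 5).val = 0 from rfl, zero_smul, add_zero]
      rw [e0, hC, hn]
      rcases zmod5_cases a with rfl | rfl | rfl | rfl | rfl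
      · exact absurd rfl ha
      · rw [tabX_10, tabY_10, show (1 : ZMod 5).val = 1 from rfl, one_smul]
        exact hA
      · rw [tabX_20, tabY_20, show (2 : ZMod 5).val = 2 from rfl, two_nsmul]
        exact hA2
      · have e3 : 3 • A = -(A + A) := by
          rw [eq_neg_iff_add_eq_zero, ← h5A]
          abel
        rw [tabX_30, tabY_30, show (3 : ZMod 5).val = 3 from rfl, e3]
        exact hneg hA2
      · have e3 : 4 • A = -A := by
          rw [eq_neg_iff_add_eq_zero, ← h5A]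
          abel
        rw [tabX_40, tabY_40, show (4 : ZMod 5).val = 4 from rfl, e3]
        exact hneg hA
    · -- `b = 1`
      have e3 : C + (1 : ZMod 5).val • B = B + n • A := by
        rw [show (1 : ZMod 5).val = 1 from rfl, one_smul, add_comm]
      rw [tabX_1, tabY_1, e3]
      exact hch n
    · -- `b = 2`
      have e3 : C + (2 : ZMod 5).val • B = (B + (3 * n) • A) + (B + (3 * n) • A) := by
        rw [show (2 : ZMod 5).val = 2 from rfl, mul_smul, ← hC]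
        have : B + 3 • C + (B + 3 • C) = C + 2 • B + 5 • C := by abel
        rw [this, h5C, add_zero]
      rw [tabX_2, tabY_2, e3]
      exact double_P1 h2 h3 (hK _) (hch _)
    · -- `b = 3`
      have e3 : C + (3 : ZMod 5).val • B = -((B + (2 * n) • A) + (B + (2 * n) • A)) := by
        rw [show (3 : ZMod 5).val = 3 from rfl, mul_smul, ← hC, eq_neg_iff_add_eq_zero]
        have : C + 3 • B + (B + 2 • C + (B + 2 • C)) = 5 • C + 5 • B := by abel
        rw [this, h5C, h5B, add_zero]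
      rw [tabX_3, tabY_3, e3]
      exact hneg (double_P1 h2 h3 (hK _) (hch _))
    · -- `b = 4`
      have e3 : C + (4 : ZMod 5).val • B = -(B + (4 * n) • A) := by
        rw [show (4 : ZMod 5).val = 4 from rfl, mul_smul, ← hC, eq_neg_iff_add_eq_zero]
        have : C + 4 • B + (B + 4 • C) = 5 • C + 5 • B := by abel
        rw [this, h5C, h5B, add_zero]
      rw [tabX_4, tabY_4, e3]
      exact hneg (hch _)
  refine ⟨homOf A B h5A h5B, ?_, htab⟩
  rw [injective_iff_map_eq_zero]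
  intro p hp
  by_contra hne
  exact (htab p hne).ne_zero hp

end Fermat.Agent.S52.Level5
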