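import Fermat.Agent.S52.Level5.Table

/-!
# S52 / Level5 : the table of 5-torsion points commutes with ring homomorphisms
-/

set_option autoImplicit false

namespace Fermat.Agent.S52.Level5

variable {R S : Type*} [CommRing R] [CommRing S] (f : R →+* S)

theorem map_kf (u v : R) : f (kf u v) = kf (f u) (f v) := by
  simp only [kf, map_add, map_sub, map_mul, map_pow, map_ofNat]

theorem map_kfu (u v : R) : f (kfu u v) = kfu (f u) (f v) := by
  simp only [kfu, map_add, map_sub, map_mul, map_pow, map_ofNat]

theorem map_kfv (u v : R) : f (kfv u v) = kfv (f u) (f v) := by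
  simp only [kfv, map_add, map_sub, map_mul, map_pow, map_ofNat]

theorem map_kH (u v : R) : f (kH u v) = kH (f u) (f v) := by
  simp only [kH, map_add, map_sub, map_mul, map_pow, map_ofNat]

theorem map_kT (u v : R) : f (kT u v) = kT (f u) (f v) := by
  simp only [kT, map_add, map_sub, map_mul, map_pow, map_ofNat]

theorem map_lineU (u v t : R) : f (lineU u v t) = lineU (f u) (f v) (f t) := by
  simp only [lineU, map_add, map_mul, map_kfv]

theorem map_lineV (u v t : R) : f (lineV u v t) = lineV (f u) (f v) (f t) := by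
  simp only [lineV, map_sub, map_mul, map_kfu]

theorem map_X1 (u v : R) : f (X1 u v) = X1 (f u) (f v) := by
  simp only [X1, map_add, map_sub, map_mul, map_pow, map_ofNat]

theorem map_Y1 (u v : R) : f (Y1 u v) = Y1 (f u) (f v) := by
  simp only [Y1, map_add, map_sub, map_mul, map_pow, map_ofNat]

theorem map_X2 (u v : R) : f (X2 u v) = X2 (f u) (f v) := by
  simp only [X2, map_add, map_sub, map_mul, map_pow, map_ofNat]

theorem map_Y2 (u v : R) : f (Y2 u v) = Y2 (f u) (f v) := by
  simp only [Y2, map_add, map_sub, map_mul, map_pow, map_ofNat]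

theorem map_X10n (z u v : R) : f (X10n z u v) = X10n (f z) (f u) (f v) := by
  simp only [X10n, map_add, map_sub, map_mul, map_pow, map_neg, map_ofNat]

theorem map_Y10n (z u v : R) : f (Y10n z u v) = Y10n (f z) (f u) (f v) := by
  simp only [Y10n, map_add, map_sub, map_mul, map_pow, map_neg, map_ofNat]

theorem map_X20n (z u v : R) : f (X20n z u v) = X20n (f z) (f u) (f v) := by
  simp only [X20n, map_add, map_sub, map_mul, map_pow, map_neg, map_ofNat]

theorem map_Y20n (z u v : R) : f (Y20n z u v) = Y20n (f z) (f u) (f v) := by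
  simp only [Y20n, map_add, map_sub, map_mul, map_pow, map_neg, map_ofNat]

theorem map_X10 (z w u v : R) : f (X10 z w u v) = X10 (f z) (f w) (f u) (f v) := by
  simp only [X10, map_mul, map_X10n]

theorem map_Y10 (z w u v : R) : f (Y10 z w u v) = Y10 (f z) (f w) (f u) (f v) := by
  simp only [Y10, map_mul, map_Y10n]

theorem map_X20 (z w u v : R) : f (X20 z w u v) = X20 (f z) (f w) (f u) (f v) := by
  simp only [X20, map_mul, map_X20n]

theorem map_Y20 (z w u v : R) : f (Y20 z w u v) = Y20 (f z) (f w) (f u) (f v) := by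
  simp only [Y20, map_mul, map_Y20n]

theorem map_tabX {R S : Type*} [CommRing R] [CommRing S] (f : R →+* S) (z w : R)
    (p : ZMod 5 × ZMod 5) (u v : R) : f (tabX z w p u v) = tabX (f z) (f w) p (f u) (f v) := by
  unfold tabX
  split_ifs <;> simp only [map_X1, map_X2, map_X10, map_X20, map_mul, map_pow]

theorem map_tabY {R S : Type*} [CommRing R] [CommRing S] (f : R →+* S) (z w : R)
    (p : ZMod 5 × ZMod 5) (u v : R) : f (tabY z w p u v) = tabY (f z) (f w) p (f u) (f v) := by
  unfold tabY
  split_ifs <;> simp only [map_Y1, map_Y2, map_Y10, map_Y20, map_mul, map_pow, map_neg]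

end Fermat.Agent.S52.Level5
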